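import Fermat.Agent.Patch.Eval
import Mathlib.Algebra.MvPolynomial.Monad

/-!
# Kernels of monomial charts

Points to which the kernel of a monomial chart extends.

A chart sends the variables of `O⟦σ⟧` to polynomials in intermediate variables `τ'`, which go to
`O⟦τ⟧` by a monomial substitution `ψ`. Some variables (weight `0`) are only polynomial. If a
power series dies in the chart, its value at every point satisfying the monomial relations lies in
arbitrarily high powers of an ideal containing the small variables.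
-/

set_option autoImplicit false

noncomputable section

open MvPowerSeries IsLocalRing

namespace FA.LocalComp

variable {O : Type} [CommRing O] [IsLocalRing O] {τ : Type}

/-- The total weight of an exponent. -/
def wdeg (wt : τ → ℕ) (d : τ →₀ ℕ) : ℕ := d.sum fun t a => a * wt t

@[simp] theorem wdeg_zero (wt : τ → ℕ) : wdeg wt 0 = 0 := Finsupp.sum_zero_index

theorem wdeg_add (wt : τ → ℕ) (d d' : τ →₀ ℕ) : wdeg wt (d + d') = wdeg wt d + wdeg wt d' :=
  Finsupp.sum_add_index' (fun _ => by simp) fun _ _ _ => by ring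

theorem wdeg_single (wt : τ → ℕ) (t : τ) (a : ℕ) : wdeg wt (Finsupp.single t a) = a * wt t :=
  Finsupp.sum_single_index (by simp)

variable (O) in
/-- Series whose coefficient at `d` is divisible by `n - wdeg d`. -/
def filt (wt : τ → ℕ) (n : ℕ) : Ideal (MvPowerSeries τ O) where
  carrier := {p | ∀ d, coeff d p ∈ maximalIdeal O ^ (n - wdeg wt d)}
  zero_mem' d := by simp
  add_mem' {p q} hp hq d := by
    rw [map_add]
    exact add_mem (hp d) (hq d)
  smul_mem' c p hp d := by
    classical
    rw [smul_eq_mul, coeff_mul]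
    refine Ideal.sum_mem _ fun uv huv => Ideal.mul_mem_left _ _ ?_
    refine Ideal.pow_le_pow_right ?_ (hp uv.2)
    have := congrArg (wdeg wt) (Finset.HasAntidiagonal.mem_antidiagonal.mp huv)
    rw [wdeg_add] at this
    omega

theorem mem_filt {wt : τ → ℕ} {n : ℕ} {p : MvPowerSeries τ O} :
    p ∈ filt O wt n ↔ ∀ d, coeff d p ∈ maximalIdeal O ^ (n - wdeg wt d) := Iff.rfl

theorem filt_mul_le (wt : τ → ℕ) (a b : ℕ) : filt O wt a * filt O wt b ≤ filt O wt (a + b) := by
  classical
  refine Ideal.mul_le.mpr fun p hp q hq d => ?_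
  rw [coeff_mul]
  refine Ideal.sum_mem _ fun uv huv => ?_
  refine Ideal.pow_le_pow_right ?_
    (pow_add (maximalIdeal O) (a - wdeg wt uv.1) (b - wdeg wt uv.2) ▸
      Ideal.mul_mem_mul (hp uv.1) (hq uv.2))
  have := congrArg (wdeg wt) (Finset.HasAntidiagonal.mem_antidiagonal.mp huv)
  rw [wdeg_add] at this
  omega

theorem filt_pow_le (wt : τ → ℕ) : ∀ n : ℕ, filt O wt 1 ^ n ≤ filt O wt n
  | 0 => fun p _ d => by simp
  | n + 1 => by
    rw [pow_succ]
    exact (Ideal.mul_mono (filt_pow_le wt n) le_rfl).trans (filt_mul_le wt n 1)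

theorem filt_antitone (wt : τ → ℕ) {a b : ℕ} (h : a ≤ b) : filt O wt b ≤ filt O wt a :=
  fun _ hp d => Ideal.pow_le_pow_right (Nat.sub_le_sub_right h _) (hp d)

variable {σ τ' : Type} [Finite σ] [Finite τ]

/-- The monomial map and the values it is compared with. -/
structure Monomial (O : Type) [CommRing O] [IsLocalRing O] (τ' τ : Type) where
  /-- The images of the variables. -/
  img : τ' → MvPolynomial τ O
  /-- The exponent of the image of a monomial. -/
  cls : (τ' →₀ ℕ) → (τ →₀ ℕ)
  /-- The factor which points share. -/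
  k : (τ' →₀ ℕ) → O
  /-- The remaining factor. -/
  h : (τ →₀ ℕ) → O
  map_monomial : ∀ d, MvPolynomial.bind₁ img (MvPolynomial.monomial d 1) =
    MvPolynomial.monomial (cls d) (k d * h (cls d))
  /-- The valuation of the remaining factor. -/
  ν : (τ →₀ ℕ) → ℕ
  le_of_mul_mem : ∀ c x N, h c * x ∈ maximalIdeal O ^ N → x ∈ maximalIdeal O ^ (N - ν c)
  /-- The degree of the corresponding monomial at points. -/
  deg : (τ →₀ ℕ) → ℕ
  /-- The comparison constant. -/
  K : ℕ

variable [IsAdicComplete (maximalIdeal O) O] {wt : τ → ℕ} (M : Monomial O τ' τ)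
  (χ : σ → MvPolynomial τ' O)

/-- The image of a variable in the chart. -/
def chartVar (i : σ) : MvPowerSeries τ O := (MvPolynomial.bind₁ M.img (χ i) : MvPolynomial τ O)

/-- The chart. -/
def chartHom (hχ : ∀ i, chartVar M χ i ∈ maximalIdeal (MvPowerSeries τ O)) :
    MvPowerSeries σ O →+* MvPowerSeries τ O :=
  FA.Patch.evalHom (maximalIdeal (MvPowerSeries τ O)) C (chartVar M χ) hχ

variable {hχ : ∀ i, chartVar M χ i ∈ maximalIdeal (MvPowerSeries τ O)}

theorem chartHom_coe (P : MvPolynomial σ O) :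
    chartHom M χ hχ (P : MvPowerSeries σ O) =
      (MvPolynomial.bind₁ M.img (MvPolynomial.bind₁ χ P) : MvPolynomial τ O) := by
  rw [chartHom, FA.Patch.evalHom_coe]
  induction P using MvPolynomial.induction_on with
  | C a =>
    rw [MvPolynomial.eval₂_C, MvPolynomial.bind₁_C_right, MvPolynomial.bind₁_C_right,
      MvPolynomial.coe_C]
  | add p q hp hq =>
    rw [MvPolynomial.eval₂_add, hp, hq, map_add, map_add, MvPolynomial.coe_add]
  | mul_X p i hp =>
    rw [MvPolynomial.eval₂_mul, hp, MvPolynomial.eval₂_X, map_mul, map_mul,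
      MvPolynomial.bind₁_X_right, MvPolynomial.coe_mul]
    rfl

/-- **Points killed by the kernel of a chart.** -/
theorem map_mem_pow_of_chartHom_eq_zero {E : Type*} [CommRing E] (𝔞 : Ideal E) (φ : O →+* E)
    (hφ : ∀ c ∈ maximalIdeal O, φ c ∈ 𝔞) (π : MvPowerSeries σ O →+* E) (pt : τ' → E)
    (R : (τ →₀ ℕ) → E) (hπC : ∀ c, π (C c) = φ c)
    (hπX : ∀ i, π (X i) = MvPolynomial.eval₂ φ pt (χ i)) (hπ𝔞 : ∀ i, π (X i) ∈ 𝔞)
    (hpt : ∀ d, (d.prod fun t a => pt t ^ a) = φ (M.k d) * R (M.cls d))
    (hR : ∀ c, R c ∈ 𝔞 ^ M.deg c) (hK : ∀ c, wdeg wt c + M.ν c ≤ M.K * M.deg c) (hK1 : 1 ≤ M.K)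
    (hsmall : ∀ i, chartVar M χ i ∈ filt O wt 1)
    {f : MvPowerSeries σ O} (hf : chartHom M χ hχ f = 0) (n : ℕ) : π f ∈ 𝔞 ^ (n / M.K) := by
  classical
  let P : MvPolynomial σ O := truncTotal n f
  have hdiff : f - (P : MvPowerSeries σ O) ∈
      Ideal.span (Set.range (X : σ → MvPowerSeries σ O)) ^ n :=
    FA.Patch.mem_span_X_pow fun x hx => by
      rw [map_sub, MvPolynomial.coeff_coe, coeff_truncTotal _ hx, sub_self]
  have hπdiff : π (f - P) ∈ 𝔞 ^ n := by
    have h := Ideal.mem_map_of_mem π hdiff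
    rw [Ideal.map_pow, Ideal.map_span] at h
    refine Ideal.pow_right_mono (Ideal.span_le.mpr ?_) n h
    rintro _ ⟨_, ⟨i, rfl⟩, rfl⟩
    exact hπ𝔞 i
  suffices hP : π (P : MvPowerSeries σ O) ∈ 𝔞 ^ (n / M.K) by
    rw [show π f = π (f - P) + π P by rw [← map_add, sub_add_cancel]]
    exact add_mem (Ideal.pow_le_pow_right (Nat.div_le_self n M.K) hπdiff) hP
  let G : MvPolynomial τ' O := MvPolynomial.bind₁ χ P
  have hπP : π (P : MvPowerSeries σ O) = MvPolynomial.eval₂ φ pt G := by
    have hh : (π.comp MvPolynomial.coeToMvPowerSeries.ringHom) =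
        (MvPolynomial.eval₂Hom φ pt).comp (MvPolynomial.bind₁ χ).toRingHom := by
      refine MvPolynomial.ringHom_ext (fun c => ?_) fun i => ?_
      · show π ((MvPolynomial.C c : MvPolynomial σ O) : MvPowerSeries σ O) =
          MvPolynomial.eval₂ φ pt (MvPolynomial.bind₁ χ (MvPolynomial.C c))
        rw [MvPolynomial.coe_C, hπC, MvPolynomial.bind₁_C_right, MvPolynomial.eval₂_C]
      · show π ((MvPolynomial.X i : MvPolynomial σ O) : MvPowerSeries σ O) =
          MvPolynomial.eval₂ φ pt (MvPolynomial.bind₁ χ (MvPolynomial.X i))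
        rw [MvPolynomial.coe_X, hπX, MvPolynomial.bind₁_X_right]
    exact RingHom.congr_fun hh P
  -- the image in the chart is small
  have hψ : ((MvPolynomial.bind₁ M.img G : MvPolynomial τ O) : MvPowerSeries τ O) ∈
      filt O wt n := by
    rw [← chartHom_coe (hχ := hχ)]
    have h : chartHom M χ hχ (P : MvPowerSeries σ O) = - chartHom M χ hχ (f - P) := by
      rw [map_sub, hf, zero_sub, neg_neg]
    rw [h]
    refine neg_mem (filt_pow_le wt n ?_)
    have h2 := Ideal.mem_map_of_mem (chartHom M χ hχ) hdiff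
    rw [Ideal.map_pow, Ideal.map_span] at h2
    refine Ideal.pow_right_mono (Ideal.span_le.mpr ?_) n h2
    rintro _ ⟨_, ⟨i, rfl⟩, rfl⟩
    rw [chartHom, FA.Patch.evalHom_X]
    exact hsmall i
  -- group the monomials by their images
  let sum' : (τ →₀ ℕ) → O := fun c => ∑ d ∈ G.support with M.cls d = c, G.coeff d * M.k d
  have hcoeff : ∀ c, MvPolynomial.coeff c (MvPolynomial.bind₁ M.img G) = M.h c * sum' c := by
    intro c
    conv_lhs => rw [MvPolynomial.as_sum G, map_sum, MvPolynomial.coeff_sum]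
    rw [Finset.mul_sum, Finset.sum_filter]
    refine Finset.sum_congr rfl fun d _ => ?_
    rw [← mul_one (G.coeff d), ← smul_eq_mul, ← MvPolynomial.smul_monomial, map_smul,
      M.map_monomial, MvPolynomial.smul_monomial, smul_eq_mul, MvPolynomial.coeff_monomial]
    split_ifs with h
    · subst h; ring
    · rfl
  have hval : MvPolynomial.eval₂ φ pt G =
      ∑ c ∈ G.support.image M.cls, φ (sum' c) * R c := by
    rw [MvPolynomial.eval₂_eq]
    rw [← Finset.sum_fiberwise_of_maps_to (g := M.cls) (t := G.support.image M.cls)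
      fun d hd => Finset.mem_image_of_mem _ hd]
    refine Finset.sum_congr rfl fun c _ => ?_
    rw [map_sum, Finset.sum_mul]
    refine Finset.sum_congr rfl fun d hd => ?_
    have hd' : M.cls d = c := (Finset.mem_filter.mp hd).2
    rw [← hd', map_mul, mul_assoc, ← hpt d]
    rfl
  rw [hπP, hval]
  refine Ideal.sum_mem _ fun c _ => ?_
  have h1 := hψ c
  rw [MvPolynomial.coeff_coe, hcoeff] at h1
  have h2 := M.le_of_mul_mem _ _ _ h1
  have h3 : φ (sum' c) ∈ 𝔞 ^ (n - wdeg wt c - M.ν c) := by
    have := Ideal.mem_map_of_mem φ h2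
    rw [Ideal.map_pow] at this
    exact Ideal.pow_right_mono (Ideal.map_le_iff_le_comap.mpr hφ) _ this
  have h4 := Ideal.mul_mem_mul h3 (hR c)
  rw [← pow_add] at h4
  refine Ideal.pow_le_pow_right ?_ h4
  have hc := hK c
  calc n / M.K ≤ (M.K * (n - wdeg wt c - M.ν c + M.deg c)) / M.K := by
        refine Nat.div_le_div_right ?_
        rw [mul_add]
        have : n - wdeg wt c - M.ν c ≤ M.K * (n - wdeg wt c - M.ν c) :=
          Nat.le_mul_of_pos_left _ hK1
        omega
    _ = _ := Nat.mul_div_cancel_left _ hK1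

end FA.LocalComp
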