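import Fermat.Agent.LocalComp.Matrices
import Fermat.Agent.LocalComp.Filtration
import Mathlib.RingTheory.DiscreteValuationRing.Basic
import Mathlib.RingTheory.MvPowerSeries.NoZeroDivisors

/-!
# Components at Steinberg places

Coordinates `Φ_q - lift`, `Σ_q - lift` at finitely many places and further free variables. The
relations are `det Φ = q`, `tr Σ = 2`, `det Σ = 1`, `Φ N = q N Φ` with `N = Σ - 1`. A type is, at
every place, unramified (`N = 0`) or Steinberg with a sign `s` (`tr Φ = s (q + 1)`, `Φ N = s q N`).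
For each type the component is the kernel of a polynomial chart.
-/

set_option autoImplicit false

noncomputable section

open MvPowerSeries IsLocalRing Matrix

namespace FA.LocalComp

local notation "M₂" => Matrix (Fin 2) (Fin 2)

/-- The type of a component at a place; `st true` has sign `-1`. -/
inductive Ty
  | unr
  | st (neg : Bool)
  deriving DecidableEq

/-- The sign. -/
def sgn {A : Type*} [Ring A] (neg : Bool) : A := if neg then -1 else 1

theorem sgn_mul_self {A : Type*} [Ring A] (neg : Bool) : (sgn neg : A) * sgn neg = 1 := by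
  cases neg <;> simp [sgn]

theorem map_sgn {A B : Type*} [Ring A] [Ring B] (f : A →+* B) (neg : Bool) :
    f (sgn neg) = sgn neg := by
  cases neg <;> simp [sgn]

/-- The data of a chart at a place. -/
structure Base (O : Type) where
  /-- Whether the line is flipped. -/
  e : Bool
  /-- The base point of the three coordinates. -/
  v : Fin 3 → O
  /-- The translation of the unramified chart. -/
  G : M₂ O

/-- Frobenius in a chart. -/
def phiForm {O A : Type*} [CommRing O] [CommRing A] (f : O →+* A) (q : ℕ) (G : M₂ O) (e : Bool) :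
    Ty → (Fin 3 → A) → M₂ A
  | .unr, v => G.map f * ulu (v 0) (v 1) (v 2)
  | .st n, v => unflipB e (flag2 (v 0) (sgn n * (q : A)) (v 1) (sgn n))

/-- The nilpotent part in a chart. -/
def nForm {A : Type*} [CommRing A] (e : Bool) : Ty → (Fin 3 → A) → M₂ A
  | .unr, _ => 0
  | .st _, v => unflipB e (flag2 (v 0) 0 (v 2) 0)

theorem map_phiForm {O A B : Type*} [CommRing O] [CommRing A] [CommRing B] (f : O →+* A)
    (g : A →+* B) (q : ℕ) (G : M₂ O) (e : Bool) (ty : Ty) (v : Fin 3 → A) :
    (phiForm f q G e ty v).map g = phiForm (g.comp f) q G e ty fun i => g (v i) := by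
  cases ty with
  | unr =>
    simp only [phiForm, Matrix.map_mul, map_ulu, Matrix.map_map]
    rfl
  | st n => simp [phiForm, map_unflipB, map_flag2, map_sgn]

theorem map_nForm {A B : Type*} [CommRing A] [CommRing B] (g : A →+* B) (e : Bool) (ty : Ty)
    (v : Fin 3 → A) : (nForm e ty v).map g = nForm e ty fun i => g (v i) := by
  cases ty with
  | unr => simp [nForm]
  | st n => simp [nForm, map_unflipB, map_flag2]

variable {Q : Type} {O : Type} [CommRing O]

/-- The variables: the entries of Frobenius and of the tame generator, and the others. -/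
abbrev Var (Q ρ : Type) : Type := (Q × Fin 2 × Fin 2 × Fin 2) ⊕ ρ

/-- The coordinates of the charts. -/
abbrev Par (Q ρ : Type) : Type := (Q × Fin 3) ⊕ ρ

/-- The residue characteristics and the lifts around which the variables expand. -/
structure LocalData (Q O : Type) where
  /-- The residue characteristic. -/
  qv : Q → ℕ
  /-- The lift of Frobenius. -/
  phi0 : Q → M₂ O
  /-- The lift of the tame generator. -/
  sig0 : Q → M₂ O

namespace LocalData

variable (L : LocalData Q O) {ρ : Type}

/-- Frobenius. -/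
def phi (q : Q) : M₂ (MvPowerSeries (Var Q ρ) O) :=
  Matrix.of fun i j => C (L.phi0 q i j) + X (Sum.inl (q, 0, i, j))

/-- The tame generator. -/
def sig (q : Q) : M₂ (MvPowerSeries (Var Q ρ) O) :=
  Matrix.of fun i j => C (L.sig0 q i j) + X (Sum.inl (q, 1, i, j))

/-- The generators of the relations at one place. -/
def relSet (q : Q) : Set (MvPowerSeries (Var Q ρ) O) :=
  {(L.phi q).det - (L.qv q : MvPowerSeries (Var Q ρ) O), (L.sig q).trace - 2, (L.sig q).det - 1} ∪
    Set.range fun x : Fin 2 × Fin 2 =>
      ((L.phi q * (L.sig q - 1) -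
        (L.qv q : MvPowerSeries (Var Q ρ) O) • ((L.sig q - 1) * L.phi q)) :
          M₂ (MvPowerSeries (Var Q ρ) O)) x.1 x.2

/-- The relations. -/
def relIdeal : Ideal (MvPowerSeries (Var Q ρ) O) := Ideal.span (⋃ q, L.relSet q)

/-- The generators singling out a type at one place. -/
def typeSet (q : Q) : Ty → Set (MvPowerSeries (Var Q ρ) O)
  | .unr => Set.range fun x : Fin 2 × Fin 2 => (L.sig q - 1) x.1 x.2
  | .st n => {(L.phi q).trace - sgn n * ((L.qv q : MvPowerSeries (Var Q ρ) O) + 1)} ∪
      Set.range fun x : Fin 2 × Fin 2 =>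
        ((L.phi q * (L.sig q - 1) -
          (sgn n * (L.qv q : MvPowerSeries (Var Q ρ) O)) • (L.sig q - 1)) :
            M₂ (MvPowerSeries (Var Q ρ) O)) x.1 x.2

/-- The ideal of a type. -/
def typeIdeal (t : Q → Ty) : Ideal (MvPowerSeries (Var Q ρ) O) :=
  Ideal.span (⋃ q, L.typeSet q (t q))

/-- The relations and the type conditions hold at a pair of matrices. -/
structure Holds {A : Type*} [CommRing A] (q : ℕ) (ty : Ty) (F S : M₂ A) : Prop where
  det : F.det = q
  trace : (S - 1).trace = 0
  detN : (S - 1).det = 0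
  rel : F * (S - 1) = (q : A) • ((S - 1) * F)
  unr : ty = .unr → S - 1 = 0
  st : ∀ n, ty = .st n →
    F.trace = sgn n * ((q : A) + 1) ∧ F * (S - 1) = (sgn n * (q : A)) • (S - 1)

theorem det_sub_one {A : Type*} [CommRing A] (S : M₂ A) :
    (S - 1).det = S.det - S.trace + 1 := by
  simp [det_fin_two, trace_fin_two]; ring

theorem holds_of_le {A : Type*} [CommRing A] (π : MvPowerSeries (Var Q ρ) O →+* A) (t : Q → Ty)
    (h : L.relIdeal ⊔ L.typeIdeal t ≤ RingHom.ker π) (q : Q) :
    Holds (L.qv q) (t q) ((L.phi q).map π) ((L.sig q).map π) := by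
  have hr : ∀ x ∈ L.relSet (ρ := ρ) q, π x = 0 := fun x hx =>
    h (Ideal.mem_sup_left (Ideal.subset_span (Set.mem_iUnion.mpr ⟨q, hx⟩)))
  have ht : ∀ x ∈ L.typeSet (ρ := ρ) q (t q), π x = 0 := fun x hx =>
    h (Ideal.mem_sup_right (Ideal.subset_span (Set.mem_iUnion.mpr ⟨q, hx⟩)))
  have hmapN : (L.sig q).map π - 1 = (L.sig (ρ := ρ) q - 1).map π := by
    ext i j; simp [Matrix.one_apply, apply_ite π]
  have h1 : ((L.sig (ρ := ρ) q).map π).trace = 2 := by
    have := hr _ (.inl (.inr (.inl rfl)))
    rw [map_sub, map_ofNat, sub_eq_zero] at this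
    rw [← this]; simp [Matrix.trace]
  refine ⟨?_, ?_, ?_, ?_, fun hu => ?_, fun n hn => ⟨?_, ?_⟩⟩
  · have := hr _ (.inl (.inl rfl))
    rwa [map_sub, map_natCast, sub_eq_zero, RingHom.map_det] at this
  · rw [Matrix.trace_sub, h1, Matrix.trace_one]; simp
  · rw [det_sub_one, h1]
    have := hr _ (.inl (.inr (.inr rfl)))
    rw [map_sub, map_one, sub_eq_zero, RingHom.map_det, RingHom.mapMatrix_apply] at this
    rw [this]; ring
  · ext i j
    have := hr _ (.inr ⟨(i, j), rfl⟩)
    simp only [Matrix.sub_apply, map_sub, sub_eq_zero] at this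
    simpa [hmapN, Matrix.mul_apply, Fin.sum_univ_two] using this
  · ext i j
    have := ht ((L.sig q - 1) i j) (by rw [hu]; exact ⟨(i, j), rfl⟩)
    simpa [hmapN, Matrix.one_apply, apply_ite π] using this
  · have := ht ((L.phi q).trace - sgn n * ((L.qv q : MvPowerSeries (Var Q ρ) O) + 1))
      (by rw [hn]; exact .inl rfl)
    rw [map_sub, sub_eq_zero] at this
    simpa [Matrix.trace, map_sgn] using this
  · ext i j
    have := ht _ (show ((L.phi q * (L.sig q - 1) -
        (sgn n * (L.qv q : MvPowerSeries (Var Q ρ) O)) • (L.sig q - 1)) :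
          M₂ (MvPowerSeries (Var Q ρ) O)) i j ∈ L.typeSet q (t q) by
      rw [hn]; exact .inr ⟨(i, j), rfl⟩)
    simp only [Matrix.sub_apply, map_sub, sub_eq_zero] at this
    simpa [hmapN, map_sgn, Matrix.mul_apply, Fin.sum_univ_two] using this

theorem le_ker_of_holds {A : Type*} [CommRing A] (π : MvPowerSeries (Var Q ρ) O →+* A) (t : Q → Ty)
    (h : ∀ q, Holds (L.qv q) (t q) ((L.phi q).map π) ((L.sig q).map π)) :
    L.relIdeal ⊔ L.typeIdeal t ≤ RingHom.ker π := by
  have hmapN : ∀ q, (L.sig q).map π - 1 = (L.sig (ρ := ρ) q - 1).map π := fun q => by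
    ext i j; simp [Matrix.one_apply, apply_ite π]
  refine sup_le (Ideal.span_le.mpr ?_) (Ideal.span_le.mpr ?_)
  · rintro x ⟨_, ⟨q, rfl⟩, hx⟩
    obtain ⟨hd, htr, hdN, hrel, -, -⟩ := h q
    rw [SetLike.mem_coe, RingHom.mem_ker]
    rw [Matrix.trace_sub, Matrix.trace_one, sub_eq_zero] at htr
    rcases hx with (rfl | rfl | rfl) | ⟨⟨i, j⟩, rfl⟩
    · rw [map_sub, map_natCast, RingHom.map_det, RingHom.mapMatrix_apply, hd, sub_self]
    · rw [map_sub, map_ofNat, show π (L.sig q).trace = ((L.sig q).map π).trace by simp [Matrix.trace],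
        htr]
      simp
    · rw [det_sub_one, htr] at hdN
      rw [map_sub, map_one, RingHom.map_det, RingHom.mapMatrix_apply]
      linear_combination hdN + (by simp : ((Fintype.card (Fin 2) : ℕ) : A) = 2)
    · simp only [Matrix.sub_apply, map_sub, sub_eq_zero]
      simpa [hmapN, Matrix.mul_apply, Fin.sum_univ_two] using congrFun (congrFun hrel i) j
  · rintro x ⟨_, ⟨q, rfl⟩, hx⟩
    obtain ⟨-, -, -, -, hu, hs⟩ := h q
    rw [SetLike.mem_coe, RingHom.mem_ker]
    rcases htq : t q with _ | n <;> simp only [htq] at hx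
    · obtain ⟨⟨i, j⟩, rfl⟩ := hx
      simpa [hmapN, Matrix.one_apply, apply_ite π] using congrFun (congrFun (hu htq) i) j
    · rcases hx with rfl | ⟨⟨i, j⟩, rfl⟩
      · rw [map_sub, sub_eq_zero]
        simpa [Matrix.trace, map_sgn] using (hs n htq).1
      · simp only [Matrix.sub_apply, map_sub, sub_eq_zero]
        simpa [hmapN, map_sgn, Matrix.mul_apply, Fin.sum_univ_two] using
          congrFun (congrFun (hs n htq).2 i) j

end LocalData

section Chart

variable [IsLocalRing O] (L : LocalData Q O) {ρ : Type}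

/-- Congruence modulo the maximal ideal. -/
def Cong (A B : M₂ O) : Prop := A.map (residue O) = B.map (residue O)

/-- Residually `Φ = s q` and `Σ = 1`. -/
def Degenerate (q : Q) : Ty → Prop
  | .unr => False
  | .st n => Cong (L.phi0 q) ((sgn n * (L.qv q : O)) • 1) ∧ Cong (L.sig0 q) 1

/-- The conditions on the data of a chart. -/
structure IsBase (q : Q) (ty : Ty) (B : Base O) : Prop where
  phi : Cong (phiForm (RingHom.id O) (L.qv q) B.G B.e ty B.v) (L.phi0 q)
  sig : Cong (1 + nForm B.e ty B.v) (L.sig0 q)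
  detG : ty = .unr → B.G.det = L.qv q
  unit : ty = .unr → IsUnit (B.v 1)
  origin : Degenerate L q ty → B.v = 0

/-- A type is possible at every place. -/
def Valid (t : Q → Ty) : Prop := ∀ q, ∃ B, IsBase L q (t q) B

/-- The weights of the coordinates. -/
def parWt (t : Q → Ty) : Par Q ρ → ℕ :=
  open scoped Classical in
  Sum.elim (fun x => if x.2 = 0 ∧ Degenerate L x.1 (t x.1) then 0 else 1) fun _ => 1

/-- The values of the coordinates. -/
def parVal (B : Q → Base O) (q : Q) (i : Fin 3) : MvPolynomial (Par Q ρ) O :=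
  MvPolynomial.C ((B q).v i) + MvPolynomial.X (Sum.inl (q, i))

/-- The chart as polynomials. -/
def chartPoly (t : Q → Ty) (B : Q → Base O) : Var Q ρ → MvPolynomial (Par Q ρ) O
  | .inl (q, k, i, j) =>
    if k = 0 then
      phiForm MvPolynomial.C (L.qv q) (B q).G (B q).e (t q) (parVal B q) i j -
        MvPolynomial.C (L.phi0 q i j)
    else (1 + nForm (B q).e (t q) (parVal B q) : M₂ (MvPolynomial (Par Q ρ) O)) i j -
        MvPolynomial.C (L.sig0 q i j)
  | .inr z => MvPolynomial.X (Sum.inr z)

theorem residue_sgn_mul_eq {q : Q} {n : Bool} {B : Base O} (hB : IsBase L q (.st n) B)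
    (hd : Degenerate L q (.st n)) :
    residue O (sgn n * (L.qv q : O)) = residue O (sgn n) := by
  have h2 := hd.1
  have h1 := hB.phi
  rw [phiForm, hB.origin hd] at h1
  have := congrFun (congrFun (h1.trans h2) 1) 1
  rcases B with ⟨e, v, G⟩
  cases e <;> simp [flag2, unflipB, unflip2, map_sgn] at this <;> simpa [map_sgn] using this.symm

theorem IsBase.withFlip {q : Q} {ty : Ty} {B : Base O} (h : IsBase L q ty B)
    (hd : Degenerate L q ty) (e : Bool) : IsBase L q ty { B with e := e } := by
  cases ty with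
  | unr => exact hd.elim
  | st n =>
    have hsq := residue_sgn_mul_eq L h hd
    have h0 := h.origin hd
    refine ⟨?_, ?_, fun h' => (by cases h'), fun h' => (by cases h'), fun _ => h0⟩
    · refine Eq.trans ?_ hd.1.symm
      simp only [phiForm, h0, map_unflipB, map_flag2, RingHom.coe_id, id_eq, Pi.zero_apply, map_zero]
      ext i j
      cases e <;> fin_cases i <;> fin_cases j <;>
        simp [flag2, unflipB, unflip2, hsq, map_sgn] <;> simp [← map_natCast (residue O), ← map_mul, hsq, map_sgn] <;>
        linear_combination hsq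
    · refine Eq.trans ?_ hd.2.symm
      simp only [nForm, h0]
      ext i j
      cases e <;> fin_cases i <;> fin_cases j <;> simp [flag2, unflipB, unflip2]

variable {L}

/-- The chart polynomials vanish modulo any ideal containing the small coordinates. -/
theorem map_chartPoly_mem {t : Q → Ty} {B : Q → Base O} (hB : ∀ q, IsBase L q (t q) (B q))
    {E : Type*} [CommRing E] (g : MvPolynomial (Par Q ρ) O →+* E) (J : Ideal E)
    (hC : ∀ c ∈ maximalIdeal O, g (MvPolynomial.C c) ∈ J)
    (hX : ∀ z, parWt L t z ≠ 0 → g (MvPolynomial.X z) ∈ J) (z : Var Q ρ) :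
    g (chartPoly L t B z) ∈ J := by
  classical
  rcases z with ⟨q, k, i, j⟩ | z
  swap
  · exact hX _ (by simp [parWt])
  let h := (Ideal.Quotient.mk J).comp g
  let f : O →+* E ⧸ J := h.comp MvPolynomial.C
  have hf : ∀ a b : O, residue O a = residue O b → f a = f b := fun a b hab => by
    rw [← sub_eq_zero, ← map_sub]
    exact Ideal.Quotient.eq_zero_iff_mem.mpr (hC _ (by rwa [← residue_eq_zero_iff, map_sub, sub_eq_zero]))
  have hfM : ∀ A A' : M₂ O, Cong A A' → A.map f = A'.map f := fun A A' hA =>
    Matrix.ext fun a b => hf _ _ (congrFun (congrFun hA a) b)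
  have hv : ∀ a : Fin 3, ¬ (a = 0 ∧ Degenerate L q (t q)) →
      h (parVal B q a) = f ((B q).v a) := fun a ha => by
    have h0 : h (MvPolynomial.X (Sum.inl (q, a))) = 0 :=
      Ideal.Quotient.eq_zero_iff_mem.mpr (hX _ (by
        simp only [parWt, Sum.elim_inl, if_neg ha]
        exact one_ne_zero))
    rw [parVal, map_add, h0, add_zero]
    rfl
  rw [← Ideal.Quotient.eq_zero_iff_mem]
  show h (chartPoly L t B (Sum.inl (q, k, i, j))) = 0
  have main : (phiForm MvPolynomial.C (L.qv q) (B q).G (B q).e (t q) (parVal B q)).map h =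
      (L.phi0 q).map f ∧
      (1 + nForm (B q).e (t q) (parVal B q) : M₂ (MvPolynomial (Par Q ρ) O)).map h =
        (L.sig0 q).map f := by
    have hone : ∀ N : M₂ (MvPolynomial (Par Q ρ) O), (1 + N).map h = 1 + N.map h := fun N => by
      ext a b; simp [Matrix.one_apply, apply_ite h]
    rw [map_phiForm, hone, map_nForm]
    by_cases hd : Degenerate L q (t q)
    · rcases ht : t q with _ | n
      · rw [ht] at hd; exact hd.elim
      rw [ht] at hd
      have hb := hB q
      rw [ht] at hb
      have hsq : f (sgn n * (L.qv q : O)) = f (sgn n) := hf _ _ (residue_sgn_mul_eq L hb hd)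
      rw [map_mul, map_natCast, map_sgn] at hsq
      have h12 : ∀ a : Fin 3, a ≠ 0 → h (parVal B q a) = 0 := fun a ha => by
        rw [hv a (fun h' => ha h'.1), hb.origin hd]
        exact map_zero f
      constructor
      · rw [hfM _ _ hd.1, phiForm, h12 1 (by decide)]
        ext a b
        cases (B q).e <;> fin_cases a <;> fin_cases b <;>
          simp [flag2, unflipB, unflip2, map_sgn, hsq]
      · rw [hfM _ _ hd.2, nForm, h12 2 (by decide)]
        ext a b
        cases (B q).e <;> fin_cases a <;> fin_cases b <;>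
          simp [flag2, unflipB, unflip2]
    · have hval : (fun a => h (parVal B q a)) = fun a => f ((B q).v a) :=
        funext fun a => hv a fun h' => hd h'.2
      rw [hval]
      constructor
      · rw [← hfM _ _ (hB q).phi, map_phiForm]
        rfl
      · rw [← hfM _ _ (hB q).sig]
        ext a b
        simp [Matrix.one_apply, apply_ite f, ← map_nForm f]
  simp only [chartPoly]
  split_ifs <;> rw [map_sub, sub_eq_zero]
  · exact congrFun (congrFun main.1 i) j
  · exact congrFun (congrFun main.2 i) j

variable [Fintype Q] [Fintype ρ]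

/-- The monomial data of the charts: the identity. -/
def parMonomial (t : Q → Ty) : Monomial O (Par Q ρ) (Par Q ρ) where
  img := MvPolynomial.X
  cls := id
  k _ := 1
  h _ := 1
  map_monomial d := by simp only [MvPolynomial.bind₁_X_left, AlgHom.id_apply, mul_one, id]
  ν _ := 0
  le_of_mul_mem c x N h := by simpa using h
  deg := wdeg (parWt L t)
  K := 1

theorem chartVar_eq (t : Q → Ty) (B : Q → Base O) (z : Var Q ρ) :
    chartVar (parMonomial (L := L) t) (chartPoly L t B) z =
      (chartPoly L t B z : MvPowerSeries (Par Q ρ) O) := by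
  simp only [chartVar, parMonomial, MvPolynomial.bind₁_X_left, AlgHom.id_apply]

theorem chartPoly_mem_filt {t : Q → Ty} {B : Q → Base O} (hB : ∀ q, IsBase L q (t q) (B q))
    (z : Var Q ρ) :
    chartVar (parMonomial (L := L) t) (chartPoly L t B) z ∈ filt O (parWt L t) 1 := by
  classical
  rw [chartVar_eq]
  refine map_chartPoly_mem hB MvPolynomial.coeToMvPowerSeries.ringHom (filt O (parWt L t) 1)
    (fun c hc d => ?_)
    (fun y hy d => ?_) z
  · simp only [MvPolynomial.coeToMvPowerSeries.ringHom_apply, MvPolynomial.coe_C, coeff_C]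
    split_ifs with h
    · subst h; simpa using hc
    · exact zero_mem _
  · simp only [MvPolynomial.coeToMvPowerSeries.ringHom_apply, MvPolynomial.coe_X, coeff_X]
    split_ifs with h
    · subst h
      rw [wdeg_single, one_mul, Nat.sub_eq_zero_of_le (Nat.one_le_iff_ne_zero.mpr hy)]
      simp
    · exact zero_mem _

theorem chartPoly_mem_maximalIdeal {t : Q → Ty} {B : Q → Base O}
    (hB : ∀ q, IsBase L q (t q) (B q)) (z : Var Q ρ) :
    chartVar (parMonomial (L := L) t) (chartPoly L t B) z ∈
      maximalIdeal (MvPowerSeries (Par Q ρ) O) := by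
  rw [chartVar_eq]
  refine map_chartPoly_mem hB MvPolynomial.coeToMvPowerSeries.ringHom _ (fun c hc => ?_)
    (fun y _ => ?_) z
  · exact FA.Patch.mem_maximalIdeal_iff_coeff.mpr (by simpa using hc)
  · exact FA.Patch.mem_maximalIdeal_iff_coeff.mpr (by simp)

variable [IsAdicComplete (maximalIdeal O) O]

/-- The chart of a type. -/
def typeHom {t : Q → Ty} {B : Q → Base O} (hB : ∀ q, IsBase L q (t q) (B q)) :
    MvPowerSeries (Var Q ρ) O →+* MvPowerSeries (Par Q ρ) O :=
  chartHom (parMonomial (L := L) t) (chartPoly L t B) (chartPoly_mem_maximalIdeal hB)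

variable {t : Q → Ty} {B : Q → Base O} (hB : ∀ q, IsBase L q (t q) (B q))

theorem typeHom_C (c : O) : typeHom hB (C c : MvPowerSeries (Var Q ρ) O) = C c :=
  FA.Patch.evalHom_C _ _ _ _

theorem typeHom_X (z : Var Q ρ) :
    typeHom hB (X z) = (chartPoly L t B z : MvPowerSeries (Par Q ρ) O) :=
  (FA.Patch.evalHom_X _ _ _ _).trans (chartVar_eq t B z)

/-- The coordinates as series. -/
def parSeries (B : Q → Base O) (q : Q) (i : Fin 3) : MvPowerSeries (Par Q ρ) O :=
  C ((B q).v i) + X (Sum.inl (q, i))

theorem map_phi_typeHom (q : Q) :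
    (L.phi q).map (typeHom (ρ := ρ) hB) =
      phiForm C (L.qv q) (B q).G (B q).e (t q) (parSeries B q) := by
  have h := map_phiForm (MvPolynomial.C : O →+* MvPolynomial (Par Q ρ) O)
    MvPolynomial.coeToMvPowerSeries.ringHom (L.qv q) (B q).G (B q).e (t q) (parVal B q)
  have hC : (MvPolynomial.coeToMvPowerSeries.ringHom).comp
      (MvPolynomial.C : O →+* MvPolynomial (Par Q ρ) O) = C :=
    RingHom.ext fun c => by simp
  have hV : (fun i => MvPolynomial.coeToMvPowerSeries.ringHom (parVal (ρ := ρ) B q i)) =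
      parSeries B q := funext fun i => by simp [parVal, parSeries]
  rw [hC, hV] at h
  rw [← h]
  ext i j
  simp only [LocalData.phi, Matrix.map_apply, Matrix.of_apply, map_add, typeHom_C, typeHom_X,
    chartPoly, if_true, ← MvPolynomial.coeToMvPowerSeries.ringHom_apply, map_sub]
  simp

theorem map_sig_typeHom (q : Q) :
    (L.sig q).map (typeHom (ρ := ρ) hB) = 1 + nForm (B q).e (t q) (parSeries B q) := by
  have h := map_nForm (MvPolynomial.coeToMvPowerSeries.ringHom (R := O) (σ := Par Q ρ))
    (B q).e (t q) (parVal B q)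
  have hV : (fun i => MvPolynomial.coeToMvPowerSeries.ringHom (parVal (ρ := ρ) B q i)) =
      parSeries B q := funext fun i => by simp [parVal, parSeries]
  rw [hV] at h
  rw [← h]
  ext i j
  simp only [LocalData.sig, Matrix.map_apply, Matrix.of_apply, map_add, typeHom_C, typeHom_X,
    chartPoly, Fin.reduceEq, if_false, ← MvPolynomial.coeToMvPowerSeries.ringHom_apply, map_sub,
    Matrix.add_apply, Matrix.one_apply]
  split_ifs <;> simp

omit [Fintype Q] [Fintype ρ] [IsAdicComplete (maximalIdeal O) O] in
/-- The forms satisfy the relations. -/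
theorem holds_form {A : Type*} [CommRing A] (f : O →+* A) {q : Q} {ty : Ty} {b : Base O}
    (hb : IsBase L q ty b) (v : Fin 3 → A) :
    LocalData.Holds (L.qv q) ty (phiForm f (L.qv q) b.G b.e ty v) (1 + nForm b.e ty v) := by
  cases ty with
  | unr =>
    have hdet : (b.G.map f).det = (L.qv q : A) := by
      rw [← RingHom.mapMatrix_apply, ← RingHom.map_det, hb.detG rfl, map_natCast]
    refine ⟨?_, ?_, ?_, ?_, fun _ => ?_, fun n h => (by cases h)⟩ <;>
      simp [phiForm, nForm, det_ulu, hdet]
  | st n =>
    have hN : (1 + nForm b.e (.st n) v - 1 : M₂ A) = unflipB b.e (flag2 (v 0) 0 (v 2) 0) := by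
      simp [nForm]
    obtain ⟨h1, h2⟩ := flag2_mul (v 0) (sgn n * (L.qv q : A)) (v 1) (sgn n) (v 2)
    refine ⟨?_, ?_, ?_, ?_, fun h => (by cases h), fun m hm => ?_⟩
    · rw [phiForm, det_unflipB, det_flag2, mul_right_comm, sgn_mul_self, one_mul]
    · rw [hN, trace_unflipB, trace_flag2, add_zero]
    · rw [hN, det_unflipB, det_flag2, mul_zero]
    · rw [hN, phiForm, unflipB_mul, unflipB_mul, h1, h2, unflipB_smul, unflipB_smul, smul_smul,
        mul_comm (L.qv q : A)]
    · cases hm
      refine ⟨?_, ?_⟩
      · rw [phiForm, trace_unflipB, trace_flag2]; ring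
      · rw [hN, phiForm, unflipB_mul, h1, unflipB_smul]

variable (L) in
/-- The chosen base of a type. -/
def baseOf (t : Q → Ty) (ht : Valid L t) (q : Q) : Base O :=
  open scoped Classical in
  { (ht q).choose with e := if Degenerate L q (t q) then false else (ht q).choose.e }

omit [Fintype Q] [Fintype ρ] [IsAdicComplete (maximalIdeal O) O] in
theorem isBase_baseOf (ht : Valid L t) (q : Q) : IsBase L q (t q) (baseOf L t ht q) := by
  classical
  simp only [baseOf]
  split_ifs with h
  · exact (ht q).choose_spec.withFlip L h false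
  · exact (ht q).choose_spec

variable (L) in
/-- **The component of a type.** -/
def comp (t : Q → Ty) (ht : Valid L t) : Ideal (MvPowerSeries (Var Q ρ) O) :=
  RingHom.ker (typeHom (isBase_baseOf ht))

theorem comp_isPrime [IsDomain O] (ht : Valid L t) : (comp (ρ := ρ) L t ht).IsPrime :=
  haveI : IsDomain (MvPowerSeries (Par Q ρ) O) := NoZeroDivisors.to_isDomain _
  RingHom.ker_isPrime _

include hB in
theorem holds_typeHom (q : Q) :
    LocalData.Holds (L.qv q) (t q) ((L.phi q).map (typeHom (ρ := ρ) hB))
      ((L.sig q).map (typeHom (ρ := ρ) hB)) := by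
  rw [map_phi_typeHom hB q, map_sig_typeHom hB q]
  exact holds_form (C : O →+* MvPowerSeries (Par Q ρ) O) (hB q) (parSeries B q)

theorem le_comp (ht : Valid L t) : L.relIdeal ⊔ L.typeIdeal t ≤ comp (ρ := ρ) L t ht := by
  unfold comp
  exact LocalData.le_ker_of_holds L (typeHom (isBase_baseOf ht)) t
    (holds_typeHom (isBase_baseOf ht))

end Chart

end FA.LocalComp
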