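import Fermat.Agent.LocalComp.Points
import Mathlib.RingTheory.MvPowerSeries.Equiv

/-!
# Primes containing the relations and the components

Every prime containing the relations contains the equations of some type, and then contains the
component of that type.
-/

set_option autoImplicit false

noncomputable section

open MvPowerSeries IsLocalRing Matrix

namespace FA.LocalComp

local notation "M₂" => Matrix (Fin 2) (Fin 2)

variable {Q ρ : Type} {O : Type} [CommRing O] [IsLocalRing O] {L : LocalData Q O}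

section Residual

variable {D : Type} [CommRing D] [IsLocalRing D] (φ : O →+* D)
  (hφ : ∀ c, φ c ∈ maximalIdeal D ↔ c ∈ maximalIdeal O)

/-- The hypotheses at one place. -/
structure Local (L : LocalData Q O) (q : Q) (ty : Ty) (F S : M₂ D) : Prop where
  holds : LocalData.Holds (L.qv q) ty F S
  phi : F.map (residue D) = (L.phi0 q).map ((residue D).comp φ)
  sig : S.map (residue D) = (L.sig0 q).map ((residue D).comp φ)

variable {q : Q}

theorem map_sub_one {A B : Type*} [CommRing A] [CommRing B] (f : A →+* B) (S : M₂ A) :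
    (S - 1).map f = S.map f - 1 := by
  ext i j
  simp [Matrix.one_apply, apply_ite f]

theorem map_sub_smul_one {A B : Type*} [CommRing A] [CommRing B] (f : A →+* B) (a : A) (S : M₂ A) :
    (S - a • 1).map f = S.map f - f a • 1 := by
  ext i j
  simp [Matrix.one_apply, apply_ite f]

theorem map_one_add {A B : Type*} [CommRing A] [CommRing B] (f : A →+* B) (S : M₂ A) :
    (1 + S).map f = 1 + S.map f := by
  ext i j
  simp [Matrix.one_apply, apply_ite f]

theorem map_res_comp {A B C : Type*} [CommRing A] [CommRing B] [CommRing C] (f : A →+* B)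
    (g : B →+* C) (S : M₂ A) : (S.map f).map g = S.map (g.comp f) := by
  ext i j
  simp

include hφ in
/-- A base exists at an unramified place. -/
theorem exists_base_unr {F S : M₂ D} (h : Local φ L q .unr F S)
    (hq : IsUnit (L.qv q : O)) : ∃ B, IsBase L q .unr B := by
  have hS : S.map (residue D) = 1 := by
    rw [show S = 1 from sub_eq_zero.mp (h.holds.unr rfl), Matrix.map_one _ (map_zero _) (map_one _)]
  have hdet : residue O (L.phi0 q).det = residue O (L.qv q : O) := by
    rw [← residue_eq_iff φ hφ, map_natCast]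
    have := congrArg Matrix.det h.phi
    rw [← RingHom.mapMatrix_apply, ← RingHom.mapMatrix_apply, ← RingHom.map_det,
      ← RingHom.map_det, h.holds.det] at this
    exact this.symm
  obtain ⟨G, hG, hGr⟩ := exists_lift_det (L.phi0 q * !![1, 0; -1, 1]) hq (by
    rw [det_mul, det_fin_two_of]
    simpa using hdet)
  refine ⟨⟨false, ![0, 1, 0], G⟩, ⟨?_, ?_, fun _ => hG, fun _ => by simp, fun h' => h'.elim⟩⟩
  · show (G.map (RingHom.id O) * ulu (0 : O) 1 0).map (residue O) = _
    rw [RingHom.coe_id, Matrix.map_id, Matrix.map_mul, hGr, ← Matrix.map_mul, ulu_zero_one_zero,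
      Matrix.mul_assoc,
      show (!![1, 0; -1, 1] : M₂ O) * !![1, 0; 1, 1] = 1 by
        ext i j; fin_cases i <;> fin_cases j <;> simp [Matrix.mul_apply, Fin.sum_univ_two],
      Matrix.mul_one]
  · rw [cong_iff φ hφ, ← h.sig, hS]
    simp [nForm, Matrix.map_one]

include hφ in
/-- Coordinates at an unramified place. -/
theorem exists_values_unr {F S : M₂ D} (h : Local φ L q .unr F S) {B : Base O}
    (hB : IsBase L q .unr B) (hq : IsUnit (L.qv q : O)) :
    ∃ V : Fin 3 → D, (∀ i, residue D (V i) = residue D (φ (B.v i))) ∧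
      F = phiForm φ (L.qv q) B.G B.e .unr V ∧ S = 1 + nForm B.e .unr V := by
  obtain ⟨u, hu⟩ := isUnit_iff_exists_inv.mp (hq.map φ)
  rw [map_natCast] at hu
  have hdet : (B.G.map φ).det = (L.qv q : D) := by
    rw [← RingHom.mapMatrix_apply, ← RingHom.map_det, hB.detG rfl, map_natCast]
  set M := u • ((B.G.map φ).adjugate * F) with hM
  have hF : B.G.map φ * M = F := by
    rw [hM, Matrix.mul_smul, ← Matrix.mul_assoc, mul_adjugate, hdet, smul_mul_assoc, smul_smul,
      mul_comm u, hu, one_smul, Matrix.one_mul]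
  have hMdet : M.det = 1 := by
    have := congrArg Matrix.det hF
    rw [det_mul, hdet, h.holds.det] at this
    linear_combination u * this + (1 - M.det) * hu
  set ψ := (residue D).comp φ
  have hMres : M.map (residue D) = ulu (ψ (B.v 0)) (ψ (B.v 1)) (ψ (B.v 2)) := by
    have h1 : (L.phi0 q).map ψ = B.G.map ψ * ulu (ψ (B.v 0)) (ψ (B.v 1)) (ψ (B.v 2)) := by
      rw [← (cong_iff φ hφ _ _).mp hB.phi, phiForm, Matrix.map_mul, map_ulu, RingHom.coe_id,
        Matrix.map_id]
    have h2 : (B.G.map φ).map (residue D) = B.G.map ψ := map_res_comp _ _ _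
    have h3 := congrArg (fun A : M₂ D => A.map (residue D)) hF
    simp only [Matrix.map_mul, h2, h.phi] at h3
    rw [show (L.phi0 q).map ((residue D).comp φ) = _ from h1] at h3
    have hunit : IsUnit (B.G.map ψ) := by
      rw [Matrix.isUnit_iff_isUnit_det, ← RingHom.mapMatrix_apply, ← RingHom.map_det, hB.detG rfl]
      exact hq.map ψ
    exact hunit.mul_left_cancel h3
  have h10 : IsUnit (M 1 0) := by
    rw [← residue_ne_zero_iff_isUnit, show residue D (M 1 0) = ψ (B.v 1) from
      congrFun (congrFun hMres 1) 0]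
    exact ((hB.unit rfl).map ψ).ne_zero
  obtain ⟨w, hw⟩ := isUnit_iff_exists_inv.mp h10
  have hb : residue D (M 1 0) = ψ (B.v 1) := congrFun (congrFun hMres 1) 0
  have hw' : ψ (B.v 1) * residue D w = 1 := by rw [← hb, ← map_mul, hw, map_one]
  refine ⟨![(M 0 0 - 1) * w, M 1 0, (M 1 1 - 1) * w], fun i => ?_, ?_, ?_⟩
  · show _ = ψ (B.v i)
    fin_cases i
    · have h00 : residue D (M 0 0) = 1 + ψ (B.v 0) * ψ (B.v 1) := congrFun (congrFun hMres 0) 0
      simp [h00]
      linear_combination ψ (B.v 0) * hw'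
    · simpa using hb
    · have h11 : residue D (M 1 1) = 1 + ψ (B.v 1) * ψ (B.v 2) := congrFun (congrFun hMres 1) 1
      simp [h11]
      linear_combination ψ (B.v 2) * hw'
  · rw [phiForm]
    refine hF.symm.trans (congrArg _ ?_)
    simpa using eq_ulu_of_det_eq_one hMdet hw
  · rw [sub_eq_zero.mp (h.holds.unr rfl)]
    simp [nForm]

theorem map_residue_degenerate (hφ : ∀ c, φ c ∈ maximalIdeal D ↔ c ∈ maximalIdeal O) {n : Bool}
    {F S : M₂ D} (h : Local φ L q (.st n) F S) (hd : Degenerate L q (.st n)) :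
    (F - (sgn n * (L.qv q : D)) • 1).map (residue D) = 0 ∧ (S - 1).map (residue D) = 0 := by
  constructor
  · rw [map_sub_smul_one, h.phi, (cong_iff φ hφ _ _).mp hd.1, sub_eq_zero]
    ext i j
    simp [Matrix.one_apply, map_sgn, mul_ite, apply_ite φ, apply_ite (residue D)]
  · rw [map_sub_one, h.sig, (cong_iff φ hφ _ _).mp hd.2, sub_eq_zero]
    exact Matrix.map_one _ (map_zero _) (map_one _)

variable {D' : Type} [CommRing D'] [IsDomain D'] [IsLocalRing D'] {K : Type} [Field K] [Algebra D' K]
  (hinj : Function.Injective (algebraMap D' K)) {φ' : O →+* D'}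
  (hφ' : ∀ c, φ' c ∈ maximalIdeal D' ↔ c ∈ maximalIdeal O)

include hinj in
omit [IsDomain D'] in
/-- The common line over the fraction field. -/
theorem exists_eig_of_holds [NeZero ((L.qv q : D'))] {n : Bool} {F S : M₂ D'}
    (h : LocalData.Holds (L.qv q) (.st n) F S) :
    ∃ e₁ e₂ : K, (e₁ ≠ 0 ∨ e₂ ≠ 0) ∧
      Eig2 (F.map (algebraMap D' K)) (algebraMap D' K (sgn n * (L.qv q : D'))) e₁ e₂ ∧
      Eig2 ((S - 1).map (algebraMap D' K)) 0 e₁ e₂ := by
  obtain ⟨htr, hrel⟩ := h.st n rfl
  have hq : (L.qv q : K) ≠ 0 := by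
    rw [← map_natCast (algebraMap D' K)]
    exact fun h0 => NeZero.ne _ (hinj (h0.trans (map_zero _).symm))
  have := exists_eig (Φ := F.map (algebraMap D' K)) (N := (S - 1).map (algebraMap D' K))
    (q := (L.qv q : K)) (s := sgn n) (sgn_mul_self n)
    (by rw [← RingHom.mapMatrix_apply, ← RingHom.map_det, h.det, map_natCast])
    (by rw [show ((S - 1).map (algebraMap D' K)).trace = algebraMap D' K (S - 1).trace by
      simp [Matrix.trace, map_ofNat], h.trace, map_zero])
    (by rw [← RingHom.mapMatrix_apply, ← RingHom.map_det, h.detN, map_zero])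
    (by rw [show (F.map (algebraMap D' K)).trace = algebraMap D' K F.trace by simp [Matrix.trace],
      htr]; simp [map_sgn])
    (by rw [← Matrix.map_mul, hrel]; ext i j; simp [map_sgn])
  simpa [map_sgn] using this

include hφ' in
/-- The residual pair in the coordinates of a chart. -/
theorem flip_residue_eq {n : Bool} {F S : M₂ D'} (h : Local φ' L q (.st n) F S) {B : Base O}
    (hB : IsBase L q (.st n) B) :
    (flipB B.e F).map (residue D') = flag2 (residue D' (φ' (B.v 0)))
        (residue D' (sgn n * (L.qv q : D'))) (residue D' (φ' (B.v 1))) (residue D' (sgn n)) ∧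
      (flipB B.e (S - 1)).map (residue D') =
        flag2 (residue D' (φ' (B.v 0))) 0 (residue D' (φ' (B.v 2))) 0 := by
  set ψ := (residue D').comp φ'
  have h1 := (cong_iff φ' hφ' _ _).mp hB.phi
  have h2 := (cong_iff φ' hφ' _ _).mp hB.sig
  rw [← h.phi, map_phiForm, RingHom.comp_id] at h1
  rw [← h.sig, map_one_add, map_nForm] at h2
  constructor
  · rw [map_flipB, ← h1, phiForm, flipB_unflipB]
    simp [map_sgn, ψ]
  · rw [map_flipB, map_sub_one, ← h2, add_sub_cancel_left, nForm, flipB_unflipB]
    simp [ψ]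

include hinj hφ' in
/-- Coordinates at a nondegenerate Steinberg place. -/
theorem exists_values_st [NeZero ((L.qv q : D'))] {n : Bool} {F S : M₂ D'}
    (h : Local φ' L q (.st n) F S) (hnd : ¬ Degenerate L q (.st n)) {B : Base O}
    (hB : IsBase L q (.st n) B) :
    ∃ V : Fin 3 → D', (∀ i, residue D' (V i) = residue D' (φ' (B.v i))) ∧
      F = phiForm φ' (L.qv q) B.G B.e (.st n) V ∧ S = 1 + nForm B.e (.st n) V := by
  classical
  obtain ⟨e₁, e₂, hne, hF, hN⟩ := exists_eig_of_holds (K := K) hinj h.holds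
  obtain ⟨hres1, hres2⟩ := flip_residue_eq hφ' h hB
  set a : D' := sgn n * (L.qv q : D') with ha
  set ψ := (residue D').comp φ'
  have hres1' : (flipB B.e (F - a • 1)).map (residue D') =
      flag2 (ψ (B.v 0)) 0 (ψ (B.v 1)) (residue D' (sgn n) - residue D' a) := by
    rw [flipB_sub_smul, map_sub_smul_one, hres1]
    ext i j
    fin_cases i <;> fin_cases j <;> simp [flag2, ψ] <;> ring
  have hexists : ∃ M : M₂ D', (M = flipB B.e (F - a • 1) ∨ M = flipB B.e (S - 1)) ∧
      ∃ i j, residue D' (M i j) ≠ 0 := by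
    by_contra hc
    push Not at hc
    have e1 : F - a • 1 = unflipB B.e (flipB B.e (F - a • 1)) := (unflipB_flipB _ _).symm
    have e2 : S - 1 = unflipB B.e (flipB B.e (S - 1)) := (unflipB_flipB _ _).symm
    have z1 : (F - a • 1).map (residue D') = 0 := by
      rw [e1, map_unflipB, show (flipB B.e (F - a • 1)).map (residue D') = 0 from
        Matrix.ext fun i j => hc _ (.inl rfl) i j, unflipB_zero]
    have z2 : (S - 1).map (residue D') = 0 := by
      rw [e2, map_unflipB, show (flipB B.e (S - 1)).map (residue D') = 0 from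
        Matrix.ext fun i j => hc _ (.inr rfl) i j, unflipB_zero]
    refine hnd ⟨(cong_iff φ' hφ' _ _).mpr ?_, (cong_iff φ' hφ' _ _).mpr ?_⟩
    · rw [map_sub_smul_one, h.phi, sub_eq_zero] at z1
      rw [z1]
      ext i j
      simp [Matrix.one_apply, map_sgn, mul_ite, apply_ite φ', apply_ite (residue D'), ha]
    · rw [map_sub_one, h.sig, sub_eq_zero] at z2
      rw [z2, Matrix.map_one _ (map_zero _) (map_one _)]
  obtain ⟨M, hM, i, j, hij⟩ := hexists
  have hkill : M.map (residue D') i 0 + M.map (residue D') i 1 * ψ (B.v 0) = 0 := by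
    rcases hM with rfl | rfl
    · rw [hres1']; fin_cases i <;> simp [flag2] <;> ring
    · rw [hres2]; fin_cases i <;> simp [flag2, ψ]; ring
  have hu : IsUnit (M i 1) := by
    refine row_unit_of_kills (w := φ' (B.v 0)) i ?_ ?_
    · rw [← residue_eq_zero_iff, map_add, map_mul]
      exact hkill
    · fin_cases j
      · exact .inl ((residue_ne_zero_iff_isUnit _).mp hij)
      · exact .inr ((residue_ne_zero_iff_isUnit _).mp hij)
  obtain ⟨w, hwF, hwN⟩ := exists_flag_of_unit hinj B.e hne hF hN (d := sgn n)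
    (by rw [(h.holds.st n rfl).1, ha]; ring) h.holds.trace (i := i)
    (by rcases hM with rfl | rfl; exacts [.inl hu, .inr hu])
  have hkill' : M i 0 + M i 1 * w = 0 := by
    rcases hM with rfl | rfl
    · rw [flipB_sub_smul, hwF]; fin_cases i <;> simp [flag2] <;> ring
    · rw [hwN]; fin_cases i <;> simp [flag2]; ring
  have hw : residue D' w = ψ (B.v 0) := by
    have h1 := congrArg (residue D') hkill'
    rw [map_add, map_mul, map_zero] at h1
    simp only [Matrix.map_apply] at hkill
    exact mul_left_cancel₀ ((residue_ne_zero_iff_isUnit _).mpr hu) (by linear_combination h1 - hkill)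
  refine ⟨![w, flipB B.e F 0 1, flipB B.e (S - 1) 0 1], fun i => ?_, ?_, ?_⟩
  · fin_cases i
    · exact hw
    · simpa [flag2] using congrFun (congrFun hres1 0) 1
    · simpa [flag2] using congrFun (congrFun hres2 0) 1
  · rw [phiForm]
    simp only [Matrix.cons_val]
    rw [← hwF, unflipB_flipB]
  · rw [nForm]
    simp only [Matrix.cons_val]
    rw [← hwN, unflipB_flipB, add_sub_cancel]

include hinj hφ' in
/-- A base exists at a Steinberg place. -/
theorem exists_base_st [NeZero ((L.qv q : D'))] {n : Bool} {F S : M₂ D'}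
    (h : Local φ' L q (.st n) F S)
    (hlift' : ∀ d : D', ∃ c : O, residue D' (φ' c) = residue D' d) :
    ∃ B, IsBase L q (.st n) B := by
  classical
  by_cases hd : Degenerate L q (.st n)
  · obtain ⟨h1, h2⟩ := map_residue_degenerate φ' hφ' h hd
    have hsq : residue O (sgn n * (L.qv q : O)) = residue O (sgn n) := by
      rw [← residue_eq_iff φ' hφ']
      rw [map_sub_smul_one, sub_eq_zero] at h1
      have h3 : residue D' F.trace = residue D' (sgn n * (L.qv q : D')) + residue D' (sgn n * (L.qv q : D')) := by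
        rw [trace_fin_two, map_add, show residue D' (F 0 0) = _ from congrFun (congrFun h1 0) 0,
          show residue D' (F 1 1) = _ from congrFun (congrFun h1 1) 1]
        simp
      rw [(h.holds.st n rfl).1, mul_add, mul_one, map_add] at h3
      simpa [map_sgn] using (add_left_cancel h3).symm
    refine ⟨⟨false, 0, 0⟩, ⟨?_, ?_, fun h' => (by cases h'), fun h' => (by cases h'),
      fun _ => rfl⟩⟩
    · refine Eq.trans ?_ hd.1.symm
      ext i j
      fin_cases i <;> fin_cases j <;> simp [phiForm, unflipB, flag2, map_sgn] <;>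
        simpa [map_sgn] using hsq.symm
    · refine Eq.trans ?_ hd.2.symm
      ext i j
      fin_cases i <;> fin_cases j <;> simp [nForm, unflipB, flag2]
  obtain ⟨e₁, e₂, hne, hF, hN⟩ := exists_eig_of_holds (K := K) hinj h.holds
  set a : D' := sgn n * (L.qv q : D') with ha
  have hexists : ∃ M : M₂ D', (M = F - a • 1 ∨ M = S - 1) ∧ ∃ i j, IsUnit (M i j) := by
    by_contra hc
    push Not at hc
    have z : ∀ M : M₂ D', (M = F - a • 1 ∨ M = S - 1) → M.map (residue D') = 0 := fun M hM =>
      Matrix.ext fun i j => (residue_eq_zero_iff _).mpr ((mem_maximalIdeal _).mpr (hc M hM i j))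
    have z1 := z _ (.inl rfl)
    have z2 := z _ (.inr rfl)
    refine hd ⟨(cong_iff φ' hφ' _ _).mpr ?_, (cong_iff φ' hφ' _ _).mpr ?_⟩
    · rw [map_sub_smul_one, h.phi, sub_eq_zero] at z1
      rw [z1]
      ext i j
      simp [Matrix.one_apply, map_sgn, mul_ite, apply_ite φ', apply_ite (residue D'), ha]
    · rw [map_sub_one, h.sig, sub_eq_zero] at z2
      rw [z2, Matrix.map_one _ (map_zero _) (map_one _)]
  obtain ⟨M, hM, hMu⟩ := hexists
  obtain ⟨e, i, hu⟩ := exists_unit_col M hMu
  obtain ⟨w, hwF, hwN⟩ := exists_flag_of_unit hinj e hne hF hN (d := sgn n)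
    (by rw [(h.holds.st n rfl).1, ha]; ring) h.holds.trace (i := i)
    (by rcases hM with rfl | rfl; exacts [.inl hu, .inr hu])
  obtain ⟨v0, hv0⟩ := hlift' w
  obtain ⟨v1, hv1⟩ := hlift' (flipB e F 0 1)
  obtain ⟨v2, hv2⟩ := hlift' (flipB e (S - 1) 0 1)
  refine ⟨⟨e, ![v0, v1, v2], 0⟩, ⟨(cong_iff φ' hφ' _ _).mpr ?_, (cong_iff φ' hφ' _ _).mpr ?_,
    fun h' => (by cases h'), fun h' => (by cases h'), fun h' => absurd h' hd⟩⟩
  · rw [← h.phi, map_phiForm, RingHom.comp_id, ← unflipB_flipB e F, map_unflipB, hwF, map_flag2]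
    simp [phiForm, hv0, hv1, hv2, map_sgn, ha]
  · rw [← h.sig, map_one_add, map_nForm, show S = 1 + (S - 1) by abel, map_one_add,
      ← unflipB_flipB e (S - 1), map_unflipB, hwN, map_flag2]
    simp [nForm, hv0, hv1, hv2]

end Residual

section Global

variable {K : Type} [Field K]

/-- Choice of a finite slope. -/
theorem exists_slope (V : ValuationSubring K) {F N : M₂ K} {e₁ e₂ a d : K}
    (hne : e₁ ≠ 0 ∨ e₂ ≠ 0) (hF : Eig2 F a e₁ e₂) (hN : Eig2 N 0 e₁ e₂)
    (ht : F.trace = a + d) (htN : N.trace = 0) :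
    ∃ (ε : Bool) (w : K), w ∈ V ∧ flipB ε F = flag2 w a (flipB ε F 0 1) d ∧
      flipB ε N = flag2 w 0 (flipB ε N 0 1) 0 := by
  have key : ∀ (ε : Bool) (c₁ c₂ : K), c₁ ≠ 0 → Eig2 (flipB ε F) a c₁ c₂ →
      Eig2 (flipB ε N) 0 c₁ c₂ → c₂ / c₁ ∈ V →
      ∃ (ε : Bool) (w : K), w ∈ V ∧ flipB ε F = flag2 w a (flipB ε F 0 1) d ∧
        flipB ε N = flag2 w 0 (flipB ε N 0 1) 0 :=
    fun ε c₁ c₂ h0 h1 h2 hV => ⟨ε, c₂ / c₁, hV, h1.eq_flag2 (by rw [trace_flipB, ht]) h0,
      h2.eq_flag2 (by rw [trace_flipB, htN, add_zero]) h0⟩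
  by_cases h : e₁ ≠ 0 ∧ e₂ / e₁ ∈ V
  · exact key false e₁ e₂ h.1 hF hN h.2
  have he2 : e₂ ≠ 0 := by
    intro h2
    rcases hne with h1 | h1
    · exact h ⟨h1, by rw [h2, zero_div]; exact V.zero_mem⟩
    · exact h1 h2
  have hv : e₁ / e₂ ∈ V := by
    by_cases he1 : e₁ = 0
    · rw [he1, zero_div]; exact V.zero_mem
    · rcases V.mem_or_inv_mem (e₂ / e₁) with h' | h'
      · exact absurd ⟨he1, h'⟩ h
      · rwa [inv_div] at h'
  have hlt : V.valuation (e₁ / e₂) < 1 := by
    rcases (V.valuation_le_one_iff _).mpr hv |>.lt_or_eq with h' | h'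
    · exact h'
    · exfalso
      have he1 : e₁ ≠ 0 := fun h0 => by simp [h0] at h'
      refine h ⟨he1, (V.valuation_le_one_iff _).mp ?_⟩
      rw [← inv_div, map_inv₀, h', inv_one]
  have hsum : e₁ + e₂ ≠ 0 := by
    intro h0
    rw [add_eq_zero_iff_eq_neg] at h0
    rw [h0, neg_div, div_self he2, Valuation.map_neg, map_one] at hlt
    exact lt_irrefl _ hlt
  refine key true (e₁ + e₂) e₂ hsum hF.flip hN.flip ?_
  rw [← V.valuation_le_one_iff, show e₂ / (e₁ + e₂) = (e₁ / e₂ + 1)⁻¹ by field_simp,
    map_inv₀, V.valuation.map_add_eq_of_lt_right (by rwa [map_one]), map_one, inv_one]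

variable [Fintype Q] [Fintype ρ]

omit [IsLocalRing O] in
theorem map_mem_maximalIdeal_of_surjective {A B : Type*} [CommRing A] [CommRing B] [IsLocalRing A]
    [IsLocalRing B] (f : A →+* B) (hf : Function.Surjective f) {x : A}
    (hx : x ∈ maximalIdeal A) : f x ∈ maximalIdeal B := by
  have := Ideal.comap_isMaximal_of_surjective f hf (K := maximalIdeal B)
  rw [← eq_maximalIdeal this] at hx
  exact hx

theorem local_of_le {t : Q → Ty} {W : Ideal (MvPowerSeries (Var Q ρ) O)}
    [IsLocalRing (MvPowerSeries (Var Q ρ) O ⧸ W)]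
    (hW : L.relIdeal ⊔ L.typeIdeal t ≤ W) (q : Q) :
    Local ((Ideal.Quotient.mk W).comp C) L q (t q) ((L.phi q).map (Ideal.Quotient.mk W))
      ((L.sig q).map (Ideal.Quotient.mk W)) := by
  have hX : ∀ z, residue _ (Ideal.Quotient.mk W (X z : MvPowerSeries (Var Q ρ) O)) = 0 := fun z => by
    rw [residue_eq_zero_iff]
    exact map_mem_maximalIdeal_of_surjective _ Ideal.Quotient.mk_surjective
      (FA.Patch.mem_maximalIdeal_iff_coeff.mpr (by simp))
  refine ⟨LocalData.holds_of_le L _ t (by rwa [Ideal.mk_ker]) q, ?_, ?_⟩ <;> ext i j <;>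
    simp [LocalData.phi, LocalData.sig, hX]

variable [IsAdicComplete (maximalIdeal O) O] [IsDomain O] [IsNoetherianRing O]

/-- **A prime containing the relations and the equations of a type contains its component.** -/
theorem exists_comp_le (hqu : ∀ q, IsUnit (L.qv q : O)) {t : Q → Ty}
    {W : Ideal (MvPowerSeries (Var Q ρ) O)} [W.IsPrime] (hW : L.relIdeal ⊔ L.typeIdeal t ≤ W) :
    ∃ ht : Valid L t, comp L t ht ≤ W := by
  classical
  let P := MvPowerSeries (Var Q ρ) O
  let D := P ⧸ W
  have : IsLocalRing D := IsLocalRing.of_surjective' _ Ideal.Quotient.mk_surjective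
  let π : P →+* D := Ideal.Quotient.mk W
  let φ : O →+* D := π.comp C
  have hπm : ∀ x ∈ maximalIdeal P, π x ∈ maximalIdeal D := fun x hx =>
    map_mem_maximalIdeal_of_surjective π Ideal.Quotient.mk_surjective hx
  have hXm : ∀ z : Var Q ρ, (X z : P) ∈ maximalIdeal P := fun z =>
    FA.Patch.mem_maximalIdeal_iff_coeff.mpr (by simp)
  have hCm : ∀ c ∈ maximalIdeal O, (C c : P) ∈ maximalIdeal P := fun c hc =>
    FA.Patch.mem_maximalIdeal_iff_coeff.mpr (by simpa using hc)
  have hφ : ∀ c, φ c ∈ maximalIdeal D ↔ c ∈ maximalIdeal O := fun c => by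
    refine ⟨fun h => ?_, fun h => hπm _ (hCm c h)⟩
    by_contra hc
    exact (mem_maximalIdeal _).mp h ((not_not.mp hc).map φ)
  have hlift : ∀ d : D, ∃ c : O, residue D (φ c) = residue D d := fun d => by
    obtain ⟨x, rfl⟩ := Ideal.Quotient.mk_surjective d
    refine ⟨constantCoeff x, ?_⟩
    rw [← sub_eq_zero, ← map_sub, residue_eq_zero_iff]
    show π (C (constantCoeff x)) - π x ∈ _
    rw [← map_sub]
    exact hπm _ (FA.Patch.mem_maximalIdeal_iff_coeff.mpr (by simp))
  let K := FractionRing D
  let j := algebraMap D K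
  have hinj : Function.Injective j := IsFractionRing.injective D K
  haveI hne : ∀ q, NeZero (L.qv q : D) := fun q => ⟨by
    rw [← map_natCast φ]; exact ((hqu q).map φ).ne_zero⟩
  let F : Q → M₂ D := fun q => (L.phi q).map π
  let S : Q → M₂ D := fun q => (L.sig q).map π
  have hloc : ∀ q, Local φ L q (t q) (F q) (S q) := local_of_le hW
  have hvalid : Valid L t := fun q => by
    have h := hloc q
    rcases htq : t q with _ | n
    · exact exists_base_unr φ hφ (htq ▸ h) (hqu q)
    · exact exists_base_st (K := K) hinj hφ (htq ▸ h) hlift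
  refine ⟨hvalid, fun f hf => ?_⟩
  let B₀ := baseOf L t hvalid
  have hB₀ : ∀ q, IsBase L q (t q) (B₀ q) := isBase_baseOf hvalid
  have hvalues : ∀ q, ¬ Degenerate L q (t q) →
      ∃ V : Fin 3 → D, (∀ i, residue D (V i) = residue D (φ ((B₀ q).v i))) ∧
        F q = phiForm φ (L.qv q) (B₀ q).G (B₀ q).e (t q) V ∧
        S q = 1 + nForm (B₀ q).e (t q) V := fun q hnd => by
    have h := hloc q
    have hB := hB₀ q
    rcases htq : t q with _ | n
    · rw [htq] at h hB
      exact exists_values_unr φ hφ h hB (hqu q)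
    · rw [htq] at h hB hnd
      exact exists_values_st (K := K) hinj hφ h hnd hB
  -- the valuation ring
  obtain ⟨V, hV⟩ := LocalSubring.exists_le_valuationSubring (LocalSubring.range j)
  have hDV : ∀ d, j d ∈ V := fun d => hV.choose ⟨d, rfl⟩
  have hmV : ∀ d ∈ maximalIdeal D, V.valuation (j d) < 1 := by
    intro d hd
    rw [← ValuationSubring.mem_nonunits_iff]
    obtain ⟨hle, hlc⟩ := hV
    rw [ValuationSubring.mem_nonunits_iff_exists_mem_maximalIdeal]
    refine ⟨hDV d, (IsLocalRing.mem_maximalIdeal _).mpr fun hunit => ?_⟩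
    have h1 : IsUnit (⟨j d, ⟨d, rfl⟩⟩ : (LocalSubring.range j).toSubring) :=
      hlc.map_nonunit _ (show IsUnit (Subring.inclusion hle ⟨j d, ⟨d, rfl⟩⟩) from hunit)
    apply (IsLocalRing.mem_maximalIdeal _).mp hd
    obtain ⟨x, hx⟩ := isUnit_iff_exists_inv.mp h1
    obtain ⟨y, hy⟩ := x.2
    refine isUnit_iff_exists_inv.mpr ⟨y, hinj ?_⟩
    rw [map_mul, hy, map_one]
    exact congrArg Subtype.val hx
  -- coordinates at each place
  have key : ∀ q, ∃ (ε : Bool) (w : K) (v : Fin 3 → D), w ∈ V ∧
      (∀ i, i ≠ 0 ∨ ¬ Degenerate L q (t q) → residue D (v i) = residue D (φ ((B₀ q).v i))) ∧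
      (Degenerate L q (t q) ∨ ε = (B₀ q).e ∧ w = j (v 0)) ∧
      (F q).map j =
        phiForm (j.comp φ) (L.qv q) (B₀ q).G ε (t q) ![w, j (v 1), j (v 2)] ∧
      (S q).map j = 1 + nForm ε (t q) ![w, j (v 1), j (v 2)] := by
    intro q
    by_cases hd : Degenerate L q (t q)
    swap
    · obtain ⟨v, hv, hF, hS⟩ := hvalues q hd
      refine ⟨(B₀ q).e, j (v 0), v, hDV _, fun i _ => hv i, .inr ⟨rfl, rfl⟩, ?_, ?_⟩
      · rw [hF, map_phiForm]
        exact congrArg _ (funext fun i => by fin_cases i <;> rfl)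
      · rw [hS, map_one_add, map_nForm]
        exact congrArg _ (congrArg _ (funext fun i => by fin_cases i <;> rfl))
    rcases htq : t q with _ | n
    · rw [htq] at hd; exact hd.elim
    have h := hloc q
    have hB := hB₀ q
    rw [htq] at hd h hB
    obtain ⟨e₁, e₂, hnz, hF, hN⟩ := exists_eig_of_holds (K := K) hinj h.holds
    obtain ⟨ε, w, hw, hwF, hwN⟩ := exists_slope V hnz hF hN (d := j (sgn n))
      (by rw [show ((F q).map j).trace = j (F q).trace by simp [Matrix.trace],
        (h.holds.st n rfl).1, ← map_add]; congr 1; ring)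
      (by rw [show ((S q - 1).map j).trace = j (S q - 1).trace by simp [Matrix.trace, map_ofNat],
        h.holds.trace, map_zero])
    obtain ⟨hr1, hr2⟩ := map_residue_degenerate φ hφ h hd
    refine ⟨ε, w, ![0, flipB ε (F q) 0 1, flipB ε (S q - 1) 0 1], hw, fun i hi => ?_, .inl hd,
      ?_, ?_⟩
    · have hv0 : (B₀ q).v = 0 := hB.origin hd
      rw [hv0, Pi.zero_apply, map_zero, map_zero]
      fin_cases i
      · exact map_zero _
      · have h0 : (flipB ε (F q - (sgn n * (L.qv q : D)) • 1)).map (residue D) 0 1 = 0 := by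
          rw [map_flipB, hr1]; cases ε <;> simp [flipB, flip2]
        simpa [flipB_sub_smul, Matrix.one_apply] using h0
      · have h0 : (flipB ε (S q - 1)).map (residue D) 0 1 = 0 := by
          rw [map_flipB, hr2]; cases ε <;> simp [flipB, flip2]
        simpa using h0
    · rw [phiForm]
      simp only [Matrix.cons_val]
      rw [← unflipB_flipB ε ((F q).map j), hwF, ← map_flipB]
      simp [map_sgn, j]
    · rw [nForm]
      simp only [Matrix.cons_val]
      rw [show (S q).map j = 1 + (S q - 1).map j by rw [map_sub_one]; abel,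
        ← unflipB_flipB ε ((S q - 1).map j), hwN, ← map_flipB]
      simp [j]
  choose ε w v hwV hres hdeg hF hS using key
  let B' : Q → Base O := fun q => { B₀ q with e := ε q }
  have hB' : ∀ q, IsBase L q (t q) (B' q) := fun q => by
    rcases hdeg q with hd | ⟨he, -⟩
    · exact (hB₀ q).withFlip L hd _
    · simp only [B', he]; exact hB₀ q
  have he0 : ∀ q, Degenerate L q (t q) → (B₀ q).e = false := fun q hd => by
    simp [B₀, baseOf, hd]
  have hflip : ∀ q, B' q = B₀ q ∨
      (Degenerate L q (t q) ∧ (B₀ q).e = false ∧ B' q = { B₀ q with e := true }) := fun q => by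
    rcases hdeg q with hd | ⟨he, -⟩
    · rcases Bool.eq_false_or_eq_true (ε q) with h | h
      · exact .inr ⟨hd, he0 q hd, by simp [B', h]⟩
      · exact .inl (by simp only [B', h, ← he0 q hd])
    · exact .inl (by simp only [B', he])
  have hf' : typeHom hB' f = 0 := typeHom_eq_zero_of_flip hB₀ hB' hflip hf
  -- the noetherian ring containing the slopes
  let E : Subalgebra D K := Algebra.adjoin D (Set.range w)
  have hEV : ∀ z ∈ E, z ∈ V := fun z hz =>
    Algebra.adjoin_induction (fun z hz => by obtain ⟨q, rfl⟩ := hz; exact hwV q) hDV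
      (fun _ _ _ _ => add_mem) (fun _ _ _ _ => mul_mem) hz
  have : IsNoetherianRing (MvPowerSeries (Var Q ρ) O) := MvPowerSeries.isNoetherianRing O
  have : IsNoetherianRing D :=
    isNoetherianRing_of_surjective (MvPowerSeries (Var Q ρ) O) D π Ideal.Quotient.mk_surjective
  have : IsNoetherianRing E :=
    isNoetherianRing_of_fg ⟨Finset.univ.image w, by simp [E]⟩
  let 𝔞 : Ideal E := (maximalIdeal D).map (algebraMap D E)
  have h𝔞 : 𝔞 ≠ ⊤ := by
    intro htop
    let incl : E →+* V := E.val.toRingHom.codRestrict V.toSubring fun z => hEV _ z.2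
    have h1 : 𝔞.map incl ≤ maximalIdeal V := by
      rw [Ideal.map_map, Ideal.map_le_iff_le_comap]
      intro d hd
      rw [Ideal.mem_comap]
      exact (V.valuation_lt_one_iff _).mpr (hmV d hd)
    rw [htop, Ideal.map_top, top_le_iff] at h1
    exact (maximalIdeal.isMaximal V).ne_top h1
  let ι : D →+* E := algebraMap D E
  have hιM : ∀ d ∈ maximalIdeal D, ι d ∈ 𝔞 := fun d hd => Ideal.mem_map_of_mem ι hd
  let VE : Q → Fin 3 → E := fun q => ![⟨w q, Algebra.subset_adjoin ⟨q, rfl⟩⟩, ι (v q 1), ι (v q 2)]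
  have hval : ∀ q, (fun i => E.val.toRingHom (VE q i)) = ![w q, j (v q 1), j (v q 2)] := fun q =>
    funext fun i => by fin_cases i <;> rfl
  have hcomp : E.val.toRingHom.comp ((ι.comp π).comp C) = j.comp φ := RingHom.ext fun c => rfl
  have hz : (ι.comp π) f = 0 := by
    refine map_eq_zero_of_values hB' 𝔞 (fun z hz => ?_) (ι.comp π)
      (fun c hc => hιM _ (hπm _ (hCm c hc))) (fun z => hιM _ (hπm _ (hXm z))) VE ?_ ?_ ?_ hf'
    · rw [← Ideal.mem_bot, ← Ideal.iInf_pow_eq_bot_of_isDomain 𝔞 h𝔞, Ideal.mem_iInf]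
      exact hz
    · intro q i hi
      have hi' : i ≠ 0 ∨ ¬ Degenerate L q (t q) := not_and_or.mp hi
      have hm : ι (v q i) - ι (φ ((B₀ q).v i)) ∈ 𝔞 := by
        have := hιM (v q i - φ ((B₀ q).v i))
          (by rw [← residue_eq_zero_iff, map_sub, hres q i hi', sub_self])
        rwa [map_sub ι] at this
      have hVi : VE q i = ι (v q i) := by
        fin_cases i
        · rcases hdeg q with hd | ⟨-, hw0⟩
          · exact (hi'.resolve_left (fun h => h rfl) hd).elim
          · exact Subtype.ext hw0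
        · rfl
        · rfl
      rw [hVi]
      exact hm
    · intro q
      refine Matrix.map_injective (f := E.val.toRingHom) Subtype.val_injective ?_
      beta_reduce
      rw [map_phiForm, hval, hcomp, ← hF q]
      rfl
    · intro q
      refine Matrix.map_injective (f := E.val.toRingHom) Subtype.val_injective ?_
      beta_reduce
      rw [map_one_add, map_nForm, hval, ← hS q]
      rfl
  exact Ideal.Quotient.eq_zero_iff_mem.mp (hinj ((congrArg Subtype.val hz).trans (map_zero j).symm))

omit [IsAdicComplete (maximalIdeal O) O] [IsDomain O] [IsNoetherianRing O] in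
/-- Every prime containing the relations contains the equations of some type. -/
theorem exists_type_le (hqu : ∀ q, IsUnit (L.qv q : O))
    {W : Ideal (MvPowerSeries (Var Q ρ) O)} [W.IsPrime] (hW : L.relIdeal ≤ W) :
    ∃ t, L.typeIdeal t ≤ W := by
  classical
  let P := MvPowerSeries (Var Q ρ) O
  let D := P ⧸ W
  have : IsLocalRing D := IsLocalRing.of_surjective' _ Ideal.Quotient.mk_surjective
  let π : P →+* D := Ideal.Quotient.mk W
  let j := algebraMap D (FractionRing D)
  have hinj : Function.Injective j := IsFractionRing.injective D _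
  have key : ∀ q, ∃ ty, ∀ x ∈ L.typeSet (ρ := ρ) q ty, x ∈ W := by
    intro q
    have hr : ∀ x ∈ L.relSet (ρ := ρ) q, π x = 0 := fun x hx =>
      Ideal.Quotient.eq_zero_iff_mem.mpr (hW (Ideal.subset_span (Set.mem_iUnion.mpr ⟨q, hx⟩)))
    set F := (L.phi q).map (j.comp π)
    set N := (L.sig q - 1).map (j.comp π) with hNdef
    by_cases hN : N = 0
    · refine ⟨.unr, ?_⟩
      rintro _ ⟨⟨a, b⟩, rfl⟩
      refine Ideal.Quotient.eq_zero_iff_mem.mp (hinj ?_)
      rw [map_zero]
      exact congrFun (congrFun hN a) b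
    obtain ⟨s, hs, htr, hrel⟩ := exists_sign (Φ := F) (N := N) (q := ((L.qv q : FractionRing D)))
      (by
        rw [← map_natCast ((j.comp π).comp (C : O →+* P))]
        exact ((hqu q).map _).ne_zero)
      (by
        have := congrArg j (hr _ (.inl (.inl rfl)))
        rw [map_sub, map_natCast, map_sub, map_natCast, map_zero, sub_eq_zero] at this
        rw [← this, RingHom.map_det, RingHom.map_det, RingHom.mapMatrix_apply,
          RingHom.mapMatrix_apply, Matrix.map_map]
        rfl)
      (by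
        have := congrArg j (hr _ (.inl (.inr (.inl rfl))))
        rw [map_sub, map_ofNat, map_sub, map_ofNat, map_zero] at this
        rw [hNdef, map_sub_one, Matrix.trace_sub, Matrix.trace_one]
        simpa [Matrix.trace, map_ofNat] using this)
      (by
        have h1 := hr _ (.inl (.inr (.inr rfl)))
        have h2 := hr _ (.inl (.inr (.inl rfl)))
        rw [hNdef, ← RingHom.mapMatrix_apply, ← RingHom.map_det, LocalData.det_sub_one,
          RingHom.comp_apply,
          show (L.sig q).det - (L.sig q).trace + 1 =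
            ((L.sig q).det - 1) - ((L.sig (ρ := ρ) q).trace - 2) by ring,
          map_sub, h1, h2, sub_zero, map_zero])
      hN
      (by
        ext a b
        have := congrArg j (hr _ (.inr ⟨(a, b), rfl⟩))
        simp only [Matrix.sub_apply, Matrix.smul_apply, smul_eq_mul, Matrix.mul_apply,
          Fin.sum_univ_two, map_sub, map_add, map_mul, map_natCast π, map_natCast j, map_zero, sub_eq_zero] at this
        simpa [F, N, Matrix.mul_apply, Fin.sum_univ_two, Matrix.one_apply, apply_ite π,
          apply_ite j] using this)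
    obtain ⟨n, rfl⟩ : ∃ n : Bool, s = sgn n := by
      rcases hs with rfl | rfl
      · exact ⟨false, by simp [sgn]⟩
      · exact ⟨true, by simp [sgn]⟩
    refine ⟨.st n, ?_⟩
    rintro x (rfl | ⟨⟨a, b⟩, rfl⟩) <;> refine Ideal.Quotient.eq_zero_iff_mem.mp (hinj ?_) <;>
      rw [map_zero]
    · rw [map_sub, map_sub, sub_eq_zero]
      simpa [F, Matrix.trace, map_sgn] using htr
    · have := congrFun (congrFun hrel a) b
      simp only [Matrix.sub_apply, Matrix.smul_apply, smul_eq_mul, map_sub, sub_eq_zero]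
      simpa [F, N, Matrix.mul_apply, Fin.sum_univ_two, map_sgn, Matrix.one_apply, apply_ite π,
          apply_ite j] using this
  choose t ht using key
  exact ⟨t, Ideal.span_le.mpr fun x hx => by
    obtain ⟨q, hq⟩ := Set.mem_iUnion.mp hx
    exact ht q x hq⟩

/-- A prime containing the relations contains the equations of a type iff it contains its
component. -/
theorem typeIdeal_le_iff (hqu : ∀ q, IsUnit (L.qv q : O)) {t : Q → Ty}
    {W : Ideal (MvPowerSeries (Var Q ρ) O)} [W.IsPrime] (hW : L.relIdeal ≤ W) :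
    L.typeIdeal t ≤ W ↔ ∃ ht : Valid L t, comp L t ht ≤ W :=
  ⟨fun h => exists_comp_le hqu (sup_le hW h),
    fun ⟨ht, h⟩ => le_trans (le_sup_right.trans (le_comp ht)) h⟩

/-- Every prime containing the relations contains a component. -/
theorem exists_type_comp_le (hqu : ∀ q, IsUnit (L.qv q : O))
    {W : Ideal (MvPowerSeries (Var Q ρ) O)} [W.IsPrime] (hW : L.relIdeal ≤ W) :
    ∃ (t : Q → Ty) (ht : Valid L t), comp L t ht ≤ W := by
  obtain ⟨t, ht⟩ := exists_type_le hqu hW
  exact ⟨t, exists_comp_le hqu (sup_le hW ht)⟩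

end Global

end FA.LocalComp
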