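import Fermat.Agent.LocalComp.Components
import Mathlib.LinearAlgebra.Matrix.Charpoly.Coeff

/-!
# Walls and special points of the components

No component contains the equations of another type, the unramified and the Steinberg component at
a place meet in a prime of characteristic zero lying in no further component, and every component
has a point modulo the uniformiser with trivial inertia and non-scalar Frobenius at a given place.
-/

set_option autoImplicit false

noncomputable section

open MvPowerSeries IsLocalRing Matrix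

namespace FA.LocalComp

local notation "M₂" => Matrix (Fin 2) (Fin 2)

section Series

variable {R : Type*} [CommRing R] {τ : Type*}

/-- Ser translated variable is not zero. -/
theorem C_add_X_ne_zero [Nontrivial R] (c : R) (z : τ) :
    (MvPowerSeries.C c + MvPowerSeries.X z : MvPowerSeries τ R) ≠ 0 := fun h => by
  classical
  have := congrArg (coeff (Finsupp.single z 1)) h
  simp [coeff_C, coeff_X] at this

/-- The trace in the unramified chart is not constant. -/
theorem trace_ulu_ne [IsDomain R] {x : Fin 3 → τ} (hx : Function.Injective x) {G : M₂ R}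
    (hG : G.det ≠ 0) (v : Fin 3 → R) (c : R) :
    (G.map (MvPowerSeries.C : R →+* MvPowerSeries τ R) *
      ulu (MvPowerSeries.C (v 0) + MvPowerSeries.X (x 0)) (MvPowerSeries.C (v 1) + MvPowerSeries.X (x 1))
        (MvPowerSeries.C (v 2) + MvPowerSeries.X (x 2))).trace ≠ MvPowerSeries.C c := by
  classical
  intro h
  let w : Fin 3 → MvPolynomial τ R := fun i => MvPolynomial.C (v i) + MvPolynomial.X (x i)
  let T : MvPolynomial τ R := (G.map MvPolynomial.C * ulu (w 0) (w 1) (w 2)).trace
  have hT : T = MvPolynomial.C c := by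
    apply MvPolynomial.coe_injective
    rw [MvPolynomial.coe_C, ← h]
    simp [T, w, trace_fin_two, Matrix.mul_apply, Fin.sum_univ_two, ulu]
  have key : ∀ a b d : R, (G * ulu a b d).trace = c := fun a b d => by
    let ev := MvPolynomial.eval (fun z =>
      if z = x 0 then a - v 0 else if z = x 1 then b - v 1 else if z = x 2 then d - v 2 else 0)
    have h1 := congrArg ev hT
    have hw : ev (w 0) = a ∧ ev (w 1) = b ∧ ev (w 2) = d := by
      refine ⟨?_, ?_, ?_⟩ <;> simp [ev, w, hx.eq_iff]
    obtain ⟨h0, h1', h2⟩ := hw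
    simp [T, trace_fin_two, Matrix.mul_apply, Fin.sum_univ_two, ulu, ev] at h1 ⊢
    simp [ev] at h0 h1' h2
    rw [h0, h1', h2] at h1
    exact h1
  have k0 := key 0 0 0
  have k1 := key 1 0 0
  have k2 := key 0 1 0
  have k3 := key 1 1 0
  simp [trace_fin_two, Matrix.mul_apply, Fin.sum_univ_two, ulu] at k0 k1 k2 k3
  have h10 : G 1 0 = 0 := by linear_combination k1 - k0
  have h01 : G 0 1 = 0 := by linear_combination k2 - k0
  have h00 : G 0 0 = 0 := by linear_combination k3 - k0 - h10 - h01
  exact hG (by rw [det_fin_two, h10, h00]; ring)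

end Series

variable {Q ρ : Type} [Fintype Q] [Fintype ρ] {O : Type} [CommRing O] [IsLocalRing O]
  [IsAdicComplete (maximalIdeal O) O] [IsDomain O] {L : LocalData Q O} {t : Q → Ty}
  {B : Q → Base O} (hB : ∀ q, IsBase L q (t q) (B q))

local notation "Ser" => MvPowerSeries (Par Q ρ) O

instance instIsDomainMvPowerSeriesPar : IsDomain (MvPowerSeries (Par Q ρ) O) :=
  NoZeroDivisors.to_isDomain _

omit [Fintype Q] [Fintype ρ] [IsAdicComplete (maximalIdeal O) O] [IsLocalRing O] in
theorem parX_injective (q : Q) :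
    Function.Injective fun i : Fin 3 => (Sum.inl (q, i) : Par Q ρ) :=
  fun i j h => by simpa using h

/-- Pairs of types which the coordinates at a place tell apart. -/
theorem ty_eq_of_holds [CharZero O] (π : MvPowerSeries (Var Q ρ) O →+* Ser) (q : Q) {ty ty' : Ty}
    (hq : (L.qv q : O) ≠ 0)
    (h : LocalData.Holds (L.qv q) ty ((L.phi q).map π) ((L.sig q).map π))
    (h' : LocalData.Holds (L.qv q) ty' ((L.phi q).map π) ((L.sig q).map π))
    (hunr : ty = .unr → ∀ c : O, ((L.phi q).map π).trace ≠ C c)
    (hst : ∀ n, ty = .st n → ty' = .unr → (L.sig q).map π - 1 ≠ 0) :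
    ty' = ty := by
  rcases ty with _ | n <;> rcases ty' with _ | n'
  · rfl
  · exact absurd (h'.st n' rfl).1 (by
      simpa [map_sgn] using hunr rfl (sgn n' * ((L.qv q : O) + 1)))
  · exact absurd (h'.unr rfl) (hst n rfl rfl)
  · have e : (sgn n : Ser) * ((L.qv q : Ser) + 1) = sgn n' * ((L.qv q : Ser) + 1) :=
      (h.st n rfl).1.symm.trans (h'.st n' rfl).1
    have hne : ((L.qv q : Ser) + 1) ≠ 0 := fun h0 => by
      have := congrArg constantCoeff h0
      simp only [map_add, map_natCast, map_one, map_zero] at this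
      exact Nat.succ_ne_zero (L.qv q) (by exact_mod_cast this)
    have e' := congrArg constantCoeff (mul_right_cancel₀ hne e)
    rw [map_sgn, map_sgn] at e'
    have hne2 : (1 : O) ≠ -1 := fun h => two_ne_zero (α := O) (by linear_combination h)
    cases n <;> cases n' <;> simp_all [sgn]
    all_goals exact absurd e'.symm (fun h => hne2 (by linear_combination h))

omit [IsDomain O] in
theorem map_phi_parSeries (ψ : Ser →+* Ser) (hC : ∀ c, ψ (C c) = C c) (q : Q) :
    (L.phi q).map (ψ.comp (typeHom (ρ := ρ) hB)) =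
      phiForm C (L.qv q) (B q).G (B q).e (t q) fun i => ψ (parSeries B q i) := by
  rw [RingHom.coe_comp, ← Matrix.map_map, map_phi_typeHom, map_phiForm,
    show ψ.comp (C : O →+* Ser) = C from RingHom.ext hC]

omit [IsDomain O] in
theorem map_sig_parSeries (ψ : Ser →+* Ser) (q : Q) :
    (L.sig q).map (ψ.comp (typeHom (ρ := ρ) hB)) =
      1 + nForm (B q).e (t q) fun i => ψ (parSeries B q i) := by
  rw [RingHom.coe_comp, ← Matrix.map_map, map_sig_typeHom, map_one_add, map_nForm]

include hB in
theorem trace_ne_of_unr {q : Q} (hq : (L.qv q : O) ≠ 0) (hu : t q = .unr) (ψ : Ser →+* Ser)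
    (hC : ∀ c, ψ (C c) = C c) (hX : ∀ i, ψ (parSeries B q i) = parSeries B q i) (c : O) :
    ((L.phi q).map (ψ.comp (typeHom (ρ := ρ) hB))).trace ≠ C c := by
  rw [map_phi_parSeries hB ψ hC, hu, funext hX]
  unfold phiForm parSeries
  exact trace_ulu_ne (parX_injective q) (by rw [(hB q).detG hu]; exact hq) (B q).v c

omit [IsDomain O] in
include hB in
theorem sig_ne_of_st [Nontrivial O] {q : Q} {n : Bool} (hn : t q = .st n) (ψ : Ser →+* Ser)
    (hX : ψ (parSeries B q 2) = parSeries B q 2) :
    (L.sig q).map (ψ.comp (typeHom (ρ := ρ) hB)) - 1 ≠ 0 := by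
  rw [map_sig_parSeries, hn, add_sub_cancel_left]
  intro h
  have h1 := congrArg (fun M => flipB (B q).e M 0 1) h
  simp only [nForm, flipB_unflipB] at h1
  refine C_add_X_ne_zero ((B q).v 2) (Sum.inl (q, 2) : Par Q ρ) ?_
  rw [hX] at h1
  have hz : flipB (B q).e (0 : M₂ (MvPowerSeries (Par Q ρ) O)) 0 1 = 0 := by
    cases (B q).e <;> simp [flipB, flip2]
  exact (h1.trans hz : _)

/-- A component contains the equations of its own type only. -/
theorem typeIdeal_le_comp_iff [CharZero O] (hqu : ∀ q, IsUnit (L.qv q : O)) (ht : Valid L t)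
    {t' : Q → Ty} : L.typeIdeal t' ≤ comp (ρ := ρ) L t ht ↔ t' = t := by
  constructor
  swap
  · intro h
    rw [h]
    exact le_sup_right.trans (le_comp ht)
  intro h
  funext q
  let π := (RingHom.id Ser).comp (typeHom (ρ := ρ) (isBase_baseOf ht))
  refine ty_eq_of_holds π q (hqu q).ne_zero (holds_typeHom (isBase_baseOf ht) q)
    (LocalData.holds_of_le L π t' (sup_le (le_sup_left.trans (le_comp ht)) h) q)
    (fun hu c => trace_ne_of_unr (isBase_baseOf ht) (hqu q).ne_zero hu _ (fun _ => rfl)
      (fun _ => rfl) c)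
    (fun n hn _ => sig_ne_of_st (isBase_baseOf ht) hn _ rfl)

/-- The unramified component contains neither form of the level raising equation. -/
theorem trace_sub_notMem_comp (hqu : ∀ q, IsUnit (L.qv q : O)) (ht : Valid L t) {q : Q}
    (hu : t q = .unr) (c : O) :
    (L.phi q).trace - C c ∉ comp (ρ := ρ) L t ht := by
  intro h
  refine trace_ne_of_unr (ρ := ρ) (isBase_baseOf ht) (hqu q).ne_zero hu (RingHom.id _)
    (fun _ => rfl) (fun _ => rfl) c ?_
  have := RingHom.mem_ker.mp h
  rw [map_sub, typeHom_C, sub_eq_zero] at this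
  rw [← this]
  simp [Matrix.trace]

/-- The product of the two level raising equations avoids the unramified component. -/
theorem trace_mul_notMem_comp (hqu : ∀ q, IsUnit (L.qv q : O)) (ht : Valid L t) {q : Q}
    (hu : t q = .unr) (c d : O) :
    ((L.phi q).trace - C c) * ((L.phi q).trace - C d) ∉ comp (ρ := ρ) L t ht := fun h =>
  ((comp_isPrime ht).mem_or_mem h).elim (trace_sub_notMem_comp hqu ht hu c)
    (trace_sub_notMem_comp hqu ht hu d)

variable (B) in
/-- The substitution killing the nilpotent coordinate at `q`. -/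
def killHom (q : Q) (hv : (B q).v 2 ∈ maximalIdeal O) : Ser →+* Ser :=
  open scoped Classical in
  FA.Patch.evalHom (maximalIdeal Ser) C
    (fun y => if y = Sum.inl (q, 2) then -C ((B q).v 2) else X y)
    (fun y => by
      split_ifs
      · exact neg_mem (FA.Patch.mem_maximalIdeal_iff_coeff.mpr (by simpa using hv))
      · exact FA.Patch.mem_maximalIdeal_iff_coeff.mpr (by simp))

omit [IsDomain O] in
theorem killHom_C (q : Q) (hv : (B q).v 2 ∈ maximalIdeal O) (c : O) :
    killHom (ρ := ρ) B q hv (C c) = C c :=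
  FA.Patch.evalHom_C _ _ _ _

omit [IsDomain O] in
theorem killHom_parSeries (q : Q) (hv : (B q).v 2 ∈ maximalIdeal O) (r : Q) (i : Fin 3)
    (h : r ≠ q ∨ i ≠ 2) : killHom (ρ := ρ) B q hv (parSeries B r i) = parSeries B r i := by
  classical
  rw [parSeries, map_add, killHom_C, killHom, FA.Patch.evalHom_X, if_neg]
  intro e
  simp at e
  tauto

omit [IsDomain O] in
theorem killHom_parSeries_self (q : Q) (hv : (B q).v 2 ∈ maximalIdeal O) :
    killHom (ρ := ρ) B q hv (parSeries B q 2) = 0 := by
  classical
  rw [parSeries, map_add, killHom_C, killHom, FA.Patch.evalHom_X, if_pos rfl, add_neg_cancel]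

omit [IsDomain O] in
/-- The nilpotent coordinate at a residually unramified place is small. -/
theorem v_two_mem {q : Q} {n : Bool} {b : Base O} (hb : IsBase L q (.st n) b)
    (h : Cong (L.sig0 q) 1) : b.v 2 ∈ maximalIdeal O := by
  have hs : (1 + nForm b.e (.st n) b.v).map (residue O) = (1 : M₂ O).map (residue O) :=
    hb.sig.trans h
  rw [map_one_add, map_nForm, Matrix.map_one _ (map_zero _) (map_one _), add_eq_left, nForm] at hs
  have h1 := congrArg (fun M => flipB b.e M 0 1) hs
  simp only [flipB_unflipB] at h1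
  have hz : flipB b.e (0 : M₂ (ResidueField O)) 0 1 = 0 := by
    cases b.e <;> simp [flipB, flip2]
  rw [← residue_eq_zero_iff]
  exact h1.trans hz

include hB in
omit [IsDomain O] in
theorem sig_killHom {q : Q} {n : Bool} (hn : t q = .st n) (hv : (B q).v 2 ∈ maximalIdeal O) :
    (L.sig q).map ((killHom (ρ := ρ) B q hv).comp (typeHom hB)) - 1 = 0 := by
  rw [map_sig_parSeries, hn, add_sub_cancel_left, nForm, killHom_parSeries_self]
  ext i j
  cases (B q).e <;> fin_cases i <;> fin_cases j <;> simp [unflipB, unflip2, flag2]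

/-- The wall between the unramified and a Steinberg component at one place, given as the kernel
of the chart with the nilpotent coordinate killed. -/
theorem exists_wall_hom [DecidableEq Q] [CharZero O] [IsNoetherianRing O]
    (hqu : ∀ q, IsUnit (L.qv q : O)) {q : Q} {n : Bool} (hn : t q = .st n) (ht : Valid L t)
    (ht₀ : Valid L (Function.update t q .unr)) :
    ∃ W : Ideal (MvPowerSeries (Var Q ρ) O), (W.IsPrime ∧ L.relIdeal ≤ W ∧
      (∀ c : O, C c ∈ W → c = 0) ∧ comp L t ht ≤ W ∧ comp L (Function.update t q .unr) ht₀ ≤ W ∧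
      ∀ t', L.typeIdeal t' ≤ W → t' = t ∨ t' = Function.update t q .unr) ∧
      ∃ (B : Q → Base O) (hB : ∀ r, IsBase L r (t r) (B r)) (hv : (B q).v 2 ∈ maximalIdeal O),
        W = RingHom.ker ((killHom (ρ := ρ) B q hv).comp (typeHom hB)) := by
  obtain ⟨B₀, hB₀⟩ := ht₀ q
  rw [Function.update_self] at hB₀
  have hsig : Cong (L.sig0 q) 1 := by
    have := hB₀.sig
    simp only [nForm, add_zero] at this
    exact this.symm
  let B := baseOf L t ht
  have hB : ∀ r, IsBase L r (t r) (B r) := isBase_baseOf ht
  have hv : (B q).v 2 ∈ maximalIdeal O := v_two_mem (hn ▸ hB q) hsig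
  let ψ := killHom (ρ := ρ) B q hv
  let π := ψ.comp (typeHom hB)
  have hπ : ∀ r, LocalData.Holds (L.qv r) (t r) ((L.phi r).map π) ((L.sig r).map π) :=
    LocalData.holds_of_le L π t ((le_comp ht).trans fun f hf => by
      rw [RingHom.mem_ker]
      show ψ (typeHom hB f) = 0
      rw [show typeHom hB f = 0 from hf, map_zero])
  have hle := LocalData.le_ker_of_holds L π t hπ
  have hrel : L.relIdeal ≤ RingHom.ker π := le_sup_left.trans hle
  have : (RingHom.ker π).IsPrime := RingHom.ker_isPrime π
  have ht0le : L.typeIdeal (Function.update t q .unr) ≤ RingHom.ker π := by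
    refine le_sup_right.trans (LocalData.le_ker_of_holds L π _ fun r => ?_)
    rcases eq_or_ne r q with rfl | hr
    · rw [Function.update_self]
      obtain ⟨h1, h2, h3, h4, -, -⟩ := hπ r
      exact ⟨h1, h2, h3, h4, fun _ => sig_killHom hB hn hv, fun m hm => (by cases hm)⟩
    · rw [Function.update_of_ne hr]; exact hπ r
  refine ⟨RingHom.ker π, ⟨inferInstance, hrel, fun c hc => ?_, ?_, ?_, fun t' ht' => ?_⟩,
    B, hB, hv, rfl⟩
  · have h : ψ (typeHom hB (C c)) = 0 := hc
    rw [typeHom_C, killHom_C] at h
    simpa using congrArg constantCoeff h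
  · intro f hf
    rw [RingHom.mem_ker]
    show ψ (typeHom hB f) = 0
    rw [show typeHom hB f = 0 from hf, map_zero]
  · obtain ⟨_, h⟩ := exists_comp_le hqu (sup_le hrel ht0le)
    exact h
  have hoff : ∀ r, r ≠ q → t' r = t r := fun r hr =>
    ty_eq_of_holds π r (hqu r).ne_zero (hπ r)
      (LocalData.holds_of_le L π t' (sup_le hrel ht') r)
      (fun hu c => trace_ne_of_unr hB (hqu r).ne_zero hu ψ (killHom_C q hv)
        (fun i => killHom_parSeries q hv r i (.inl hr)) c)
      (fun m hm _ => sig_ne_of_st hB hm ψ (killHom_parSeries q hv r 2 (.inl hr)))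
  rcases h' : t' q with _ | n'
  · right
    funext r
    rcases eq_or_ne r q with rfl | hr
    · rw [Function.update_self, h']
    · rw [Function.update_of_ne hr, hoff r hr]
  · left
    funext r
    rcases eq_or_ne r q with rfl | hr
    · exact ty_eq_of_holds π r (hqu r).ne_zero (hπ r)
        (LocalData.holds_of_le L π t' (sup_le hrel ht') r)
        (fun hu => by rw [hn] at hu; cases hu) (fun m _ hm => by rw [h'] at hm; cases hm)
    · exact hoff r hr

/-- **The wall between the unramified and a Steinberg component at one place.** -/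
theorem exists_wall [DecidableEq Q] [CharZero O] [IsNoetherianRing O]
    (hqu : ∀ q, IsUnit (L.qv q : O)) {q : Q} {n : Bool} (hn : t q = .st n) (ht : Valid L t)
    (ht₀ : Valid L (Function.update t q .unr)) :
    ∃ W : Ideal (MvPowerSeries (Var Q ρ) O), W.IsPrime ∧ L.relIdeal ≤ W ∧
      (∀ c : O, C c ∈ W → c = 0) ∧ comp L t ht ≤ W ∧ comp L (Function.update t q .unr) ht₀ ≤ W ∧
      ∀ t', L.typeIdeal t' ≤ W → t' = t ∨ t' = Function.update t q .unr :=
  let ⟨W, h, _⟩ := exists_wall_hom hqu hn ht ht₀
  ⟨W, h⟩

/-- Reduction of series modulo the maximal ideal of the coefficients. -/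
def redHom : Ser →+* MvPowerSeries (Par Q ρ) (ResidueField O) := MvPowerSeries.map (residue O)

omit [IsAdicComplete (maximalIdeal O) O] [IsDomain O] [Fintype Q] [Fintype ρ] in
theorem redHom_parSeries (r : Q) (i : Fin 3) :
    redHom (parSeries (ρ := ρ) B r i) = C (residue O ((B r).v i)) + X (Sum.inl (r, i)) := by
  simp [redHom, parSeries]

/-- **Ser point modulo the uniformiser, unramified at `q`, with non-scalar Frobenius.** -/
theorem exists_special (hqu : ∀ q, IsUnit (L.qv q : O)) (ht : Valid L t) {q : Q}
    (hsig : Cong (L.sig0 q) 1) :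
    ∃ W : Ideal (MvPowerSeries (Var Q ρ) O), W.IsPrime ∧ comp L t ht ≤ W ∧
      (∀ c ∈ maximalIdeal O, C c ∈ W) ∧ (∀ i j, (L.sig q - 1) i j ∈ W) ∧
      (∀ s : O, ∃ i j,
        ((L.phi q - (C s : MvPowerSeries (Var Q ρ) O) • 1) : M₂ (MvPowerSeries (Var Q ρ) O)) i j ∉ W) ∧
      (IsUnit ((L.qv q : O) + 1) → ∃ i j,
        ((L.phi q * L.phi q - 1) : M₂ (MvPowerSeries (Var Q ρ) O)) i j ∉ W) := by
  classical
  let B := baseOf L t ht
  have hB : ∀ r, IsBase L r (t r) (B r) := isBase_baseOf ht
  have : IsDomain (MvPowerSeries (Par Q ρ) (ResidueField O)) := NoZeroDivisors.to_isDomain _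
  -- the point and the two facts about Frobenius
  suffices h : ∃ π : MvPowerSeries (Var Q ρ) O →+* (MvPowerSeries (Par Q ρ) (ResidueField O)), comp L t ht ≤ RingHom.ker π ∧
      (∀ c, π (C c) = C (residue O c)) ∧ (L.sig q).map π - 1 = 0 ∧
      (∀ s : (ResidueField O), (L.phi q).map π ≠ C s • 1) ∧
      ((L.qv q : (ResidueField O)) + 1 ≠ 0 → (L.phi q).map π * (L.phi q).map π ≠ 1) by
    obtain ⟨π, h1, h2, h3, h4, h5⟩ := h
    refine ⟨RingHom.ker π, RingHom.ker_isPrime π, h1, fun c hc => ?_, fun i j => ?_,
      fun s => ?_, fun hu => ?_⟩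
    · rw [RingHom.mem_ker, h2, (residue_eq_zero_iff _).mpr hc, map_zero]
    · rw [← map_sub_one] at h3
      exact congrFun (congrFun h3 i) j
    · by_contra hc
      push Not at hc
      refine h4 (residue O s) (sub_eq_zero.mp ?_)
      rw [← h2, ← map_sub_smul_one]
      exact Matrix.ext hc
    · by_contra hc
      push Not at hc
      have hq1 : (L.qv q : (ResidueField O)) + 1 ≠ 0 := by
        simpa using ((residue_ne_zero_iff_isUnit ((L.qv q : O) + 1)).mpr hu)
      refine h5 hq1 (sub_eq_zero.mp ?_)
      rw [← Matrix.map_mul, ← map_sub_one]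
      exact Matrix.ext hc
  rcases htq : t q with _ | n
  · -- the unramified chart
    refine ⟨redHom.comp (typeHom hB), fun f hf => ?_, fun c => ?_, ?_, ?_⟩
    · rw [RingHom.mem_ker, RingHom.comp_apply, show typeHom hB f = 0 from hf, map_zero]
    · rw [RingHom.comp_apply, typeHom_C]
      simp [redHom]
    · rw [RingHom.coe_comp, ← Matrix.map_map, map_sig_typeHom, htq]
      simp [nForm, Matrix.map_one]
    have hF : (L.phi q).map (redHom.comp (typeHom (ρ := ρ) hB)) =
        ((B q).G.map (residue O)).map C * ulu (C (residue O ((B q).v 0)) + X (Sum.inl (q, 0)))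
          (C (residue O ((B q).v 1)) + X (Sum.inl (q, 1)))
          (C (residue O ((B q).v 2)) + X (Sum.inl (q, 2))) := by
      rw [RingHom.coe_comp, ← Matrix.map_map, map_phi_typeHom, htq, map_phiForm]
      simp only [phiForm, redHom_parSeries, Matrix.map_map]
      congr 1
      ext i j
      simp [redHom]
    have hG : ((B q).G.map (residue O)).det ≠ 0 := by
      rw [← RingHom.mapMatrix_apply, ← RingHom.map_det, (hB q).detG htq]
      exact ((hqu q).map _).ne_zero
    have hne : ∀ c : (ResidueField O), ((L.phi q).map (redHom.comp (typeHom (ρ := ρ) hB))).trace ≠ C c := fun c =>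
      hF ▸ trace_ulu_ne (parX_injective q) hG (fun i => residue O ((B q).v i)) c
    refine ⟨fun s hs => hne (2 * s) ?_, fun hq1 hs => ?_⟩
    · rw [hs]
      simp [map_ofNat, mul_two, two_mul]
    set F := (L.phi q).map (redHom.comp (typeHom (ρ := ρ) hB))
    have hd : F.det = (L.qv q : (MvPowerSeries (Par Q ρ) (ResidueField O))) := by
      have := congrArg redHom ((holds_typeHom (ρ := ρ) hB q).det)
      rw [map_natCast] at this
      rw [← this, RingHom.map_det]
      simp [F, RingHom.mapMatrix_apply, Matrix.map_map]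
    have e : ∀ i j, F i 0 * F 0 j + F i 1 * F 1 j = (1 : M₂ (MvPowerSeries (Par Q ρ) (ResidueField O))) i j := fun i j => by
      rw [← hs, Matrix.mul_apply, Fin.sum_univ_two]
    rw [det_fin_two] at hd
    have e00 := e 0 0
    have e01 := e 0 1
    have e10 := e 1 0
    have e11 := e 1 1
    simp only [Matrix.one_apply_eq, Matrix.one_apply_ne (by decide : (0 : Fin 2) ≠ 1),
      Matrix.one_apply_ne (by decide : (1 : Fin 2) ≠ 0)] at e00 e01 e10 e11
    have hne0 : F.trace ≠ 0 := by simpa using hne 0
    rw [trace_fin_two] at hne0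
    have h01 : F 0 1 = 0 := (mul_eq_zero.mp
      (show (F 0 0 + F 1 1) * F 0 1 = 0 by linear_combination e01)).resolve_left hne0
    have h10 : F 1 0 = 0 := (mul_eq_zero.mp
      (show (F 0 0 + F 1 1) * F 1 0 = 0 by linear_combination e10)).resolve_left hne0
    have hdg : F 0 0 = F 1 1 := sub_eq_zero.mp ((mul_eq_zero.mp
      (show (F 0 0 + F 1 1) * (F 0 0 - F 1 1) = 0 by linear_combination e00 - e11)).resolve_left hne0)
    have h1 : F 0 0 * F 0 0 = 1 := by
      rw [h01] at e00
      linear_combination e00
    rcases mul_self_eq_one_iff.mp h1 with h | h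
    · exact hne 2 (by rw [trace_fin_two, ← hdg, h]; simp [map_ofNat]; norm_num)
    · exact hne (-2) (by rw [trace_fin_two, ← hdg, h]; simp [map_ofNat]; norm_num)
  · -- the Steinberg chart
    have hv : (B q).v 2 ∈ maximalIdeal O := v_two_mem (htq ▸ hB q) hsig
    let ψ := (killHom (ρ := ρ) B q hv).comp (typeHom hB)
    refine ⟨redHom.comp ψ, fun f hf => ?_, fun c => ?_, ?_, ?_⟩
    · rw [RingHom.mem_ker, RingHom.comp_apply, RingHom.comp_apply,
        show typeHom hB f = 0 from hf, map_zero, map_zero]
    · simp [ψ, typeHom_C, killHom_C, redHom]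
    · rw [RingHom.coe_comp, ← Matrix.map_map, ← map_sub_one, sig_killHom hB htq hv]
      simp
    have hF : flipB (B q).e ((L.phi q).map (redHom.comp ψ)) =
        flag2 (C (residue O ((B q).v 0)) + X (Sum.inl (q, 0))) (sgn n * (L.qv q : (MvPowerSeries (Par Q ρ) (ResidueField O))))
          (C (residue O ((B q).v 1)) + X (Sum.inl (q, 1))) (sgn n) := by
      rw [RingHom.coe_comp, ← Matrix.map_map, map_phi_parSeries hB _ (killHom_C q hv), htq,
        map_phiForm, phiForm, flipB_unflipB]
      rw [killHom_parSeries q hv q 0 (.inr (by decide)),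
        killHom_parSeries q hv q 1 (.inr (by decide)), redHom_parSeries, redHom_parSeries]
    set b : (MvPowerSeries (Par Q ρ) (ResidueField O)) := C (residue O ((B q).v 1)) + X (Sum.inl (q, 1))
    have hb : b ≠ 0 := C_add_X_ne_zero _ _
    set F := (L.phi q).map (redHom.comp ψ)
    refine ⟨fun s hs => hb ?_, fun hq1 hs => ?_⟩
    · have := congrFun (congrFun hF 0) 1
      rw [hs] at this
      simp [flag2] at this
      rw [← this]
      cases (B q).e <;> simp [flipB, flip2, Matrix.smul_apply, Matrix.one_apply]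
    · have h2 : flipB (B q).e F * flipB (B q).e F = 1 := by
        have hm : ∀ (e : Bool) (X Y : M₂ (MvPowerSeries (Par Q ρ) (ResidueField O))), flipB e X * flipB e Y = flipB e (X * Y) := fun e X Y => by
          rw [← flipB_unflipB e (flipB e X * flipB e Y), ← unflipB_mul, unflipB_flipB,
            unflipB_flipB]
        rw [hm, hs]
        cases (B q).e <;> ext i j <;> fin_cases i <;> fin_cases j <;> simp [flipB, flip2]
      have h01 := congrFun (congrFun h2 0) 1
      rw [hF] at h01
      simp [Matrix.mul_apply, Fin.sum_univ_two, flag2] at h01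
      have hne : (sgn n * ((L.qv q : (MvPowerSeries (Par Q ρ) (ResidueField O))) + 1)) ≠ 0 := by
        refine mul_ne_zero ?_ ?_
        · intro h0
          exact one_ne_zero (α := (MvPowerSeries (Par Q ρ) (ResidueField O))) (by rw [← sgn_mul_self (A := (MvPowerSeries (Par Q ρ) (ResidueField O))) n, h0, mul_zero])
        · intro h0
          apply hq1
          simpa [map_natCast] using congrArg constantCoeff h0
      exact mul_ne_zero hb hne (by linear_combination h01)

section Relation

omit [Fintype Q] [Fintype ρ] [IsAdicComplete (maximalIdeal O) O] [IsDomain O] [IsLocalRing O] in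
theorem mul_eq_pow_mul_iff {R : Type*} [CommRing R] {F S : M₂ R} (htr : S.trace = 2)
    (hd : S.det = 1) (q : ℕ) :
    F * S = S ^ q * F ↔ F * (S - 1) = (q : R) • ((S - 1) * F) := by
  have hsq : (S - 1) * (S - 1) = 0 := by
    rw [trace_fin_two] at htr
    rw [det_fin_two] at hd
    ext i j
    fin_cases i <;> fin_cases j <;> simp [Matrix.mul_apply, Fin.sum_univ_two]
    · linear_combination S 0 0 * htr - hd
    · linear_combination S 0 1 * htr
    · linear_combination S 1 0 * htr
    · linear_combination S 1 1 * htr - hd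
  have hpow : ∀ m : ℕ, S ^ m = 1 + (m : R) • (S - 1) := fun m => by
    induction m with
    | zero => simp
    | succ m ih =>
      rw [pow_succ, ih, show S = 1 + (S - 1) by abel]
      simp only [mul_add, add_mul, mul_one, one_mul, smul_mul_assoc, hsq, smul_zero, add_zero,
        add_sub_cancel_left, Nat.cast_succ, add_smul, one_smul]
      abel
  rw [hpow, add_mul, one_mul, smul_mul_assoc, mul_sub, mul_one, sub_eq_iff_eq_add']

variable (L) in
/-- The generators of the relations, in the tame form `Φ Σ = Σ ^ q Φ`. -/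
def tameSet (q : Q) : Set (MvPowerSeries (Var Q ρ) O) :=
  {(L.phi q).det - (L.qv q : MvPowerSeries (Var Q ρ) O), (L.sig q).trace - 2, (L.sig q).det - 1} ∪
    Set.range fun x : Fin 2 × Fin 2 =>
      ((L.phi q * L.sig q - L.sig q ^ L.qv q * L.phi q) : M₂ (MvPowerSeries (Var Q ρ) O)) x.1 x.2

omit [Fintype Q] [Fintype ρ] [IsAdicComplete (maximalIdeal O) O] [IsDomain O] [IsLocalRing O] in
/-- The relations are the tame relation with fixed determinant and inertia of trace two. -/
theorem relIdeal_eq_tame :
    L.relIdeal (ρ := ρ) = Ideal.span (⋃ q, tameSet L q) := by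
  classical
  have key : ∀ (W : Ideal (MvPowerSeries (Var Q ρ) O)) (q : Q),
      (L.relSet (ρ := ρ) q ⊆ (W : Set _) ↔ tameSet (ρ := ρ) L q ⊆ (W : Set _)) := by
    intro W q
    let π := Ideal.Quotient.mk W
    have hmem : ∀ x, x ∈ W ↔ π x = 0 := fun x => Ideal.Quotient.eq_zero_iff_mem.symm
    have hmat : ∀ M : M₂ (MvPowerSeries (Var Q ρ) O),
        (Set.range fun x : Fin 2 × Fin 2 => M x.1 x.2) ⊆ W ↔ M.map π = 0 := fun M => by
      rw [Set.range_subset_iff]
      exact ⟨fun h => Matrix.ext fun i j => (hmem _).mp (h (i, j)),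
        fun h x => (hmem _).mpr (congrFun (congrFun h x.1) x.2)⟩
    have hscal : ∀ (S : Set (MvPowerSeries (Var Q ρ) O)) (T : Set (MvPowerSeries (Var Q ρ) O)),
        S ∪ T ⊆ W ↔ S ⊆ W ∧ T ⊆ W := fun S T => Set.union_subset_iff
    simp only [LocalData.relSet, tameSet, hscal, hmat]
    refine and_congr_right fun h => ?_
    simp only [Set.insert_subset_iff, Set.singleton_subset_iff, SetLike.mem_coe, hmem,
      map_sub, sub_eq_zero, map_ofNat, map_one] at h
    have htr : ((L.sig q).map π).trace = 2 := by rw [← h.2.1]; simp [Matrix.trace]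
    have hdet : ((L.sig q).map π).det = 1 := by
      rw [← h.2.2, RingHom.map_det, RingHom.mapMatrix_apply]
    rw [← RingHom.mapMatrix_apply, ← RingHom.mapMatrix_apply, map_sub, map_sub, map_mul,
      map_mul, map_mul, map_pow, map_sub, map_one, sub_eq_zero, sub_eq_zero]
    rw [mul_eq_pow_mul_iff (F := (RingHom.mapMatrix π) (L.phi q))
      (S := (RingHom.mapMatrix π) (L.sig q)) htr hdet (L.qv q)]
    simp [Matrix.map_smul', map_natCast, map_sub_one]
  unfold LocalData.relIdeal
  refine le_antisymm ?_ ?_ <;> rw [Ideal.span_le] <;> refine Set.iUnion_subset fun q => ?_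
  · exact (key _ q).mpr ((Set.subset_iUnion (fun q => tameSet L q) q).trans Ideal.subset_span)
  · exact (key _ q).mp ((Set.subset_iUnion (fun q => L.relSet q) q).trans Ideal.subset_span)

end Relation

end FA.LocalComp
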