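import Mathlib.LinearAlgebra.Matrix.Charpoly.Coeff
import Mathlib.LinearAlgebra.Matrix.Determinant.Basic
import Mathlib.LinearAlgebra.Matrix.NonsingularInverse
import Mathlib.Tactic.LinearCombination
import Mathlib.Tactic.FieldSimp

/-!
# Pairs of `2 × 2` matrices at a Steinberg place

Frobenius `Φ` and the nilpotent `N = Σ - 1` with `det Φ = q`, `Φ N = q N Φ`; triangular
coordinates along a fixed line.
-/

set_option autoImplicit false

noncomputable section

namespace FA.LocalComp

open Matrix

local notation "M₂" => Matrix (Fin 2) (Fin 2)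

section Ring

variable {A : Type*} [CommRing A]

/-- The matrix fixing the line of `(1, w)` with eigenvalue `a`, upper right entry `b`, other
eigenvalue `d`. -/
def flag2 (w a b d : A) : M₂ A :=
  !![a - b * w, b; (a - d) * w - b * w ^ 2, b * w + d]

/-- Conjugation by `(1 1; 0 1)`. -/
def flip2 (M : M₂ A) : M₂ A :=
  !![M 0 0 + M 1 0, M 0 1 + M 1 1 - M 0 0 - M 1 0; M 1 0, M 1 1 - M 1 0]

/-- Conjugation by `(1 -1; 0 1)`. -/
def unflip2 (M : M₂ A) : M₂ A :=
  !![M 0 0 - M 1 0, M 0 0 - M 1 0 + M 0 1 - M 1 1; M 1 0, M 1 0 + M 1 1]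

/-- Optional conjugation. -/
def unflipB (e : Bool) (M : M₂ A) : M₂ A := if e then unflip2 M else M

/-- Optional conjugation. -/
def flipB (e : Bool) (M : M₂ A) : M₂ A := if e then flip2 M else M

/-- The product of three elementary matrices. -/
def ulu (a b c : A) : M₂ A := !![1 + a * b, a + c + a * b * c; b, 1 + b * c]

theorem det_ulu (a b c : A) : (ulu a b c).det = 1 := by
  simp [ulu, det_fin_two]; ring

theorem trace_flag2 (w a b d : A) : (flag2 w a b d).trace = a + d := by
  simp [flag2, trace_fin_two]; ring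

theorem det_flag2 (w a b d : A) : (flag2 w a b d).det = a * d := by
  simp [flag2, det_fin_two]; ring

theorem flag2_mul (w a b d t : A) :
    flag2 w a b d * flag2 w 0 t 0 = a • flag2 w 0 t 0 ∧
      flag2 w 0 t 0 * flag2 w a b d = d • flag2 w 0 t 0 := by
  constructor <;> ext i j <;> fin_cases i <;> fin_cases j <;>
    simp [flag2, Matrix.mul_apply, Fin.sum_univ_two] <;> ring

theorem trace_unflipB (e : Bool) (M : M₂ A) : (unflipB e M).trace = M.trace := by
  cases e
  · rfl
  · simp [unflipB, unflip2, trace_fin_two]; ring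

theorem det_unflipB (e : Bool) (M : M₂ A) : (unflipB e M).det = M.det := by
  cases e
  · rfl
  · simp [unflipB, unflip2, det_fin_two]; ring

theorem unflipB_mul (e : Bool) (M N : M₂ A) : unflipB e M * unflipB e N = unflipB e (M * N) := by
  cases e
  · rfl
  · ext i j
    fin_cases i <;> fin_cases j <;>
      simp [unflipB, unflip2, Matrix.mul_apply, Fin.sum_univ_two] <;> ring

theorem unflipB_smul (e : Bool) (c : A) (M : M₂ A) : unflipB e (c • M) = c • unflipB e M := by
  cases e
  · rfl
  · ext i j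
    fin_cases i <;> fin_cases j <;> simp [unflipB, unflip2] <;> ring

theorem unflipB_flipB (e : Bool) (M : M₂ A) : unflipB e (flipB e M) = M := by
  cases e
  · rfl
  · ext i j
    fin_cases i <;> fin_cases j <;> simp [unflipB, flipB, unflip2, flip2]; try ring

theorem unflipB_zero (e : Bool) : unflipB e (0 : M₂ A) = 0 := by
  cases e
  · rfl
  · ext i j
    fin_cases i <;> fin_cases j <;> simp [unflipB, unflip2]

theorem map_flag2 {B : Type*} [CommRing B] (f : A →+* B) (w a b d : A) :
    (flag2 w a b d).map f = flag2 (f w) (f a) (f b) (f d) := by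
  ext i j
  fin_cases i <;> fin_cases j <;> simp [flag2]

theorem map_unflipB {B : Type*} [CommRing B] (f : A →+* B) (e : Bool) (M : M₂ A) :
    (unflipB e M).map f = unflipB e (M.map f) := by
  cases e
  · rfl
  · ext i j
    fin_cases i <;> fin_cases j <;> simp [unflipB, unflip2]

theorem map_flipB {B : Type*} [CommRing B] (f : A →+* B) (e : Bool) (M : M₂ A) :
    (flipB e M).map f = flipB e (M.map f) := by
  cases e
  · rfl
  · ext i j
    fin_cases i <;> fin_cases j <;> simp [flipB, flip2]

theorem map_ulu {B : Type*} [CommRing B] (f : A →+* B) (a b c : A) :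
    (ulu a b c).map f = ulu (f a) (f b) (f c) := by
  ext i j
  fin_cases i <;> fin_cases j <;> simp [ulu]

/-- Moving the slope `w` of a flipped matrix back. -/
theorem unflip2_flag2 (w a b d u : A) (hu : (1 - w) * u = 1) :
    unflip2 (flag2 w a b d) =
      flag2 (w * u) a ((1 - w) ^ 2 * b + (1 - w) * (a - d)) d := by
  have h2 : (1 - w) ^ 2 * u = 1 - w := by linear_combination (1 - w) * hu
  ext i j
  fin_cases i <;> fin_cases j <;> simp [unflip2, flag2]
  · linear_combination (b * w) * h2 + ((a - d) * w) * hu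
  · ring
  · linear_combination (b * w ^ 2) * ((1 - w) * u + 1) * hu +
      ((a - d) * w ^ 2 * u - (a - d) * w) * hu
  · linear_combination (-(b * w)) * h2 + (-((a - d) * w)) * hu

/-- `M (e₁, e₂) = a (e₁, e₂)`. -/
def Eig2 (M : M₂ A) (a e₁ e₂ : A) : Prop :=
  M 0 0 * e₁ + M 0 1 * e₂ = a * e₁ ∧ M 1 0 * e₁ + M 1 1 * e₂ = a * e₂

theorem Eig2.flip {M : M₂ A} {a e₁ e₂ : A} (h : Eig2 M a e₁ e₂) :
    Eig2 (flip2 M) a (e₁ + e₂) e₂ := by
  constructor <;> simp [flip2]
  · linear_combination h.1 + h.2
  · linear_combination h.2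

theorem trace_flipB (e : Bool) (M : M₂ A) : (flipB e M).trace = M.trace := by
  cases e
  · rfl
  · simp [flipB, flip2, trace_fin_two]

theorem ulu_zero_one_zero : ulu (0 : A) 1 0 = !![1, 0; 1, 1] := by
  simp [ulu]

/-- Coordinates on matrices of determinant one with unit lower left entry. -/
theorem eq_ulu_of_det_eq_one {M : M₂ A} (hM : M.det = 1) {v : A} (hv : M 1 0 * v = 1) :
    M = ulu ((M 0 0 - 1) * v) (M 1 0) ((M 1 1 - 1) * v) := by
  rw [det_fin_two] at hM
  ext i j
  fin_cases i <;> fin_cases j <;> simp [ulu]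
  · linear_combination (-(M 0 0 - 1)) * hv
  · linear_combination (-v) * hM +
      (-(M 0 1) - (M 0 0 - 1) * (M 1 1 - 1) * v) * hv
  · linear_combination (-(M 1 1 - 1)) * hv

end Ring

section Field

variable {K : Type*} [Field K]

theorem Eig2.eq_flag2 {M : M₂ K} {a d e₁ e₂ : K} (h : Eig2 M a e₁ e₂) (ht : M.trace = a + d)
    (he : e₁ ≠ 0) : M = flag2 (e₂ / e₁) a (M 0 1) d := by
  obtain ⟨h1, h2⟩ := h
  rw [trace_fin_two] at ht
  have hd : d = M 0 0 + M 1 1 - a := by linear_combination -ht
  subst hd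
  ext i j
  fin_cases i <;> fin_cases j <;> simp [flag2]
  · field_simp
    linear_combination h1
  · field_simp
    linear_combination e₁ * h2 - (e₂) * 0 + e₂ * h1
  · field_simp
    linear_combination -h1

/-- The kernel of a nonzero nilpotent matrix. -/
theorem exists_kernel {N : M₂ K} (ht : N.trace = 0) (hd : N.det = 0) (hN : N ≠ 0) :
    (N 0 1 ≠ 0 ∧ N 1 1 = -N 0 0 ∧ N 1 0 * N 0 1 = -(N 0 0 * N 0 0)) ∨
      (N 0 1 = 0 ∧ N 0 0 = 0 ∧ N 1 1 = 0 ∧ N 1 0 ≠ 0) := by
  rw [trace_fin_two] at ht
  rw [det_fin_two] at hd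
  have h11 : N 1 1 = -N 0 0 := by linear_combination ht
  by_cases hy : N 0 1 = 0
  · right
    have h00 : N 0 0 = 0 := by
      have : N 0 0 * N 0 0 = 0 := by
        rw [hy, h11] at hd
        linear_combination -hd
      exact mul_self_eq_zero.mp this
    refine ⟨hy, h00, by rw [h11, h00, neg_zero], fun hz => hN ?_⟩
    ext i j
    fin_cases i <;> fin_cases j <;> simp [hy, h00, h11, hz]
  · left
    refine ⟨hy, h11, ?_⟩
    rw [h11] at hd
    linear_combination -hd

/-- A ramified Steinberg pair has a sign. -/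
theorem exists_sign {Φ N : M₂ K} {q : K} (hq : q ≠ 0) (hdet : Φ.det = q) (ht : N.trace = 0)
    (hd : N.det = 0) (hN : N ≠ 0) (hrel : Φ * N = q • (N * Φ)) :
    ∃ s : K, (s = 1 ∨ s = -1) ∧ Φ.trace = s * (q + 1) ∧ Φ * N = (s * q) • N := by
  have e : ∀ i j, Φ i 0 * N 0 j + Φ i 1 * N 1 j = q * (N i 0 * Φ 0 j + N i 1 * Φ 1 j) := fun i j => by
    have := congrFun (congrFun hrel i) j
    simpa [Matrix.mul_apply, Fin.sum_univ_two] using this
  rw [det_fin_two] at hdet
  suffices h : ∃ μ : K, μ * μ * q = q ∧ Φ.trace = μ * (q + 1) ∧ Φ * N = (μ * q) • N by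
    obtain ⟨μ, h1, h2, h3⟩ := h
    have : μ * μ = 1 := mul_right_cancel₀ hq (by rw [h1, one_mul])
    exact ⟨μ, mul_self_eq_one_iff.mp this, h2, h3⟩
  rcases exists_kernel ht hd hN with ⟨hy, h11, hz⟩ | ⟨hy, h00, h11, hz⟩
  · set x := N 0 0
    set y := N 0 1
    refine ⟨(Φ 1 1 * y + Φ 0 1 * x) / y, ?_⟩
    set μ := (Φ 1 1 * y + Φ 0 1 * x) / y with hμ
    have hμy : μ * y = Φ 1 1 * y + Φ 0 1 * x := by rw [hμ, div_mul_cancel₀ _ hy]
    have e01 := e 0 1
    have e11 := e 1 1
    rw [h11] at e01 e11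
    have hA : Φ 0 0 * y - Φ 0 1 * x = μ * q * y := by linear_combination e01 - q * hμy
    have hC : Φ 1 0 * y - Φ 1 1 * x = -(μ * q * x) := by
      have hzy : N 1 0 * y = -(x * x) := hz
      apply mul_right_cancel₀ hy
      linear_combination y * e11 + q * Φ 0 1 * hzy + q * x * hμy
    have hcol : ∀ i, Φ i 0 * y - Φ i 1 * x = μ * q * N i 1 := fun i => by
      fin_cases i
      · exact hA
      · simp [h11]; linear_combination hC
    refine ⟨?_, ?_, ?_⟩
    · apply mul_right_cancel₀ (mul_ne_zero hy hy)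
      linear_combination (y * y) * hdet + (μ * q * y) * hμy + (-(Φ 1 1) * y) * hA + (Φ 0 1 * y) * hC
    · rw [trace_fin_two]
      apply mul_right_cancel₀ hy
      linear_combination hA - hμy
    · ext i j
      rw [Matrix.mul_apply, Fin.sum_univ_two, Matrix.smul_apply, smul_eq_mul]
      fin_cases j
      · simp only [Fin.zero_eta, Fin.isValue]
        apply mul_right_cancel₀ hy
        have hzy : N 1 0 * y = -(x * x) := hz
        have hNi : N i 0 * y = N i 1 * x := by
          fin_cases i
          · simp [x, y]; ring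
          · simp [h11]; linear_combination hzy
        linear_combination x * hcol i + Φ i 1 * hzy - μ * q * hNi
      · simp only [Fin.mk_one, Fin.isValue]
        rw [h11]
        linear_combination hcol i
  · refine ⟨Φ 0 0, ?_⟩
    have hb : Φ 0 1 = 0 := by
      have := e 0 0
      rw [h00, hy] at this
      simp at this
      rcases this with h | h
      · exact h
      · exact absurd h hz
    have hdd : Φ 1 1 = q * Φ 0 0 := by
      have := e 1 0
      rw [h00, h11] at this
      apply mul_right_cancel₀ hz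
      linear_combination this
    refine ⟨?_, ?_, ?_⟩
    · rw [hb, hdd] at hdet
      linear_combination hdet
    · rw [trace_fin_two, hdd]; ring
    · ext i j
      fin_cases i <;> fin_cases j <;>
        simp [Matrix.mul_apply, Fin.sum_univ_two, hy, h00, h11, hb, hdd] <;> ring_nf <;> simp

/-- The common line of a Steinberg pair. -/
theorem exists_eig {Φ N : M₂ K} {q s : K} (hs : s * s = 1) (hdet : Φ.det = q) (ht : N.trace = 0)
    (hd : N.det = 0) (htr : Φ.trace = s * (q + 1)) (hrel : Φ * N = (s * q) • N) :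
    ∃ e₁ e₂ : K, (e₁ ≠ 0 ∨ e₂ ≠ 0) ∧ Eig2 Φ (s * q) e₁ e₂ ∧ Eig2 N 0 e₁ e₂ := by
  have e : ∀ i j, Φ i 0 * N 0 j + Φ i 1 * N 1 j = s * q * N i j := fun i j => by
    have := congrFun (congrFun hrel i) j
    simpa [Matrix.mul_apply, Fin.sum_univ_two] using this
  by_cases hN : N = 0
  · have hsing : (Φ 0 0 - s * q) * (Φ 1 1 - s * q) - Φ 0 1 * Φ 1 0 = 0 := by
      rw [trace_fin_two] at htr
      rw [det_fin_two] at hdet
      linear_combination hdet - s * q * htr + (-q) * hs
    have hN0 : ∀ e₁ e₂ : K, Eig2 N 0 e₁ e₂ := fun e₁ e₂ => by simp [hN, Eig2]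
    by_cases hb : Φ 0 1 = 0
    · by_cases ha : Φ 0 0 - s * q = 0
      · by_cases hc : Φ 1 1 - s * q = 0 ∧ Φ 1 0 = 0
        · refine ⟨1, 0, .inl one_ne_zero, ⟨?_, ?_⟩, hN0 _ _⟩
          · linear_combination ha
          · linear_combination hc.2
        · refine ⟨Φ 1 1 - s * q, -Φ 1 0, ?_, ⟨?_, ?_⟩, hN0 _ _⟩
          · by_contra h
            push Not at h
            exact hc ⟨h.1, neg_eq_zero.mp h.2⟩
          · rw [hb]; linear_combination (Φ 1 1 - s * q) * ha
          · ring
      · refine ⟨0, 1, .inr one_ne_zero, ⟨?_, ?_⟩, hN0 _ _⟩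
        · rw [hb]; ring
        · have : Φ 1 1 - s * q = 0 := by
            rw [hb, zero_mul, sub_zero] at hsing
            exact (mul_eq_zero.mp hsing).resolve_left ha
          linear_combination this
    · refine ⟨Φ 0 1, -(Φ 0 0 - s * q), .inl hb, ⟨?_, ?_⟩, hN0 _ _⟩
      · ring
      · linear_combination -hsing
  rcases exists_kernel ht hd hN with ⟨hy, h11, hz⟩ | ⟨hy, h00, h11, hz⟩
  · refine ⟨N 0 1, -N 0 0, .inl hy, ⟨?_, ?_⟩, ⟨?_, ?_⟩⟩
    · have := e 0 1
      rw [h11] at this
      linear_combination this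
    · have := e 1 1
      rw [h11] at this
      linear_combination this
    · ring
    · rw [h11]; linear_combination hz
  · refine ⟨0, 1, .inr one_ne_zero, ⟨?_, ?_⟩, ⟨?_, ?_⟩⟩
    · have := e 0 0
      rw [h00, mul_zero, zero_add, mul_zero] at this
      have := (mul_eq_zero.mp this).resolve_right hz
      rw [this]; ring
    · have := e 1 0
      rw [h00, mul_zero, zero_add] at this
      linear_combination mul_right_cancel₀ hz this
    · rw [hy]; ring
    · rw [h11]; ring

end Field

end FA.LocalComp
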