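import Fermat.Agent.LocalComp.Components
import Fermat.Agent.Patch.Limit
import Fermat.Prelude.Thm_IsAdicComplete_of_module_finite
import Mathlib.RingTheory.Ideal.GoingUp

/-!
# Parameters of the local quotient

Three parameters at every place, together with the free variables and the coefficients, generate
an ideal whose radical modulo the relations is the maximal ideal. So the quotient by the relations
is finite over every complete ring hitting them.
-/

set_option autoImplicit false

noncomputable section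

open MvPowerSeries IsLocalRing Matrix

namespace FA.LocalComp

local notation "M₂" => Matrix (Fin 2) (Fin 2)

section Constant

variable {D : Type*} [CommRing D] [IsDomain D] {R : Subring D} (m : Ideal D)
  (hsmall : ∀ x ∈ R, x ∈ m → x = 0) (hinv : ∀ x y, x ∈ R → x * y = 1 → y ∈ R)

include hinv in
theorem mem_of_mul_mem {x y : D} (hx : x ∈ R) (hu : IsUnit x) (h : x * y ∈ R) : y ∈ R := by
  obtain ⟨v, hv⟩ := isUnit_iff_exists_inv.mp hu
  rw [show y = v * (x * y) by linear_combination (-y) * hv]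
  exact mul_mem (hinv x v hx hv) h

omit [IsDomain D] in
theorem pair_forms {a b : Fin 2} (hab : a ≠ b) (M : M₂ D) :
    M.trace = M a a + M b b ∧ M.det = M a a * M b b - M a b * M b a ∧
      ∀ (N : M₂ D) i j, (M * N) i j = M i a * N a j + M i b * N b j := by
  fin_cases a <;> fin_cases b
  · exact absurd rfl hab
  · exact ⟨trace_fin_two M, det_fin_two M, fun N i j => by simp [Matrix.mul_apply]⟩
  · refine ⟨(trace_fin_two M).trans (add_comm _ _), (det_fin_two M).trans ?_, fun N i j => ?_⟩
    · simp; ring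
    · simp [Matrix.mul_apply, add_comm]
  · exact absurd rfl hab

theorem forall_fin_two_of_ne {a b : Fin 2} (hab : a ≠ b) {p : Fin 2 → Fin 2 → Prop} (haa : p a a)
    (hab' : p a b) (hba : p b a) (hbb : p b b) : ∀ i j, p i j := by
  fin_cases a <;> fin_cases b <;> first
    | exact absurd rfl hab
    | (intro i j; fin_cases i <;> fin_cases j <;> assumption)

/-- At a ramified place three entries determine all. -/
theorem mem_of_ramified (hinv : ∀ x y, x ∈ R → x * y = 1 → y ∈ R) {F N : M₂ D} {q s : D}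
    (hq : q ∈ R) (hs : s ∈ R) (htN : N.trace = 0) (hdN : N.det = 0)
    (htr : F.trace = s * (q + 1)) (hrel : F * N = (s * q) • N) {a b : Fin 2} (hab : a ≠ b)
    (hu : IsUnit (N a b)) (h₁ : N a a ∈ R) (h₂ : N a b ∈ R) (h₃ : F a b ∈ R) :
    ∀ i j, F i j ∈ R ∧ N i j ∈ R := by
  obtain ⟨htrN', hdN', -⟩ := pair_forms hab N
  obtain ⟨htr', -, hmul⟩ := pair_forms hab F
  have e : ∀ i j, F i a * N a j + F i b * N b j = s * q * N i j := fun i j => by
    rw [← hmul, hrel, Matrix.smul_apply, smul_eq_mul]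
  rw [htrN'] at htN
  rw [hdN'] at hdN
  rw [htr'] at htr
  have hbb : N b b ∈ R := by
    rw [show N b b = -N a a by linear_combination htN]; exact neg_mem h₁
  have hba : N b a ∈ R := by
    refine mem_of_mul_mem hinv h₂ hu ?_
    rw [show N a b * N b a = N a a * N b b by linear_combination (-hdN)]
    exact mul_mem h₁ hbb
  have haa : F a a ∈ R := by
    refine mem_of_mul_mem hinv h₂ hu ?_
    rw [show N a b * F a a = s * q * N a b - F a b * N b b by linear_combination e a b]
    exact sub_mem (mul_mem (mul_mem hs hq) h₂) (mul_mem h₃ hbb)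
  have hfbb : F b b ∈ R := by
    rw [show F b b = s * (q + 1) - F a a by linear_combination htr]
    exact sub_mem (mul_mem hs (add_mem hq (one_mem R))) haa
  have hfba : F b a ∈ R := by
    refine mem_of_mul_mem hinv h₂ hu ?_
    rw [show N a b * F b a = s * q * N b b - F b b * N b b by linear_combination e b b]
    exact sub_mem (mul_mem (mul_mem hs hq) hbb) (mul_mem hfbb hbb)
  exact forall_fin_two_of_ne hab ⟨haa, h₁⟩ ⟨h₃, h₂⟩ ⟨hfba, hba⟩ ⟨hfbb, hbb⟩

include hsmall hinv in
/-- Unramified residue, off diagonal Frobenius entry a unit. -/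
theorem mem_of_offdiag {F N : M₂ D} {q : D} (hq : q ∈ R) (hdet : F.det = q)
    (htN : N.trace = 0)
    (hty : N = 0 ∨ ∃ s : D, s ∈ R ∧ F.trace = s * (q + 1) ∧ F * N = (s * q) • N)
    (hN : ∀ i j, N i j ∈ m) {a b : Fin 2} (hab : a ≠ b) (hu : IsUnit (F a b))
    (h₁ : F a a ∈ R) (h₂ : F a b ∈ R) (h₃ : F b b + N a b ∈ R) :
    ∀ i j, F i j ∈ R ∧ N i j ∈ R := by
  obtain ⟨htrN', -, -⟩ := pair_forms hab N
  obtain ⟨htr', hdet', hmul⟩ := pair_forms hab F
  rw [htrN'] at htN
  rw [hdet'] at hdet
  have key : F b b ∈ R ∧ ∀ i j, N i j = 0 := by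
    rcases hty with rfl | ⟨s, hs, htr, hrel⟩
    · exact ⟨by simpa using h₃, fun i j => rfl⟩
    have e : ∀ i j, F i a * N a j + F i b * N b j = s * q * N i j := fun i j => by
      rw [← hmul, hrel, Matrix.smul_apply, smul_eq_mul]
    rw [htr'] at htr
    have hfbb : F b b ∈ R := by
      rw [show F b b = s * (q + 1) - F a a by linear_combination htr]
      exact sub_mem (mul_mem hs (add_mem hq (one_mem R))) h₁
    have hab0 : N a b = 0 := hsmall _ (by simpa using sub_mem h₃ hfbb) (hN a b)
    have hbb0 : N b b = 0 := by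
      refine (mul_eq_zero.mp (?_ : F a b * N b b = 0)).resolve_left hu.ne_zero
      linear_combination e a b + (s * q - F a a) * hab0
    have haa0 : N a a = 0 := by linear_combination htN - hbb0
    have hba0 : N b a = 0 := by
      refine (mul_eq_zero.mp (?_ : F a b * N b a = 0)).resolve_left hu.ne_zero
      linear_combination e a a + (s * q - F a a) * haa0
    exact ⟨hfbb, forall_fin_two_of_ne hab haa0 hab0 hba0 hbb0⟩
  obtain ⟨hfbb, hN0⟩ := key
  have hfba : F b a ∈ R := by
    refine mem_of_mul_mem hinv h₂ hu ?_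
    rw [show F a b * F b a = F a a * F b b - q by linear_combination (-hdet)]
    exact sub_mem (mul_mem h₁ hfbb) hq
  exact fun i j => ⟨forall_fin_two_of_ne hab (p := fun i j => F i j ∈ R) h₁ h₂ hfba hfbb i j,
    by rw [hN0]; exact zero_mem R⟩

include hsmall hinv in
/-- Unramified residue, diagonal Frobenius with distinct entries. -/
theorem mem_of_diag {F N : M₂ D} {q : D} (hq : q ∈ R) (hqu : IsUnit q) (hdet : F.det = q)
    (htN : N.trace = 0)
    (hty : N = 0 ∨ ∃ s : D, s * s = 1 ∧ s ∈ R ∧ F.trace = s * (q + 1) ∧ F * N = (s * q) • N)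
    (hd : F 0 0 - F 1 1 ∉ m) (hF01 : F 0 1 ∈ m) (hF10 : F 1 0 ∈ m) (hN : ∀ i j, N i j ∈ m)
    (h₁ : F 0 1 ∈ R) (h₂ : F 1 0 ∈ R) (h₃ : F 0 0 + N 0 1 + N 1 0 ∈ R) :
    ∀ i j, F i j ∈ R ∧ N i j ∈ R := by
  have h01 := hsmall _ h₁ hF01
  have h10 := hsmall _ h₂ hF10
  rw [trace_fin_two] at htN
  rw [det_fin_two, h01, zero_mul, sub_zero] at hdet
  have key : F 0 0 ∈ R ∧ ∀ i j, N i j = 0 := by
    rcases hty with rfl | ⟨s, hs2, hs, htr, hrel⟩
    · exact ⟨by simpa using h₃, fun i j => rfl⟩
    have e : ∀ i j, F i 0 * N 0 j + F i 1 * N 1 j = s * q * N i j := fun i j => by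
      have := congrFun (congrFun hrel i) j
      simpa [Matrix.mul_apply, Fin.sum_univ_two] using this
    rw [trace_fin_two] at htr
    have hroot : (F 0 0 - s * q) * (F 0 0 - s) = 0 := by
      linear_combination F 0 0 * htr - hdet + q * hs2
    have hf00 : F 0 0 ∈ R := by
      rcases mul_eq_zero.mp hroot with h | h <;> rw [sub_eq_zero.mp h]
      · exact mul_mem hs hq
      · exact hs
    have hsum : N 0 1 + N 1 0 = 0 :=
      hsmall _ (by simpa [add_assoc] using sub_mem h₃ hf00) (add_mem (hN 0 1) (hN 1 0))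
    refine ⟨hf00, ?_⟩
    have e00 := e 0 0
    have e01 := e 0 1
    have e10 := e 1 0
    have e11 := e 1 1
    rw [h01, zero_mul, add_zero] at e00 e01
    rw [h10, zero_mul, zero_add] at e10 e11
    have hor : (N 0 0 = 0 ∧ N 0 1 = 0) ∨ (N 1 0 = 0 ∧ N 1 1 = 0) := by
      rcases eq_or_ne (F 0 0 - s * q) 0 with h | h
      · right
        have hne : F 1 1 - s * q ≠ 0 := fun h' => hd (by
          rw [show F 0 0 - F 1 1 = 0 by linear_combination h - h']
          exact zero_mem m)
        exact ⟨(mul_eq_zero.mp (show (F 1 1 - s * q) * N 1 0 = 0 by linear_combination e10)).resolve_left hne,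
          (mul_eq_zero.mp (show (F 1 1 - s * q) * N 1 1 = 0 by linear_combination e11)).resolve_left hne⟩
      · left
        exact ⟨(mul_eq_zero.mp (show (F 0 0 - s * q) * N 0 0 = 0 by linear_combination e00)).resolve_left h,
          (mul_eq_zero.mp (show (F 0 0 - s * q) * N 0 1 = 0 by linear_combination e01)).resolve_left h⟩
    intro i j
    rcases hor with ⟨h1, h2⟩ | ⟨h1, h2⟩
    · rw [h2, zero_add] at hsum
      rw [h1, zero_add] at htN
      fin_cases i <;> fin_cases j <;> assumption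
    · rw [h1, add_zero] at hsum
      rw [h2, add_zero] at htN
      fin_cases i <;> fin_cases j <;> assumption
  obtain ⟨hf00, hN0⟩ := key
  have hf11 : F 1 1 ∈ R :=
    mem_of_mul_mem hinv hf00 (isUnit_of_mul_isUnit_left (hdet ▸ hqu)) (hdet ▸ hq)
  intro i j
  refine ⟨?_, by rw [hN0]; exact zero_mem R⟩
  fin_cases i <;> fin_cases j <;> assumption

include hsmall hinv in
/-- Unramified residue, scalar Frobenius. -/
theorem mem_of_scalar {F N : M₂ D} {q : D} (hq : q ∈ R) (hqu : IsUnit q) (hdet : F.det = q)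
    (htN : N.trace = 0) (hdN : N.det = 0)
    (hty : N = 0 ∨ ∃ s : D, s * s = 1 ∧ s ∈ R ∧ F.trace = s * (q + 1) ∧ F * N = (s * q) • N)
    (hd : F 0 0 - F 1 1 ∈ m) (hF01 : F 0 1 ∈ m) (hF10 : F 1 0 ∈ m) (hN : ∀ i j, N i j ∈ m)
    (h₁ : F 0 0 ∈ R) (h₂ : F 0 1 + N 1 0 ∈ R) (h₃ : F 1 0 + N 0 1 ∈ R) :
    ∀ i j, F i j ∈ R ∧ N i j ∈ R := by
  have hx := hsmall _ h₂ (add_mem hF01 (hN 1 0))
  have hy := hsmall _ h₃ (add_mem hF10 (hN 0 1))
  rw [trace_fin_two] at htN
  rw [det_fin_two] at hdet hdN
  have key : F 1 1 ∈ R ∧ F 0 1 = 0 ∧ F 1 0 = 0 ∧ ∀ i j, N i j = 0 := by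
    rcases hty with rfl | ⟨s, hs2, hs, htr, hrel⟩
    · simp only [Matrix.zero_apply, add_zero] at hx hy
      rw [hx, zero_mul, sub_zero] at hdet
      exact ⟨mem_of_mul_mem hinv h₁ (isUnit_of_mul_isUnit_left (hdet ▸ hqu)) (hdet ▸ hq), hx, hy,
        fun i j => rfl⟩
    have e : ∀ i j, F i 0 * N 0 j + F i 1 * N 1 j = s * q * N i j := fun i j => by
      have := congrFun (congrFun hrel i) j
      simpa [Matrix.mul_apply, Fin.sum_univ_two] using this
    rw [trace_fin_two] at htr
    have hf11 : F 1 1 ∈ R := by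
      rw [show F 1 1 = s * (q + 1) - F 0 0 by linear_combination htr]
      exact sub_mem (mul_mem hs (add_mem hq (one_mem R))) h₁
    have heq : F 0 0 = F 1 1 := sub_eq_zero.mp (hsmall _ (sub_mem h₁ hf11) hd)
    have hxy : F 0 1 * F 1 0 = 0 := by
      refine hsmall _ ?_ (m.mul_mem_left _ hF10)
      rw [show F 0 1 * F 1 0 = F 0 0 * F 1 1 - q by linear_combination (-hdet)]
      exact sub_mem (mul_mem h₁ hf11) hq
    have hsq : (F 0 0 - s) * (F 0 0 - s) = 0 := by
      linear_combination hdet + hxy + (F 0 0 - s) * heq - s * htr - q * hs2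
    have hfs : F 0 0 = s := sub_eq_zero.mp (mul_self_eq_zero.mp hsq)
    have hq1 : q = 1 := by
      linear_combination -hdet - hxy + hs2 + (F 1 1 + s) * hfs - s * heq
    have e00 := e 0 0
    have e11 := e 1 1
    have hx2 : F 0 1 * F 0 1 = 0 := by
      linear_combination -e00 + N 0 0 * hfs + F 0 1 * hx - s * N 0 0 * hq1
    have hy2 : F 1 0 * F 1 0 = 0 := by
      linear_combination -e11 + N 1 1 * hfs - N 1 1 * heq + F 1 0 * hy - s * N 1 1 * hq1
    have hx0 := mul_self_eq_zero.mp hx2
    have hy0 := mul_self_eq_zero.mp hy2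
    rw [hx0, zero_add] at hx
    rw [hy0, zero_add] at hy
    have h00 : N 0 0 = 0 := mul_self_eq_zero.mp (by
      rw [hy, zero_mul, sub_zero] at hdN
      linear_combination -hdN + N 0 0 * htN)
    have h11 : N 1 1 = 0 := by rwa [h00, zero_add] at htN
    exact ⟨hf11, hx0, hy0, fun i j => by fin_cases i <;> fin_cases j <;> assumption⟩
  obtain ⟨hf11, hx0, hy0, hN0⟩ := key
  intro i j
  refine ⟨?_, by rw [hN0]; exact zero_mem R⟩
  have hx' : F 0 1 ∈ R := hx0 ▸ zero_mem R
  have hy' : F 1 0 ∈ R := hy0 ▸ zero_mem R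
  fin_cases i <;> fin_cases j <;> assumption

end Constant

section Global

variable {Q ρ : Type} {O : Type} [CommRing O] [IsLocalRing O] (L : LocalData Q O)

/-- The three parameters at a place. -/
def par (q : Q) : Fin 3 → MvPowerSeries (Var Q ρ) O :=
  open scoped Classical in
  let x : Fin 2 → Fin 2 → Fin 2 → MvPowerSeries (Var Q ρ) O := fun k i j => X (Sum.inl (q, k, i, j))
  if IsUnit (L.sig0 q 0 1) then ![x 1 0 0, x 1 0 1, x 0 0 1]
  else if IsUnit (L.sig0 q 1 0) then ![x 1 1 1, x 1 1 0, x 0 1 0]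
  else if IsUnit (L.phi0 q 0 1) then ![x 0 0 0, x 0 0 1, x 0 1 1 + x 1 0 1]
  else if IsUnit (L.phi0 q 1 0) then ![x 0 1 1, x 0 1 0, x 0 0 0 + x 1 1 0]
  else if IsUnit (L.phi0 q 0 0 - L.phi0 q 1 1) then
    ![x 0 0 1, x 0 1 0, x 0 0 0 + x 1 0 1 + x 1 1 0]
  else ![x 0 0 0, x 0 0 1 + x 1 1 0, x 0 1 0 + x 1 0 1]

theorem par_mem_maximalIdeal (q : Q) (i : Fin 3) :
    par (ρ := ρ) L q i ∈ maximalIdeal (MvPowerSeries (Var Q ρ) O) := by
  simp only [par, FA.Patch.mem_maximalIdeal_iff_coeff]
  split_ifs <;> fin_cases i <;> simp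

/-- The ideal of the coefficients, the parameters and the free variables. -/
def parIdeal : Ideal (MvPowerSeries (Var Q ρ) O) :=
  (maximalIdeal O).map C ⊔ Ideal.span (Set.range (fun x : Q × Fin 3 => par L x.1 x.2) ∪
    Set.range fun z => X (Sum.inr z))

variable [Fintype Q] [Fintype ρ]

/-- **The parameters cut out the closed point.** -/
theorem maximalIdeal_le_radical (hqu : ∀ q, IsUnit (L.qv q : O)) :
    maximalIdeal (MvPowerSeries (Var Q ρ) O) ≤ (L.relIdeal ⊔ parIdeal L).radical := by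
  classical
  let P := MvPowerSeries (Var Q ρ) O
  rw [Ideal.radical_eq_sInf]
  refine le_sInf ?_
  rintro W ⟨hle, hW⟩
  let D := P ⧸ W
  have : IsLocalRing D := IsLocalRing.of_surjective' _ Ideal.Quotient.mk_surjective
  let π : P →+* D := Ideal.Quotient.mk W
  let φ : O →+* D := π.comp C
  have hrel : L.relIdeal ≤ W := le_sup_left.trans hle
  have hker : ∀ c ∈ maximalIdeal O, φ c = 0 := fun c hc =>
    Ideal.Quotient.eq_zero_iff_mem.mpr (hle (Ideal.mem_sup_right (Ideal.mem_sup_left
      (Ideal.mem_map_of_mem _ hc))))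
  have hXm : ∀ z, π (X z) ∈ maximalIdeal D := fun z =>
    map_mem_maximalIdeal_of_surjective π Ideal.Quotient.mk_surjective
      (FA.Patch.mem_maximalIdeal_iff_coeff.mpr (by simp))
  have hnot : ∀ c, φ c ∈ maximalIdeal D → c ∈ maximalIdeal O := fun c h => by
    by_contra hc
    exact (mem_maximalIdeal _).mp h ((not_not.mp hc).map φ)
  have hsmall : ∀ x ∈ φ.range, x ∈ maximalIdeal D → x = 0 := by
    rintro _ ⟨c, rfl⟩ h
    exact hker c (hnot c h)
  have hinv : ∀ x y, x ∈ φ.range → x * y = 1 → y ∈ φ.range := by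
    rintro _ y ⟨c, rfl⟩ h
    have hc : IsUnit c := by
      by_contra hc
      rw [hker c hc, zero_mul] at h
      exact zero_ne_one h
    obtain ⟨d, hd⟩ := isUnit_iff_exists_inv.mp hc
    refine ⟨d, ?_⟩
    rw [show y = φ (c * d) * y by rw [hd, map_one, one_mul], map_mul, mul_comm (φ c), mul_assoc, h,
      mul_one]
  have hu0 : ∀ q i, π (par L q i) = 0 := fun q i =>
    Ideal.Quotient.eq_zero_iff_mem.mpr (hle (Ideal.mem_sup_right (Ideal.mem_sup_right
      (Ideal.subset_span (.inl ⟨(q, i), rfl⟩)))))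
  obtain ⟨t, ht⟩ := exists_type_le hqu hrel
  have key : ∀ q k i j, π (X (Sum.inl (q, k, i, j))) = 0 := by
    intro q
    set F := (L.phi q).map π with hF
    set N := (L.sig q).map π - 1 with hN
    have hFv : ∀ i j, F i j = φ (L.phi0 q i j) + π (X (Sum.inl (q, 0, i, j))) := fun i j => by
      simp [hF, LocalData.phi, φ]
    have hNv : ∀ i j, N i j = φ (L.sig0 q i j - (1 : M₂ O) i j) +
        π (X (Sum.inl (q, 1, i, j))) := fun i j => by
      simp [hN, LocalData.sig, φ, Matrix.one_apply, apply_ite π]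
      ring
    obtain ⟨hdet, htN, hdN, -, hunr, hst⟩ :=
      LocalData.holds_of_le L π t (by rw [Ideal.mk_ker]; exact sup_le hrel ht) q
    have hq : (L.qv q : D) ∈ φ.range := ⟨L.qv q, map_natCast φ _⟩
    have hqu' : IsUnit (L.qv q : D) := by rw [← map_natCast φ]; exact (hqu q).map φ
    have hty : N = 0 ∨ ∃ s : D, s * s = 1 ∧ s ∈ φ.range ∧ F.trace = s * ((L.qv q : D) + 1) ∧
        F * N = (s * (L.qv q : D)) • N := by
      rcases htq : t q with _ | n
      · exact .inl (hunr htq)
      · exact .inr ⟨sgn n, sgn_mul_self n, ⟨sgn n, map_sgn φ n⟩, (hst n htq).1, (hst n htq).2⟩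
    have hres : ∀ c, ¬ IsUnit c → ∀ z, φ c + π (X z) ∈ maximalIdeal D := fun c hc z =>
      add_mem (by rw [hker c hc]; exact zero_mem _) (hXm z)
    suffices h : ∀ i j, F i j ∈ φ.range ∧ N i j ∈ φ.range by
      intro k i j
      fin_cases k
      · refine hsmall _ ?_ (hXm _)
        have := sub_mem (h i j).1 (⟨L.phi0 q i j, rfl⟩ : φ (L.phi0 q i j) ∈ φ.range)
        rwa [hFv, add_sub_cancel_left] at this
      · refine hsmall _ ?_ (hXm _)
        have := sub_mem (h i j).2 (⟨_, rfl⟩ : φ (L.sig0 q i j - (1 : M₂ O) i j) ∈ φ.range)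
        rwa [hNv, add_sub_cancel_left] at this
    have hR : ∀ {c : O} {x : D}, x = 0 → φ c + x ∈ φ.range := fun {c x} hx => by
      rw [hx, add_zero]; exact ⟨c, rfl⟩
    have hR2 : ∀ {c d : O} {x y : D}, x + y = 0 → φ c + x + (φ d + y) ∈ φ.range :=
      fun {c d x y} hx => ⟨c + d, by rw [map_add]; linear_combination -hx⟩
    have hu := hu0 q
    simp only [par] at hu
    by_cases c1 : IsUnit (L.sig0 q 0 1)
    · simp only [if_pos c1] at hu
      have hunit : IsUnit (N 0 1) := by
        rw [← residue_ne_zero_iff_isUnit, hNv, map_add, (residue_eq_zero_iff _).mpr (hXm _),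
          add_zero]
        simpa using ((c1.map φ).map (residue D)).ne_zero
      obtain ⟨s, -, hs, htr, hrel'⟩ := hty.resolve_left fun h => by
        rw [h] at hunit; exact not_isUnit_zero hunit
      exact mem_of_ramified hinv hq hs htN hdN htr hrel' (by decide) hunit
        (hNv 0 0 ▸ hR (hu 0)) (hNv 0 1 ▸ hR (hu 1)) (hFv 0 1 ▸ hR (hu 2))
    by_cases c2 : IsUnit (L.sig0 q 1 0)
    · simp only [if_neg c1, if_pos c2] at hu
      have hunit : IsUnit (N 1 0) := by
        rw [← residue_ne_zero_iff_isUnit, hNv, map_add, (residue_eq_zero_iff _).mpr (hXm _),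
          add_zero]
        simpa using ((c2.map φ).map (residue D)).ne_zero
      obtain ⟨s, -, hs, htr, hrel'⟩ := hty.resolve_left fun h => by
        rw [h] at hunit; exact not_isUnit_zero hunit
      exact mem_of_ramified hinv hq hs htN hdN htr hrel' (by decide) hunit
        (hNv 1 1 ▸ hR (hu 0)) (hNv 1 0 ▸ hR (hu 1)) (hFv 1 0 ▸ hR (hu 2))
    have hN01 : N 0 1 ∈ maximalIdeal D := by
      rw [hNv]; exact hres _ (by simpa using c1) _
    have hN10 : N 1 0 ∈ maximalIdeal D := by
      rw [hNv]; exact hres _ (by simpa using c2) _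
    have hN00 : N 0 0 ∈ maximalIdeal D := by
      refine (Ideal.IsPrime.mem_or_mem (inferInstance : (maximalIdeal D).IsPrime) ?_).elim id id
      have h00 : N 0 0 * N 0 0 = -(N 0 1 * N 1 0) := by
        rw [trace_fin_two] at htN
        rw [det_fin_two] at hdN
        linear_combination N 0 0 * htN - hdN
      rw [h00]
      exact neg_mem (Ideal.mul_mem_left _ _ hN10)
    have hN11 : N 1 1 ∈ maximalIdeal D := by
      rw [trace_fin_two] at htN
      rw [show N 1 1 = -N 0 0 by linear_combination htN]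
      exact neg_mem hN00
    have hNm : ∀ i j, N i j ∈ maximalIdeal D := fun i j => by
      fin_cases i <;> fin_cases j <;> assumption
    have hty' : N = 0 ∨ ∃ s : D, s ∈ φ.range ∧ F.trace = s * ((L.qv q : D) + 1) ∧
        F * N = (s * (L.qv q : D)) • N := hty.imp_right fun ⟨s, _, h⟩ => ⟨s, h⟩
    by_cases c3 : IsUnit (L.phi0 q 0 1)
    · simp only [if_neg c1, if_neg c2, if_pos c3] at hu
      have hunit : IsUnit (F 0 1) := by
        rw [← residue_ne_zero_iff_isUnit, hFv, map_add, (residue_eq_zero_iff _).mpr (hXm _),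
          add_zero]
        exact ((c3.map φ).map (residue D)).ne_zero
      refine mem_of_offdiag (maximalIdeal D) hsmall hinv hq hdet htN hty' hNm (by decide) hunit
        (hFv 0 0 ▸ hR (hu 0)) (hFv 0 1 ▸ hR (hu 1)) ?_
      rw [hFv, hNv]
      exact hR2 (by simpa using hu 2)
    by_cases c4 : IsUnit (L.phi0 q 1 0)
    · simp only [if_neg c1, if_neg c2, if_neg c3, if_pos c4] at hu
      have hunit : IsUnit (F 1 0) := by
        rw [← residue_ne_zero_iff_isUnit, hFv, map_add, (residue_eq_zero_iff _).mpr (hXm _),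
          add_zero]
        exact ((c4.map φ).map (residue D)).ne_zero
      refine mem_of_offdiag (maximalIdeal D) hsmall hinv hq hdet htN hty' hNm (by decide) hunit
        (hFv 1 1 ▸ hR (hu 0)) (hFv 1 0 ▸ hR (hu 1)) ?_
      rw [hFv, hNv]
      exact hR2 (by simpa using hu 2)
    have hF01 : F 0 1 ∈ maximalIdeal D := by rw [hFv]; exact hres _ c3 _
    have hF10 : F 1 0 ∈ maximalIdeal D := by rw [hFv]; exact hres _ c4 _
    have hd : F 0 0 - F 1 1 ∈ maximalIdeal D ↔ ¬ IsUnit (L.phi0 q 0 0 - L.phi0 q 1 1) := by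
      rw [hFv, hFv, ← residue_eq_zero_iff, map_sub, map_add, map_add,
        (residue_eq_zero_iff _).mpr (hXm _), (residue_eq_zero_iff _).mpr (hXm _), add_zero,
        add_zero, ← map_sub, ← map_sub, residue_eq_zero_iff]
      exact ⟨fun h => (mem_maximalIdeal _).mp (hnot _ h), fun h => by
        rw [hker _ h]; exact zero_mem _⟩
    by_cases c5 : IsUnit (L.phi0 q 0 0 - L.phi0 q 1 1)
    · simp only [if_neg c1, if_neg c2, if_neg c3, if_neg c4, if_pos c5] at hu
      refine mem_of_diag (maximalIdeal D) hsmall hinv hq hqu' hdet htN hty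
        (fun h => hd.mp h c5) hF01 hF10 hNm
        (hFv 0 1 ▸ hR (hu 0)) (hFv 1 0 ▸ hR (hu 1)) ?_
      rw [hFv, hNv, hNv]
      refine ⟨L.phi0 q 0 0 + L.sig0 q 0 1 + L.sig0 q 1 0, ?_⟩
      have h2 := hu 2
      simp at h2 ⊢
      linear_combination -h2
    · simp only [if_neg c1, if_neg c2, if_neg c3, if_neg c4, if_neg c5] at hu
      refine mem_of_scalar (maximalIdeal D) hsmall hinv hq hqu' hdet htN hdN hty (hd.mpr c5)
        hF01 hF10 hNm (hFv 0 0 ▸ hR (hu 0)) ?_ ?_
      · rw [hFv, hNv]; exact hR2 (by simpa using hu 1)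
      · rw [hFv, hNv]; exact hR2 (by simpa using hu 2)
  intro f hf
  have hX : ∀ z, (X z : P) ∈ W := by
    rintro (⟨q, k, i, j⟩ | z)
    · exact Ideal.Quotient.eq_zero_iff_mem.mp (key q k i j)
    · exact hle (Ideal.mem_sup_right (Ideal.mem_sup_right (Ideal.subset_span (.inr ⟨z, rfl⟩))))
  have h1 : f - C (constantCoeff f) ∈ Ideal.span (Set.range (X : Var Q ρ → P)) ^ 1 := by
    refine FA.Patch.mem_span_X_pow fun x hx => ?_
    obtain rfl : x = 0 := (Finsupp.degree_eq_zero_iff x).mp (by omega)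
    simp
  rw [pow_one] at h1
  have h2 : f - C (constantCoeff f) ∈ W :=
    (Ideal.span_le.mpr (by rintro _ ⟨z, rfl⟩; exact hX z)) h1
  have h3 : (C (constantCoeff f) : P) ∈ W :=
    hle (Ideal.mem_sup_right (Ideal.mem_sup_left (Ideal.mem_map_of_mem _
      (FA.Patch.mem_maximalIdeal_iff_coeff.mp hf))))
  simpa using add_mem h2 h3

end Global

section Finite

variable {S P : Type} [CommRing S] [IsLocalRing S] [IsNoetherianRing S]
  [IsAdicComplete (maximalIdeal S) S] [CommRing P] [IsLocalRing P] [IsNoetherianRing P]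
  [Finite (ResidueField P)] (j : S →+* P)

/-- A quotient of a noetherian local ring is finite over a complete ring cutting out its closed
point. -/
theorem finite_quotient_of_radical (hj : ∀ x ∈ maximalIdeal S, j x ∈ maximalIdeal P) (J : Ideal P)
    (h : maximalIdeal P ≤ (J ⊔ (maximalIdeal S).map j).radical) :
    ((Ideal.Quotient.mk J).comp j).Finite := by
  classical
  rcases eq_or_ne J ⊤ with rfl | hJ
  · have : Subsingleton (P ⧸ (⊤ : Ideal P)) := Ideal.Quotient.subsingleton_iff.mpr rfl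
    exact RingHom.Finite.of_surjective _ fun x => ⟨0, Subsingleton.elim _ _⟩
  let B := P ⧸ J
  have : Nontrivial B := Ideal.Quotient.nontrivial_iff.mpr hJ
  have : IsLocalRing B := IsLocalRing.of_surjective' _ Ideal.Quotient.mk_surjective
  have : IsNoetherianRing B := isNoetherianRing_of_surjective P B _ Ideal.Quotient.mk_surjective
  let g : S →+* B := (Ideal.Quotient.mk J).comp j
  let b := J ⊔ (maximalIdeal S).map j
  obtain ⟨n, hn⟩ := Ideal.exists_pow_le_of_le_radical_of_fg h
    ((IsNoetherian.noetherian (maximalIdeal P)))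
  have : Finite (P ⧸ maximalIdeal P ^ n) := FA.Patch.finite_quotient_pow P n
  have : Finite (P ⧸ b) :=
    Finite.of_surjective (Ideal.Quotient.factor hn) (Ideal.Quotient.factor_surjective hn)
  choose rep hrep using fun y : P ⧸ b => Ideal.Quotient.mk_surjective y
  have : Fintype (P ⧸ b) := Fintype.ofFinite _
  let _ : Algebra S B := g.toAlgebra
  have hI : (maximalIdeal S).map g ≤ maximalIdeal B := Ideal.map_le_iff_le_comap.mpr fun x hx =>
    map_mem_maximalIdeal_of_surjective _ Ideal.Quotient.mk_surjective (hj x hx)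
  have : IsHausdorff (maximalIdeal S) B := ⟨fun x hx => by
    have hx' : ∀ k : ℕ, x ∈ maximalIdeal B ^ k := fun k => by
      refine Ideal.pow_right_mono hI k ?_
      have := hx k
      rw [SModEq.zero, Ideal.smul_top_eq_map, Submodule.restrictScalars_mem, Ideal.map_pow] at this
      exact this
    rw [← Ideal.mem_bot, ← Ideal.iInf_pow_eq_bot_of_isLocalRing (maximalIdeal B)
      (maximalIdeal.isMaximal B).ne_top, Ideal.mem_iInf]
    exact hx'⟩
  have : IsAdicComplete (maximalIdeal S) ((P ⧸ b) → S) :=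
    IsAdicComplete.of_module_finite (maximalIdeal S) _
  let f : ((P ⧸ b) → S) →ₗ[S] B := Fintype.linearCombination S fun y => Ideal.Quotient.mk J (rep y)
  have hsurj : Function.Surjective f := by
    refine surjective_of_mkQ_comp_surjective (I := maximalIdeal S) fun x => ?_
    obtain ⟨x, rfl⟩ := Submodule.mkQ_surjective _ x
    obtain ⟨x, rfl⟩ := Ideal.Quotient.mk_surjective x
    refine ⟨Pi.single (Ideal.Quotient.mk b x) 1, ?_⟩
    rw [LinearMap.comp_apply, Fintype.linearCombination_apply_single, one_smul,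
      Submodule.mkQ_apply, Submodule.mkQ_apply, Submodule.Quotient.eq, Ideal.smul_top_eq_map,
      Submodule.restrictScalars_mem, ← map_sub]
    have hx : rep (Ideal.Quotient.mk b x) - x ∈ b := by
      rw [← Ideal.Quotient.mk_eq_mk_iff_sub_mem, hrep]
    obtain ⟨u, hu, v, hv, huv⟩ := Submodule.mem_sup.mp hx
    rw [← huv, map_add, Ideal.Quotient.eq_zero_iff_mem.mpr hu, zero_add]
    show _ ∈ (maximalIdeal S).map g
    rw [← Ideal.map_map]
    exact Ideal.mem_map_of_mem _ hv
  exact Module.Finite.of_surjective f hsurj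

/-- Primes containing `J` over the same prime of a ring over which `P ⧸ J` is integral are
incomparable. -/
theorem eq_of_comap_eq_bot {S P : Type} [CommRing S] [CommRing P] (j : S →+* P) {J : Ideal P}
    (hint : ((Ideal.Quotient.mk J).comp j).IsIntegral) {C Q : Ideal P} [C.IsPrime] [Q.IsPrime]
    (hJ : J ≤ C) (hCQ : C ≤ Q) (hQ : Q.comap j = ⊥) : C = Q := by
  have : Nontrivial S := ((Ideal.Quotient.mk C).comp j).domain_nontrivial
  let g : S →+* P ⧸ C := (Ideal.Quotient.mk C).comp j
  let _ : Algebra S (P ⧸ C) := g.toAlgebra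
  have hg : g = (Ideal.Quotient.factor hJ).comp ((Ideal.Quotient.mk J).comp j) := rfl
  have : Algebra.IsIntegral S (P ⧸ C) := ⟨by
    show g.IsIntegral
    rw [hg]
    exact RingHom.IsIntegral.trans _ _ hint
      (RingHom.isIntegral_of_surjective _ (Ideal.Quotient.factor_surjective hJ))⟩
  have h0 : Q.map (Ideal.Quotient.mk C) = ⊥ := by
    refine Ideal.eq_bot_of_comap_eq_bot (R := S) ?_
    show Ideal.comap g _ = ⊥
    rw [show g = (Ideal.Quotient.mk C).comp j from rfl, ← Ideal.comap_comap,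
      Ideal.comap_map_of_surjective _ Ideal.Quotient.mk_surjective,
      ← RingHom.ker_eq_comap_bot, Ideal.mk_ker, sup_eq_left.mpr hCQ, hQ]
  exact le_antisymm hCQ ((Ideal.map_eq_bot_iff_le_ker _).mp h0 |>.trans_eq Ideal.mk_ker)

end Finite

section Integral

variable {Q ρ : Type} [Fintype Q] [Fintype ρ] {O : Type} [CommRing O] [IsLocalRing O]
  [IsNoetherianRing O] {S : Type} [CommRing S] [IsLocalRing S] [IsNoetherianRing S]
  [IsAdicComplete (maximalIdeal S) S] [Finite (ResidueField (MvPowerSeries (Var Q ρ) O))]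

/-- The quotient by the relations is integral over a complete ring reaching the parameters. -/
theorem isIntegral_of_parIdeal_le (L : LocalData Q O) (hqu : ∀ q, IsUnit (L.qv q : O))
    (j : S →+* MvPowerSeries (Var Q ρ) O)
    (hj : ∀ x ∈ maximalIdeal S, j x ∈ maximalIdeal (MvPowerSeries (Var Q ρ) O))
    (h : parIdeal L ≤ (L.relIdeal ⊔ (maximalIdeal S).map j).radical) :
    ((Ideal.Quotient.mk L.relIdeal).comp j).IsIntegral :=
  (finite_quotient_of_radical j hj L.relIdeal ((maximalIdeal_le_radical L hqu).trans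
    ((Ideal.radical_mono (sup_le (le_sup_left.trans Ideal.le_radical) h)).trans_eq
      (Ideal.radical_idem _)))).to_isIntegral

end Integral

end FA.LocalComp
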