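import Fermat.Agent.LocalComp.Comp
import Mathlib.RingTheory.Valuation.LocalSubring
import Mathlib.RingTheory.Localization.FractionRing
import Mathlib.RingTheory.Adjoin.FG
import Mathlib.RingTheory.Filtration

/-!
# Primes containing the relations

The component of a type is the smallest prime containing the relations and the equations of the
type, and every prime containing the relations contains the equations of some type.
-/

set_option autoImplicit false

noncomputable section

open MvPowerSeries IsLocalRing Matrix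

namespace FA.LocalComp

local notation "M₂" => Matrix (Fin 2) (Fin 2)

variable {Q ρ : Type} [Fintype Q] [Fintype ρ] {O : Type} [CommRing O] [IsLocalRing O]
  [IsAdicComplete (maximalIdeal O) O] {L : LocalData Q O} {t : Q → Ty} {B : Q → Base O}
  (hB : ∀ q, IsBase L q (t q) (B q))

/-- The values at a point of the coordinates of the charts kill the kernel of the chart. -/
theorem map_eq_zero_of_values {E : Type*} [CommRing E] (𝔞 : Ideal E)
    (hsep : ∀ x, (∀ n : ℕ, x ∈ 𝔞 ^ n) → x = 0) (π : MvPowerSeries (Var Q ρ) O →+* E)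
    (hC : ∀ c ∈ maximalIdeal O, π (C c) ∈ 𝔞) (hXs : ∀ z, π (X z) ∈ 𝔞) (V : Q → Fin 3 → E)
    (hV : ∀ q i, ¬ (i = 0 ∧ Degenerate L q (t q)) → V q i - π (C ((B q).v i)) ∈ 𝔞)
    (hphi : ∀ q, (L.phi q).map π =
      phiForm (π.comp C) (L.qv q) (B q).G (B q).e (t q) (V q))
    (hsig : ∀ q, (L.sig q).map π = 1 + nForm (B q).e (t q) (V q))
    {f : MvPowerSeries (Var Q ρ) O} (hf : typeHom hB f = 0) : π f = 0 := by
  classical
  refine hsep _ fun n => ?_
  let pt : Par Q ρ → E :=
    Sum.elim (fun x => V x.1 x.2 - π (C ((B x.1).v x.2))) fun z => π (X (Sum.inr z))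
  have hpt : ∀ z, parWt L t z ≠ 0 → pt z ∈ 𝔞 := by
    rintro (⟨q, i⟩ | z) hz
    · exact hV q i fun h => hz (by simp [parWt, h.1, h.2])
    · exact hXs _
  have hval : ∀ z, π (X z) = MvPolynomial.eval₂ (π.comp C) pt (chartPoly L t B z) := by
    intro z
    let ev := MvPolynomial.eval₂Hom (π.comp C) pt
    have hC' : ev.comp MvPolynomial.C = π.comp C :=
      RingHom.ext fun c => MvPolynomial.eval₂_C _ _ c
    show π (X z) = ev (chartPoly L t B z)
    rcases z with ⟨q, k, i, j⟩ | z
    swap
    · simp [chartPoly, ev, pt]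
    have hv : (fun a => ev (parVal B q a)) = V q := funext fun a => by simp [parVal, ev, pt]
    simp only [chartPoly]
    split_ifs with hk
    · subst hk
      have h1 : ev (phiForm MvPolynomial.C (L.qv q) (B q).G (B q).e (t q) (parVal B q) i j) =
          π (L.phi q i j) := by
        have h := congrFun (congrFun
          (map_phiForm MvPolynomial.C ev (L.qv q) (B q).G (B q).e (t q) (parVal B q)) i) j
        rw [hC', hv, ← hphi q] at h
        exact h
      rw [map_sub, h1, show ev (MvPolynomial.C (L.phi0 q i j)) = π (C (L.phi0 q i j)) from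
        RingHom.congr_fun hC' _, ← map_sub]
      simp [LocalData.phi]
    · have hk1 : k = 1 := Fin.eq_one_of_ne_zero _ hk
      subst hk1
      have h1 : ev ((1 + nForm (B q).e (t q) (parVal B q) :
          M₂ (MvPolynomial (Par Q ρ) O)) i j) = π (L.sig q i j) := by
        have h := congrFun (congrFun (map_nForm ev (B q).e (t q) (parVal B q)) i) j
        rw [hv] at h
        have h2 := congrFun (congrFun (hsig q) i) j
        simp only [Matrix.map_apply] at h h2
        rw [h2, Matrix.add_apply, map_add, h, Matrix.add_apply]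
        simp [Matrix.one_apply, apply_ite ev]
      rw [map_sub, h1, show ev (MvPolynomial.C (L.sig0 q i j)) = π (C (L.sig0 q i j)) from
        RingHom.congr_fun hC' _, ← map_sub]
      simp [LocalData.sig]
  have h := map_mem_pow_of_chartHom_eq_zero (parMonomial (L := L) t) (chartPoly L t B)
    (wt := parWt L t) 𝔞 (π.comp C) hC π pt (fun c => c.prod fun z a => pt z ^ a) (fun c => rfl)
    hval hXs (fun d => by simp [parMonomial])
    (fun c => by
      rw [show (parMonomial (L := L) (ρ := ρ) t).deg c = wdeg (parWt L t) c from rfl,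
        Finsupp.prod, wdeg, Finsupp.sum, ← Finset.prod_pow_eq_pow_sum]
      refine Ideal.prod_mem_prod fun z _ => ?_
      rcases eq_or_ne (parWt L t z) 0 with h0 | h0
      · rw [h0, mul_zero, pow_zero, Ideal.one_eq_top]
        exact Submodule.mem_top
      · have hle : parWt L t z ≤ 1 := by
          rcases z with ⟨q, i⟩ | z <;> simp [parWt] <;> split_ifs <;> omega
        rw [show parWt L t z = 1 by omega, mul_one]
        exact Ideal.pow_mem_pow (hpt z h0) _)
    (fun c => by simp [parMonomial]) le_rfl (chartPoly_mem_filt hB) hf n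
  rwa [show (parMonomial (L := L) (ρ := ρ) t).K = 1 from rfl, Nat.div_one] at h

omit [Fintype Q] [Fintype ρ] [IsAdicComplete (maximalIdeal O) O] in
theorem sgn_mul_sub_sgn_mem {q : Q} {n : Bool} {b : Base O} (hb : IsBase L q (.st n) b)
    (hd : Degenerate L q (.st n)) : sgn n * (L.qv q : O) - sgn n ∈ maximalIdeal O := by
  rw [← residue_eq_zero_iff, map_sub, sub_eq_zero]
  exact residue_sgn_mul_eq L hb hd

/-- The kernel of a chart does not depend on flips at degenerate places. -/
theorem typeHom_eq_zero_of_flip {B' : Q → Base O} (hB' : ∀ q, IsBase L q (t q) (B' q))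
    (hflip : ∀ q, B' q = B q ∨
      (Degenerate L q (t q) ∧ (B q).e = false ∧ B' q = { B q with e := true }))
    {f : MvPowerSeries (Var Q ρ) O} (hf : typeHom hB f = 0) : typeHom hB' f = 0 := by
  classical
  let A := MvPowerSeries (Par Q ρ) O
  have hCm : ∀ c ∈ maximalIdeal O, (C c : A) ∈ maximalIdeal A := fun c hc =>
    FA.Patch.mem_maximalIdeal_iff_coeff.mpr (by simpa using hc)
  have hXm : ∀ y : Par Q ρ, (X y : A) ∈ maximalIdeal A := fun y =>
    FA.Patch.mem_maximalIdeal_iff_coeff.mpr (by simp)
  have hu : ∀ q, B' q ≠ B q → IsUnit (1 - parSeries (ρ := ρ) B' q 0 : A) := by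
    intro q hq
    obtain ⟨hd, -, hb⟩ := (hflip q).resolve_left hq
    rw [MvPowerSeries.isUnit_iff_constantCoeff]
    simp [parSeries, hb, (hB q).origin hd]
  choose u hu' using fun q (hq : B' q ≠ B q) => isUnit_iff_exists_inv.mp (hu q hq)
  let V : Q → Fin 3 → A := fun q i =>
    if hq : B' q = B q then parSeries B' q i
    else
      ![parSeries B' q 0 * u q hq,
        (1 - parSeries B' q 0) ^ 2 * parSeries B' q 1 + (1 - parSeries B' q 0) *
          (match t q with
            | .unr => 0
            | .st n => sgn n * (L.qv q : A) - sgn n),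
        (1 - parSeries B' q 0) ^ 2 * parSeries B' q 2] i
  have hsplit : ∀ q, B' q ≠ B q → ∃ n, t q = .st n ∧ Degenerate L q (.st n) ∧ (B q).e = false ∧
      B' q = { B q with e := true } := by
    intro q hq
    obtain ⟨hd, he, hb⟩ := (hflip q).resolve_left hq
    rcases ht : t q with _ | n
    · rw [ht] at hd; exact hd.elim
    · rw [ht] at hd; exact ⟨n, rfl, hd, he, hb⟩
  refine map_eq_zero_of_values hB (maximalIdeal A)
    (fun x hx => IsHausdorff.haus' (I := maximalIdeal A) x fun n => by
      rw [SModEq.zero, smul_eq_mul, Ideal.mul_top]; exact hx n)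
    (typeHom hB') (fun c hc => by rw [typeHom_C]; exact hCm c hc)
    (fun z => by
      rw [typeHom_X]
      exact map_chartPoly_mem hB' MvPolynomial.coeToMvPowerSeries.ringHom _
        (fun c hc => by simpa using hCm c hc) (fun y _ => by simpa using hXm y) z)
    V ?_ ?_ ?_ hf
  · intro q i hi
    by_cases hq : B' q = B q
    · simp only [V, dif_pos hq]
      rw [typeHom_C, parSeries, hq, add_sub_cancel_left]
      exact hXm _
    · obtain ⟨n, hn, hd, he, hb⟩ := hsplit q hq
      have h0 : (B q).v = 0 := (hB q).origin (hn ▸ hd)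
      rw [hn] at hi
      simp only [V, dif_neg hq, typeHom_C, h0, Pi.zero_apply, map_zero, sub_zero]
      have hv : ∀ a, parSeries (ρ := ρ) B' q a ∈ maximalIdeal A := fun a => by
        simp only [parSeries, hb, h0, Pi.zero_apply, map_zero, zero_add]
        exact hXm _
      have hbq : IsBase L q (.st n) (B q) := hn ▸ hB q
      fin_cases i
      · exact absurd ⟨rfl, hd⟩ hi
      · simp only [hn]
        refine add_mem (Ideal.mul_mem_left _ _ (hv 1)) (Ideal.mul_mem_left _ _ ?_)
        have := hCm _ (sgn_mul_sub_sgn_mem hbq hd)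
        rwa [map_sub, map_mul, map_sgn, map_natCast] at this
      · exact Ideal.mul_mem_left _ _ (hv 2)
  · intro q
    rw [map_phi_typeHom, show (typeHom hB').comp C = (C : O →+* A) from RingHom.ext (typeHom_C hB')]
    by_cases hq : B' q = B q
    · rw [hq]
      exact congrArg _ (funext fun i => by simp [V, hq])
    · obtain ⟨n, hn, hd, he, hb⟩ := hsplit q hq
      simp only [hn, phiForm, he]
      rw [show (B' q).e = true by rw [hb]]
      simp only [unflipB, if_true, Bool.false_eq_true, if_false, V, dif_neg hq, hn,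
        Matrix.cons_val]
      exact unflip2_flag2 _ _ _ _ _ (hu' q hq)
  · intro q
    rw [map_sig_typeHom]
    by_cases hq : B' q = B q
    · rw [hq]
      exact congrArg _ (congrArg _ (funext fun i => by simp [V, hq]))
    · obtain ⟨n, hn, hd, he, hb⟩ := hsplit q hq
      simp only [hn, nForm, he]
      rw [show (B' q).e = true by rw [hb]]
      simp only [unflipB, if_true, Bool.false_eq_true, if_false, V, dif_neg hq, hn,
        Matrix.cons_val]
      rw [unflip2_flag2 _ _ _ _ _ (hu' q hq), sub_self, mul_zero, add_zero]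

section Slope

variable {A : Type*} [CommRing A]

/-- `flipB` undoes `unflipB`. -/
theorem flipB_unflipB (e : Bool) (M : M₂ A) : flipB e (unflipB e M) = M := by
  cases e
  · rfl
  · ext i j
    fin_cases i <;> fin_cases j <;> simp [unflipB, flipB, unflip2, flip2]; try ring

theorem flipB_sub_smul (e : Bool) (a : A) (M : M₂ A) :
    flipB e (M - a • 1) = flipB e M - a • 1 := by
  cases e
  · rfl
  · ext i j
    fin_cases i <;> fin_cases j <;> simp [flipB, flip2] <;> ring

/-- Matrices which do not vanish residually have, after a suitable flip, a unit in the second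
column. -/
theorem exists_unit_col [IsLocalRing A] (M : M₂ A) (hM : ∃ i j, IsUnit (M i j)) :
    ∃ e i, IsUnit (flipB e M i 1) := by
  by_cases h : ∃ i, IsUnit (M i 1)
  · obtain ⟨i, hi⟩ := h
    exact ⟨false, i, by simpa [flipB] using hi⟩
  push Not at h
  have h0 : ∀ i, M i 1 ∈ maximalIdeal A := fun i => (mem_maximalIdeal _).mpr (h i)
  by_cases h10 : IsUnit (M 1 0)
  · refine ⟨true, 1, ?_⟩
    by_contra hc
    have h1 : M 1 1 - M 1 0 ∈ maximalIdeal A :=
      (mem_maximalIdeal _).mpr (by simpa [flipB, flip2] using hc)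
    have := sub_mem (h0 1) h1
    rw [sub_sub_cancel] at this
    exact (mem_maximalIdeal _).mp this h10
  · have h1 : M 1 0 ∈ maximalIdeal A := (mem_maximalIdeal _).mpr h10
    have h00 : IsUnit (M 0 0) := by
      obtain ⟨i, j, hij⟩ := hM
      fin_cases i <;> fin_cases j
      · exact hij
      · exact absurd hij (h 0)
      · exact absurd hij h10
      · exact absurd hij (h 1)
    refine ⟨true, 0, ?_⟩
    by_contra hc
    have h2 : M 0 1 + M 1 1 - M 0 0 - M 1 0 ∈ maximalIdeal A :=
      (mem_maximalIdeal _).mpr (by simpa [flipB, flip2] using hc)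
    have := sub_mem (sub_mem (add_mem (h0 0) (h0 1)) h1) h2
    rw [show M 0 1 + M 1 1 - M 1 0 - (M 0 1 + M 1 1 - M 0 0 - M 1 0) = M 0 0 by ring] at this
    exact (mem_maximalIdeal _).mp this h00

theorem row_unit_of_kills [IsLocalRing A] {M : M₂ A} {w : A} (i : Fin 2)
    (hkill : M i 0 + M i 1 * w ∈ maximalIdeal A) (hM : IsUnit (M i 0) ∨ IsUnit (M i 1)) :
    IsUnit (M i 1) := by
  rcases hM with h | h
  · by_contra hc
    have := sub_mem hkill ((maximalIdeal A).mul_mem_right w ((mem_maximalIdeal _).mpr hc))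
    rw [add_sub_cancel_right] at this
    exact (mem_maximalIdeal _).mp this h
  · exact h

end Slope

section Place

variable {D : Type} [CommRing D] [IsDomain D] [IsLocalRing D] {K : Type} [Field K] [Algebra D K]
  (hinj : Function.Injective (algebraMap D K))

include hinj in
/-- A Steinberg pair over a local domain whose line has, after a flip, a slope in the domain. -/
theorem exists_flag_of_unit (e : Bool) {F N : M₂ D} {a d : D} {e₁ e₂ : K}
    (hne : e₁ ≠ 0 ∨ e₂ ≠ 0) (hF : Eig2 (F.map (algebraMap D K)) (algebraMap D K a) e₁ e₂)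
    (hN : Eig2 (N.map (algebraMap D K)) 0 e₁ e₂) (htr : F.trace = a + d) (htrN : N.trace = 0)
    {i : Fin 2} (hu : IsUnit (flipB e (F - a • 1) i 1) ∨ IsUnit (flipB e N i 1)) :
    ∃ w : D, flipB e F = flag2 w a (flipB e F 0 1) d ∧
      flipB e N = flag2 w 0 (flipB e N 0 1) 0 := by
  let j := algebraMap D K
  obtain ⟨c₁, c₂, hne', hF', hN'⟩ : ∃ c₁ c₂ : K, (c₁ ≠ 0 ∨ c₂ ≠ 0) ∧
      Eig2 ((flipB e F).map j) (j a) c₁ c₂ ∧ Eig2 ((flipB e N).map j) 0 c₁ c₂ := by
    rw [map_flipB, map_flipB]
    cases e
    · exact ⟨e₁, e₂, hne, hF, hN⟩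
    · refine ⟨e₁ + e₂, e₂, ?_, hF.flip, hN.flip⟩
      by_contra h
      push Not at h
      obtain ⟨h1, h2⟩ := h
      rw [h2, add_zero] at h1
      exact hne.elim (· h1) (· h2)
  obtain ⟨r₀, r₁, hr₁, hr⟩ : ∃ r₀ r₁ : D, IsUnit r₁ ∧ j r₀ * c₁ + j r₁ * c₂ = 0 := by
    rcases hu with hu | hu
    · refine ⟨flipB e (F - a • 1) i 0, flipB e (F - a • 1) i 1, hu, ?_⟩
      show j (flipB e (F - a • 1) i 0) * c₁ + j (flipB e (F - a • 1) i 1) * c₂ = 0
      rw [flipB_sub_smul]
      obtain ⟨h1, h2⟩ := hF'
      simp only [Matrix.map_apply] at h1 h2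
      fin_cases i <;> simp [Matrix.sub_apply, Matrix.smul_apply, map_sub] 
      · linear_combination h1
      · linear_combination h2
    · refine ⟨flipB e N i 0, flipB e N i 1, hu, ?_⟩
      show j (flipB e N i 0) * c₁ + j (flipB e N i 1) * c₂ = 0
      obtain ⟨h1, h2⟩ := hN'
      simp only [Matrix.map_apply] at h1 h2
      fin_cases i <;> simp
      · linear_combination h1
      · linear_combination h2
  obtain ⟨r₁', hr₁'⟩ := isUnit_iff_exists_inv.mp hr₁
  have hj1 : j r₁ ≠ 0 := fun h => hr₁.ne_zero (hinj (h.trans (map_zero j).symm))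
  have hc1 : c₁ ≠ 0 := by
    intro h
    rw [h, mul_zero, zero_add] at hr
    exact hne'.elim (· h) (· ((mul_eq_zero.mp hr).resolve_left hj1))
  have hw : j (-(r₀ * r₁')) = c₂ / c₁ := by
    rw [eq_div_iff hc1, map_neg, map_mul]
    have h1 : j r₁ * j r₁' = 1 := by rw [← map_mul, hr₁', map_one]
    linear_combination (-(j r₁')) * hr + c₂ * h1
  have hmap : ∀ (M : M₂ D) (x y : D), Eig2 (M.map j) (j x) c₁ c₂ → M.trace = x + y →
      M = flag2 (-(r₀ * r₁')) x (M 0 1) y := by
    intro M x y hM ht
    have h := hM.eq_flag2 (d := j y) (by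
      rw [← map_add, ← ht]; simp [Matrix.trace]) hc1
    rw [← hw, show M.map j 0 1 = j (M 0 1) from rfl, ← map_flag2] at h
    exact Matrix.map_injective hinj h
  refine ⟨_, hmap _ a d hF' (by rw [trace_flipB, htr]), hmap _ 0 0 ?_ (by
    rw [trace_flipB, htrN, add_zero])⟩
  rwa [map_zero]

end Place

section Residual

variable {D : Type} [CommRing D] [IsLocalRing D]

omit [Fintype Q] [Fintype ρ] [IsAdicComplete (maximalIdeal O) O] in
/-- An invertible lift of prescribed determinant. -/
theorem exists_lift_det (A : M₂ O) {q : O} (hq : IsUnit q)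
    (hA : residue O A.det = residue O q) :
    ∃ G : M₂ O, G.det = q ∧ G.map (residue O) = A.map (residue O) := by
  have hdet : IsUnit A.det := (residue_ne_zero_iff_isUnit _).mp
    (hA ▸ (residue_ne_zero_iff_isUnit q).mpr hq)
  rw [det_fin_two, map_sub, map_mul, map_mul] at hA
  by_cases h11 : IsUnit (A 1 1)
  · obtain ⟨v, hv⟩ := isUnit_iff_exists_inv.mp h11
    refine ⟨!![(q + A 0 1 * A 1 0) * v, A 0 1; A 1 0, A 1 1], ?_, ?_⟩
    · simp [det_fin_two]; linear_combination (q + A 0 1 * A 1 0) * hv
    · ext i j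
      fin_cases i <;> fin_cases j <;> simp
      have h1 : residue O (A 1 1) * residue O v = 1 := by rw [← map_mul, hv, map_one]
      linear_combination (-(residue O v)) * hA + (residue O (A 0 0)) * h1
  · have h10 : IsUnit (A 1 0) := by
      by_contra h10
      rw [det_fin_two] at hdet
      refine (mem_maximalIdeal _).mp ?_ hdet
      exact sub_mem (Ideal.mul_mem_left _ _ ((mem_maximalIdeal _).mpr h11))
        (Ideal.mul_mem_left _ _ ((mem_maximalIdeal _).mpr h10))
    obtain ⟨v, hv⟩ := isUnit_iff_exists_inv.mp h10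
    refine ⟨!![A 0 0, (A 0 0 * A 1 1 - q) * v; A 1 0, A 1 1], ?_, ?_⟩
    · simp [det_fin_two]; linear_combination (-(A 0 0 * A 1 1 - q)) * hv
    · ext i j
      fin_cases i <;> fin_cases j <;> simp
      have h1 : residue O (A 1 0) * residue O v = 1 := by rw [← map_mul, hv, map_one]
      linear_combination (residue O v) * hA + (residue O (A 0 1)) * h1

variable (φ : O →+* D) (hφ : ∀ c, φ c ∈ maximalIdeal D ↔ c ∈ maximalIdeal O)

include hφ in
omit [Fintype Q] [Fintype ρ] [IsAdicComplete (maximalIdeal O) O] in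
theorem residue_eq_iff (a b : O) :
    residue D (φ a) = residue D (φ b) ↔ residue O a = residue O b := by
  rw [← sub_eq_zero, ← map_sub, ← map_sub, residue_eq_zero_iff, hφ, ← residue_eq_zero_iff, map_sub,
    sub_eq_zero]

include hφ in
omit [Fintype Q] [Fintype ρ] [IsAdicComplete (maximalIdeal O) O] in
theorem cong_iff (A A' : M₂ O) :
    Cong A A' ↔ A.map ((residue D).comp φ) = A'.map ((residue D).comp φ) := by
  constructor
  · intro h
    exact Matrix.ext fun i j => (residue_eq_iff φ hφ _ _).mpr (congrFun (congrFun h i) j)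
  · intro h
    exact Matrix.ext fun i j => (residue_eq_iff φ hφ _ _).mp (congrFun (congrFun h i) j)

end Residual

end FA.LocalComp
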